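import Mathlib.GroupTheory.Coset.Basic
import Mathlib.Algebra.Module.Hom
import Mathlib.Data.Fintype.BigOperators
import Fermat.Agent.Periods.HeckeSystem

/-!
# Coset operators between spaces of homomorphisms `Hom(Γ, A)`

`opOf rep` sends `φ : Γ' → A` to `γ ↦ ∑ᵢ φ(repᵢ γ rep_{σ i}⁻¹)`. No uniqueness of the
representatives is needed, so that the operators compose and add freely.
-/

set_option autoImplicit false

noncomputable section

namespace Fermat.Agent.RT.GammaH

open Matrix.SpecialLinearGroup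
open scoped MatrixGroups

/-- The ambient group. -/
abbrev GLR : Type := GL (Fin 2) ℝ

/-- `Γ` inside `GL(2, ℝ)`. -/
def img (Γ : Subgroup SL(2, ℤ)) : Subgroup GLR := Γ.map (mapGL ℝ)

theorem mapGL_mem_img {Γ : Subgroup SL(2, ℤ)} {γ : SL(2, ℤ)} :
    (mapGL ℝ γ : GLR) ∈ img Γ ↔ γ ∈ Γ := by
  refine ⟨?_, fun h => ⟨γ, h, rfl⟩⟩
  rintro ⟨δ, hδ, h⟩
  rwa [← Matrix.SpecialLinearGroup.mapGL_injective h]

theorem img_mono {Γ' Γ : Subgroup SL(2, ℤ)} (h : Γ' ≤ Γ) : img Γ' ≤ img Γ :=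
  Subgroup.map_mono h

variable {Γ'' Γ' Γ : Subgroup SL(2, ℤ)} {ι κ : Type*} {A B : Type*} [AddCommGroup A]
  [AddCommGroup B]

open scoped Classical in
/-- `φ` read on the image of `Γ` in `GL(2, ℝ)`, extended by `0`. -/
def onImg (φ : Additive Γ →+ A) (g : GLR) : A :=
  if h : ∃ γ : Γ, mapGL ℝ (γ : SL(2, ℤ)) = g then φ (Additive.ofMul h.choose) else 0

theorem onImg_mapGL (φ : Additive Γ →+ A) (γ : Γ) :
    onImg φ (mapGL ℝ (γ : SL(2, ℤ))) = φ (Additive.ofMul γ) := by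
  have h : ∃ δ : Γ, (mapGL ℝ (δ : SL(2, ℤ)) : GLR) = mapGL ℝ (γ : SL(2, ℤ)) := ⟨γ, rfl⟩
  rw [onImg, dif_pos h]
  exact congrArg _ (congrArg _ (Subtype.ext
    (Matrix.SpecialLinearGroup.mapGL_injective h.choose_spec)))

theorem exists_of_mem_img {g : GLR} (h : g ∈ img Γ) : ∃ γ : Γ, mapGL ℝ (γ : SL(2, ℤ)) = g := by
  obtain ⟨γ, hγ, rfl⟩ := h
  exact ⟨⟨γ, hγ⟩, rfl⟩

theorem onImg_mul (φ : Additive Γ →+ A) {g h : GLR} (hg : g ∈ img Γ) (hh : h ∈ img Γ) :
    onImg φ (g * h) = onImg φ g + onImg φ h := by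
  obtain ⟨γ, rfl⟩ := exists_of_mem_img hg
  obtain ⟨δ, rfl⟩ := exists_of_mem_img hh
  rw [← map_mul, ← Subgroup.coe_mul, onImg_mapGL, onImg_mapGL, onImg_mapGL, ofMul_mul, map_add]

theorem onImg_one (φ : Additive Γ →+ A) : onImg φ 1 = 0 := by
  have h := onImg_mapGL φ 1
  rwa [OneMemClass.coe_one, map_one, ofMul_one, map_zero] at h

theorem onImg_inv (φ : Additive Γ →+ A) {g : GLR} (hg : g ∈ img Γ) :
    onImg φ g⁻¹ = -onImg φ g := by
  refine eq_neg_of_add_eq_zero_left ?_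
  rw [← onImg_mul φ (inv_mem hg) hg, inv_mul_cancel, onImg_one]

theorem onImg_add (φ ψ : Additive Γ →+ A) (g : GLR) : onImg (φ + ψ) g = onImg φ g + onImg ψ g := by
  unfold onImg
  split_ifs <;> simp

theorem onImg_comp (f : A →+ B) (φ : Additive Γ →+ A) (g : GLR) :
    onImg (f.comp φ) g = f (onImg φ g) := by
  unfold onImg
  split_ifs <;> simp

theorem onImg_smul {R : Type*} [Semiring R] [Module R A] (c : R) (φ : Additive Γ →+ A) (g : GLR) :
    onImg (c • φ) g = c • onImg φ g := by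
  unfold onImg
  split_ifs <;> simp

/-- Permutation data of a family of coset representatives under right multiplication by `γ`. -/
def IsPerm (Γ' : Subgroup SL(2, ℤ)) (rep : ι → GLR) (γ : GLR) (σ : ι → ι) : Prop :=
  Function.Bijective σ ∧ ∀ i, rep i * γ * (rep (σ i))⁻¹ ∈ img Γ'

/-- The family is stable under right multiplication by `Γ`, modulo left multiplication by `Γ'`. -/
def Admissible (Γ' Γ : Subgroup SL(2, ℤ)) (rep : ι → GLR) : Prop :=
  ∀ γ : Γ, ∃ σ, IsPerm Γ' rep (mapGL ℝ (γ : SL(2, ℤ))) σ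

/-- The chosen representative of `Γ' g`. -/
def canon (Γ' : Subgroup SL(2, ℤ)) (g : GLR) : GLR :=
  (Quotient.mk (QuotientGroup.rightRel (img Γ')) g).out

theorem mul_canon_inv_mem (g : GLR) : g * (canon Γ' g)⁻¹ ∈ img Γ' :=
  QuotientGroup.rightRel_apply.1 (Quotient.mk_out (s := QuotientGroup.rightRel (img Γ')) g)

theorem canon_eq_of_mul_inv_mem {g h : GLR} (hgh : g * h⁻¹ ∈ img Γ') :
    canon Γ' g = canon Γ' h := by
  unfold canon
  congr 1
  refine Quotient.sound (QuotientGroup.rightRel_apply.2 ?_)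
  have := inv_mem hgh
  rwa [mul_inv_rev, inv_inv] at this

/-- The value of the operator. -/
def opFun [Fintype ι] (rep : ι → GLR) (φ : Additive Γ' →+ A) (γ : GLR) : A :=
  ∑ i, onImg φ (canon Γ' (rep i) * γ * (canon Γ' (rep i * γ))⁻¹)

theorem opFun_eq [Fintype ι] {rep : ι → GLR} {γ : GLR} {σ : ι → ι} (hσ : IsPerm Γ' rep γ σ)
    (φ : Additive Γ' →+ A) :
    opFun rep φ γ = ∑ i, onImg φ (rep i * γ * (rep (σ i))⁻¹) := by
  set δ := fun i => rep i * (canon Γ' (rep i))⁻¹ with hδ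
  have hδm : ∀ i, δ i ∈ img Γ' := fun i => mul_canon_inv_mem _
  have key : ∀ i, rep i * γ * (rep (σ i))⁻¹ =
      δ i * (canon Γ' (rep i) * γ * (canon Γ' (rep i * γ))⁻¹) * (δ (σ i))⁻¹ := by
    intro i
    rw [canon_eq_of_mul_inv_mem (hσ.2 i), hδ]
    group
  have hmem : ∀ i, canon Γ' (rep i) * γ * (canon Γ' (rep i * γ))⁻¹ ∈ img Γ' := by
    intro i
    have h := mul_mem (mul_mem (inv_mem (hδm i)) (hσ.2 i)) (hδm (σ i))
    rw [key i] at h
    simpa [mul_assoc] using h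
  calc opFun rep φ γ
      = ∑ i, (onImg φ (δ i) + onImg φ (canon Γ' (rep i) * γ * (canon Γ' (rep i * γ))⁻¹)
          - onImg φ (δ (σ i))) := by
        rw [Finset.sum_sub_distrib, Finset.sum_add_distrib,
          hσ.1.sum_comp fun i => onImg φ (δ i)]
        simp [opFun]
    _ = _ := by
        refine Finset.sum_congr rfl fun i _ => ?_
        rw [key, onImg_mul φ (mul_mem (hδm i) (hmem i)) (inv_mem (hδm _)),
          onImg_mul φ (hδm i) (hmem i), onImg_inv φ (hδm _), sub_eq_add_neg]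

theorem IsPerm.mul {rep : ι → GLR} {γ δ : GLR} {σ τ : ι → ι} (h : IsPerm Γ' rep γ σ)
    (h' : IsPerm Γ' rep δ τ) : IsPerm Γ' rep (γ * δ) (τ ∘ σ) := by
  refine ⟨h'.1.comp h.1, fun i => ?_⟩
  have := mul_mem (h.2 i) (h'.2 (σ i))
  simpa [mul_assoc, Function.comp] using this

theorem opFun_mul [Fintype ι] {rep : ι → GLR} {γ δ : GLR} {σ τ : ι → ι} (h : IsPerm Γ' rep γ σ)
    (h' : IsPerm Γ' rep δ τ) (φ : Additive Γ' →+ A) :
    opFun rep φ (γ * δ) = opFun rep φ γ + opFun rep φ δ := by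
  rw [opFun_eq (h.mul h'), opFun_eq h, opFun_eq h',
    ← h.1.sum_comp fun i => onImg φ (rep i * δ * (rep (τ i))⁻¹), ← Finset.sum_add_distrib]
  refine Finset.sum_congr rfl fun i _ => ?_
  rw [← onImg_mul φ (h.2 i) (h'.2 _)]
  congr 1
  simp [mul_assoc]

/-- The operator attached to an admissible family. -/
def opOf [Fintype ι] {rep : ι → GLR} (h : Admissible Γ' Γ rep) (R : Type*) [Semiring R]
    [Module R A] : (Additive Γ' →+ A) →ₗ[R] (Additive Γ →+ A) where
  toFun φ := AddMonoidHom.mk' (fun γ => opFun rep φ (mapGL ℝ ((Additive.toMul γ : Γ) : SL(2, ℤ))))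
    fun γ δ => by
      obtain ⟨σ, hσ⟩ := h (Additive.toMul γ)
      obtain ⟨τ, hτ⟩ := h (Additive.toMul δ)
      rw [toMul_add, Subgroup.coe_mul, map_mul, opFun_mul hσ hτ]
  map_add' φ ψ := AddMonoidHom.ext fun γ => by
    simp [opFun, onImg_add, Finset.sum_add_distrib]
  map_smul' c φ := AddMonoidHom.ext fun γ => by
    simp [opFun, onImg_smul, Finset.smul_sum]

section Lemmas

variable [Fintype ι] [Fintype κ] {rep : ι → GLR} {rep' : κ → GLR}
  {R : Type*} [Semiring R] [Module R A]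

theorem opOf_apply (h : Admissible Γ' Γ rep) (φ : Additive Γ' →+ A) (γ : Γ) :
    opOf h R φ (Additive.ofMul γ) = opFun rep φ (mapGL ℝ (γ : SL(2, ℤ))) := rfl

theorem opOf_apply_of_isPerm (h : Admissible Γ' Γ rep) (φ : Additive Γ' →+ A) (γ : Γ) {σ : ι → ι}
    (hσ : IsPerm Γ' rep (mapGL ℝ (γ : SL(2, ℤ))) σ) :
    opOf h R φ (Additive.ofMul γ) =
      ∑ i, onImg φ (rep i * mapGL ℝ (γ : SL(2, ℤ)) * (rep (σ i))⁻¹) :=
  opFun_eq hσ φ

theorem opOf_ext {F G : (Additive Γ' →+ A) →ₗ[R] (Additive Γ →+ A)}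
    (h : ∀ φ (γ : Γ), F φ (Additive.ofMul γ) = G φ (Additive.ofMul γ)) : F = G :=
  LinearMap.ext fun φ => AddMonoidHom.ext fun γ => h φ (Additive.toMul γ)

/-- Naturality in the coefficients. -/
theorem opOf_comp_coeff {S : Type*} [Semiring S] [Module S B] (h : Admissible Γ' Γ rep)
    (f : A →+ B) (φ : Additive Γ' →+ A) : opOf h S (f.comp φ) = f.comp (opOf h R φ) := by
  refine AddMonoidHom.ext fun γ => ?_
  show opFun rep (f.comp φ) _ = f (opFun rep φ _)
  simp [opFun, onImg_comp]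

/-- The operator only depends on the multiset of cosets. -/
theorem opOf_congr (h : Admissible Γ' Γ rep) (h' : Admissible Γ' Γ rep') (e : ι ≃ κ)
    (he : ∀ i, rep i * (rep' (e i))⁻¹ ∈ img Γ') : opOf (A := A) h R = opOf h' R := by
  refine opOf_ext fun φ γ => ?_
  show opFun rep φ _ = opFun rep' φ _
  unfold opFun
  refine Fintype.sum_equiv e _ _ fun i => ?_
  simp only [toMul_ofMul]
  have h2 : canon Γ' (rep i * mapGL ℝ (γ : SL(2, ℤ))) =
      canon Γ' (rep' (e i) * mapGL ℝ (γ : SL(2, ℤ))) :=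
    canon_eq_of_mul_inv_mem (by simpa [mul_assoc] using he i)
  rw [canon_eq_of_mul_inv_mem (he i), h2]

theorem Admissible.comp {rep : ι → GLR} (h : Admissible Γ'' Γ' rep) (h' : Admissible Γ' Γ rep') :
    Admissible Γ'' Γ fun p : ι × κ => rep p.1 * rep' p.2 := by
  intro γ
  obtain ⟨σ', hσ'⟩ := h' γ
  choose c hc using fun j => exists_of_mem_img (hσ'.2 j)
  choose σ hσ using fun j => h (c j)
  refine ⟨fun p => (σ p.2 p.1, σ' p.2), Finite.injective_iff_bijective.1 ?_, fun p => ?_⟩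
  · rintro ⟨i, j⟩ ⟨i', j'⟩ hp
    simp only [Prod.mk.injEq] at hp
    obtain rfl := hσ'.1.1 hp.2
    rw [(hσ j).1.1 hp.1]
  · have := (hσ p.2).2 p.1
    rw [hc] at this
    simpa [mul_assoc] using this

/-- Composition is given by the products of the representatives. -/
theorem opOf_comp {rep : ι → GLR} (h : Admissible Γ'' Γ' rep) (h' : Admissible Γ' Γ rep')
    (φ : Additive Γ'' →+ A) : opOf h' R (opOf h R φ) = opOf (h.comp h') R φ := by
  refine AddMonoidHom.ext fun x => ?_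
  obtain ⟨γ, rfl⟩ := Additive.ofMul.surjective x
  obtain ⟨σ', hσ'⟩ := h' γ
  choose c hc using fun j => exists_of_mem_img (hσ'.2 j)
  choose σ hσ using fun j => h (c j)
  have hperm : IsPerm Γ'' (fun p : ι × κ => rep p.1 * rep' p.2) (mapGL ℝ (γ : SL(2, ℤ)))
      fun p => (σ p.2 p.1, σ' p.2) := by
    refine ⟨Finite.injective_iff_bijective.1 ?_, fun p => ?_⟩
    · rintro ⟨i, j⟩ ⟨i', j'⟩ hp
      simp only [Prod.mk.injEq] at hp
      obtain rfl := hσ'.1.1 hp.2
      rw [(hσ j).1.1 hp.1]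
    · have := (hσ p.2).2 p.1
      rw [hc] at this
      simpa [mul_assoc] using this
  rw [opOf_apply_of_isPerm h' _ _ hσ', opOf_apply_of_isPerm _ _ _ hperm, Fintype.sum_prod_type_right]
  refine Finset.sum_congr rfl fun j _ => ?_
  rw [← hc j, onImg_mapGL, opOf_apply_of_isPerm h _ _ (hσ j)]
  refine Finset.sum_congr rfl fun i _ => ?_
  rw [hc]
  simp [mul_assoc]

omit [Fintype ι] [Fintype κ] in
theorem Admissible.copies (h : Admissible Γ' Γ rep) :
    Admissible Γ' Γ fun p : κ × ι => rep p.2 := by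
  intro γ
  obtain ⟨σ, hσ⟩ := h γ
  exact ⟨Prod.map id σ, Function.bijective_id.prodMap hσ.1, fun p => hσ.2 p.2⟩

theorem opOf_copies (h : Admissible Γ' Γ rep) :
    opOf (A := A) (h.copies (κ := κ)) R = Fintype.card κ • opOf h R :=
  opOf_ext fun φ γ => by
    simp [opOf_apply, opFun, Fintype.sum_prod_type]

omit [Fintype ι] in
theorem IsPerm.mul_central {γ : GLR} {σ : ι → ι} {z : GLR} (hz : ∀ g, Commute z g)
    (h : IsPerm Γ' rep γ σ) : IsPerm Γ' (fun i => rep i * z) γ σ :=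
  ⟨h.1, fun i => by
    have : rep i * z * γ * (rep (σ i) * z)⁻¹ = rep i * γ * (rep (σ i))⁻¹ := by
      rw [mul_assoc (rep i) z γ, (hz γ).eq, mul_inv_rev]
      group
    rw [this]
    exact h.2 i⟩

omit [Fintype ι] in
theorem Admissible.mul_central {z : GLR} (hz : ∀ g, Commute z g) (h : Admissible Γ' Γ rep) :
    Admissible Γ' Γ fun i => rep i * z := fun γ =>
  (h γ).imp fun _ hσ => hσ.mul_central hz

/-- Central elements do not matter. -/
theorem opOf_mul_central {z : GLR} (hz : ∀ g, Commute z g) (h : Admissible Γ' Γ rep) :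
    opOf (A := A) (h.mul_central hz) R = opOf h R :=
  opOf_ext fun φ γ => by
    obtain ⟨σ, hσ⟩ := h γ
    rw [opOf_apply_of_isPerm _ _ _ (hσ.mul_central hz), opOf_apply_of_isPerm _ _ _ hσ]
    refine Finset.sum_congr rfl fun i _ => congrArg _ ?_
    rw [mul_assoc (rep i) z, (hz (mapGL ℝ (γ : SL(2, ℤ)))).eq, mul_inv_rev]
    group

theorem isPerm_heckeSystem {ι : Type} (S : Periods.HeckeSystem Γ' Γ ι) [Finite ι] (γ : Γ) :
    IsPerm Γ' S.rep (mapGL ℝ (γ : SL(2, ℤ))) (S.perm γ) :=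
  ⟨S.perm_bijective γ, fun i => by
    rw [S.spec, mul_inv_cancel_right]
    exact mapGL_mem_img.2 (S.cocycle γ i).2⟩

theorem admissible_heckeSystem {ι : Type} (S : Periods.HeckeSystem Γ' Γ ι) [Finite ι] :
    Admissible Γ' Γ S.rep := fun γ => ⟨_, isPerm_heckeSystem S γ⟩

/-- Comparison with `Periods.HeckeSystem`. -/
theorem opOf_heckeSystem {ι : Type} [Fintype ι] (S : Periods.HeckeSystem Γ' Γ ι) :
    opOf (A := A) (admissible_heckeSystem S) R = S.op R :=
  opOf_ext fun φ γ => by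
    rw [opOf_apply_of_isPerm _ _ _ (isPerm_heckeSystem S γ), S.op_apply, S.apply_apply]
    refine Finset.sum_congr rfl fun i _ => ?_
    rw [S.spec, mul_inv_cancel_right, onImg_mapGL]

end Lemmas

section Reps

/-- `rep` is a complete irredundant set of representatives for `Γ' \ D`. -/
structure IsReps (Γ' : Subgroup SL(2, ℤ)) (D : Set GLR) (rep : ι → GLR) : Prop where
  mem : ∀ i, rep i ∈ D
  inj : ∀ i j, rep i * (rep j)⁻¹ ∈ img Γ' → i = j
  surj : ∀ g ∈ D, ∃ i, g * (rep i)⁻¹ ∈ img Γ'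

variable {D : Set GLR} {rep : ι → GLR} {rep' : κ → GLR}

theorem IsReps.admissible [Finite ι] (h : IsReps Γ' D rep)
    (hD : ∀ g ∈ D, ∀ γ : Γ, g * mapGL ℝ (γ : SL(2, ℤ)) ∈ D) : Admissible Γ' Γ rep := by
  intro γ
  choose σ hσ using fun i => h.surj _ (hD _ (h.mem i) γ)
  refine ⟨σ, Finite.injective_iff_bijective.1 fun i j hij => h.inj i j ?_, hσ⟩
  have := mul_mem (hσ i) (inv_mem (hσ j))
  rw [hij] at this
  simpa [mul_assoc] using this

theorem IsReps.exists_equiv (h : IsReps Γ' D rep) (h' : IsReps Γ' D rep') :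
    ∃ e : ι ≃ κ, ∀ i, rep i * (rep' (e i))⁻¹ ∈ img Γ' := by
  choose f hf using fun i => h'.surj _ (h.mem i)
  refine ⟨Equiv.ofBijective f ⟨fun i j hij => h.inj i j ?_, fun k => ?_⟩, hf⟩
  · have := mul_mem (hf i) (inv_mem (hf j))
    rw [hij] at this
    simpa [mul_assoc] using this
  · obtain ⟨i, hi⟩ := h.surj _ (h'.mem k)
    refine ⟨i, h'.inj _ _ ?_⟩
    have := mul_mem (inv_mem (hf i)) (inv_mem hi)
    simpa [mul_assoc] using this

/-- An injective family with the right number of elements is a set of representatives. -/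
theorem IsReps.of_card [Finite ι] [Finite κ] (h : IsReps Γ' D rep) (hmem : ∀ k, rep' k ∈ D)
    (hinj : ∀ k l, rep' k * (rep' l)⁻¹ ∈ img Γ' → k = l) (hcard : Nat.card ι ≤ Nat.card κ) :
    IsReps Γ' D rep' := by
  choose f hf using fun k => h.surj _ (hmem k)
  have hfinj : Function.Injective f := fun k l hkl => hinj k l <| by
    have := mul_mem (hf k) (inv_mem (hf l))
    rw [hkl] at this
    simpa [mul_assoc] using this
  have hbij := hfinj.bijective_of_nat_card_le hcard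
  refine ⟨hmem, hinj, fun g hg => ?_⟩
  obtain ⟨i, hi⟩ := h.surj g hg
  obtain ⟨k, rfl⟩ := hbij.2 i
  refine ⟨k, ?_⟩
  have := mul_mem hi (inv_mem (hf k))
  simpa [mul_assoc] using this

theorem opOf_eq_of_isReps [Fintype ι] [Fintype κ] {R : Type*} [Semiring R] [Module R A]
    (h : Admissible Γ' Γ rep) (h' : Admissible Γ' Γ rep') (hr : IsReps Γ' D rep)
    (hr' : IsReps Γ' D rep') : opOf (A := A) h R = opOf h' R :=
  (hr.exists_equiv hr').elim fun e he => opOf_congr h h' e he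

end Reps

end Fermat.Agent.RT.GammaH
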