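import Mathlib.Algebra.Group.Units.Basic
import Mathlib.Algebra.Module.LinearMap.Basic
import Fermat.Agent.RT.GammaH.Fibre

/-!
# Corestriction for a normal subgroup

For `Γ' ≤ Γ` and coefficients in which `2` and `3` are invertible, corestriction
`Hom(Γ', A) → Hom(Γ, A)` is surjective and its kernel is spanned by the differences
`ψ ∘ conj σᵢ - ψ`: Shapiro's lemma and the freeness of cocycles on the generators `S`, `Gamma0.ST`.
-/

set_option autoImplicit false

noncomputable section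

namespace Fermat.Agent.RT.GammaH

open Matrix.SpecialLinearGroup
open scoped MatrixGroups

variable {Γ' Γ : Subgroup SL(2, ℤ)} {ι : Type*} {σ : ι → SL(2, ℤ)} {A : Type*} [AddCommGroup A]
  {R : Type*} [Semiring R] [Module R A]

variable (R) in
/-- Restriction. -/
def res (hle : Γ' ≤ Γ) : (Additive Γ →+ A) →ₗ[R] (Additive Γ' →+ A) where
  toFun φ := φ.comp (Subgroup.inclusion hle).toAdditive
  map_add' _ _ := rfl
  map_smul' _ _ := rfl

theorem res_apply (hle : Γ' ≤ Γ) (φ : Additive Γ →+ A) (γ : Γ') :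
    res R hle φ (Additive.ofMul γ) = φ (Additive.ofMul (Subgroup.inclusion hle γ)) := rfl

theorem admissible_res (hle : Γ' ≤ Γ) : Admissible Γ Γ' fun _ : Unit => (1 : GLR) := fun γ =>
  ⟨id, Function.bijective_id, fun _ => by simpa using mapGL_mem_img.2 (hle γ.2)⟩

theorem res_eq_opOf (hle : Γ' ≤ Γ) : res (A := A) R hle = opOf (admissible_res hle) R :=
  opOf_ext fun φ γ => by
    rw [opOf_apply_of_isPerm _ _ _ (σ := id)
      ⟨Function.bijective_id, fun _ => by simpa using mapGL_mem_img.2 (hle γ.2)⟩, res_apply]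
    simp only [Finset.univ_unique, Finset.sum_singleton, one_mul, inv_one, mul_one]
    exact (onImg_mapGL φ (Subgroup.inclusion hle γ)).symm

theorem admissible_conj {s : SL(2, ℤ)} (hs : ∀ γ ∈ Γ', s * γ * s⁻¹ ∈ Γ') :
    Admissible Γ' Γ' fun _ : Unit => mapGL ℝ s := fun γ =>
  ⟨id, Function.bijective_id, fun _ => by
    simp only [← map_inv, ← map_mul]
    exact mapGL_mem_img.2 (hs _ γ.2)⟩

theorem opOf_conj_apply {s : SL(2, ℤ)} (hs : ∀ γ ∈ Γ', s * γ * s⁻¹ ∈ Γ')
    (φ : Additive Γ' →+ A) (γ : Γ') :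
    opOf (admissible_conj hs) R φ (Additive.ofMul γ) =
      φ (Additive.ofMul ⟨s * γ * s⁻¹, hs _ γ.2⟩) := by
  rw [opOf_apply_of_isPerm _ _ _ (σ := id) ⟨Function.bijective_id, fun _ => by
    simp only [← map_inv, ← map_mul]
    exact mapGL_mem_img.2 (hs _ γ.2)⟩]
  simp only [Finset.univ_unique, Finset.sum_singleton, ← map_inv, ← map_mul]
  exact onImg_mapGL φ ⟨_, hs _ γ.2⟩

namespace IsCoreps

variable (h : IsCoreps Γ' Γ σ)

include h in
theorem conj_mem (i : ι) : ∀ γ ∈ Γ', σ i * γ * (σ i)⁻¹ ∈ Γ' := fun γ hγ => (h.conj i γ).1 hγ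

variable (R) in
/-- The action of `σ i` by conjugation. -/
def conjOp (i : ι) : Module.End R (Additive Γ' →+ A) := opOf (admissible_conj (h.conj_mem i)) R

theorem conjOp_apply (i : ι) (φ : Additive Γ' →+ A) (γ : Γ') :
    h.conjOp R i φ (Additive.ofMul γ) = φ (Additive.ofMul ⟨_, h.conj_mem i _ γ.2⟩) :=
  opOf_conj_apply _ φ γ

variable [Fintype ι]

include h in
theorem admissible : Admissible Γ' Γ fun i => mapGL ℝ (σ i) :=
  h.isReps.admissible fun _ hg γ => mul_mem hg (mapGL_mem_img.2 γ.2)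

variable (R) in
/-- Corestriction. -/
def cores : (Additive Γ' →+ A) →ₗ[R] (Additive Γ →+ A) := opOf h.admissible R

theorem res_cores (φ : Additive Γ' →+ A) :
    res R h.le (h.cores R φ) = ∑ i, h.conjOp R i φ := by
  refine AddMonoidHom.ext fun x => ?_
  obtain ⟨γ, rfl⟩ := Additive.ofMul.surjective x
  have hperm : IsPerm Γ' (fun i => (mapGL ℝ (σ i) : GLR))
      (mapGL ℝ ((Subgroup.inclusion h.le γ : Γ) : SL(2, ℤ))) id :=
    ⟨Function.bijective_id, fun i => by
      simp only [id, Subgroup.coe_inclusion, ← map_inv, ← map_mul]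
      exact mapGL_mem_img.2 (h.conj_mem i _ γ.2)⟩
  rw [res_apply, cores, opOf_apply_of_isPerm _ _ _ hperm, AddMonoidHom.finsetSum_apply]
  refine Finset.sum_congr rfl fun i _ => ?_
  rw [h.conjOp_apply, ← onImg_mapGL φ]
  simp

section Cocycle

open Gamma0

variable {c : SL(2, ℤ) → SL(2, ℤ) ⧸ Γ' → A}

theorem isCocycle_fibreSum (hc : IsCocycle c) :
    IsCocycle fun g x => h.fibreSum (c g) x := by
  intro a b x
  show h.fibreSum (c (a * b)) x = _
  rw [show c (a * b) = (fun y => c a (b • y)) + c b from funext fun y => hc a b y, h.fibreSum_add,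
    h.fibreSum_comp_smul b]

theorem cores_toHom (hc : IsCocycle c) :
    h.cores R hc.toHom = (h.isCocycle_fibreSum hc).toHom := by
  refine AddMonoidHom.ext fun x => ?_
  obtain ⟨γ, rfl⟩ := Additive.ofMul.surjective x
  obtain ⟨τ, hτ⟩ := h.admissible γ
  rw [cores, opOf_apply_of_isPerm _ _ _ hτ, IsCocycle.toHom_apply]
  choose d hd using fun i => exists_of_mem_img (hτ.2 i)
  have hval : ∀ i, (d i : SL(2, ℤ)) = σ i * γ * (σ (τ i))⁻¹ := fun i =>
    Matrix.SpecialLinearGroup.mapGL_injective (by rw [hd, map_mul, map_mul, map_inv])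
  set y : ι → SL(2, ℤ) ⧸ Γ' := fun i => (((σ i)⁻¹ : SL(2, ℤ)) : SL(2, ℤ) ⧸ Γ')
  have hy : ∀ i, σ i • y i = QuotientGroup.mk 1 := fun i => by
    simp [y]
  have hγy : ∀ i, (γ : SL(2, ℤ)) • y (τ i) = y i := fun i => by
    rw [MulAction.Quotient.smul_coe, smul_eq_mul, QuotientGroup.eq]
    have := inv_mem (d i).2
    rw [hval] at this
    simpa [mul_assoc] using this
  have hσy : ∀ i, (σ i)⁻¹ • (QuotientGroup.mk 1 : SL(2, ℤ) ⧸ Γ') = y i := fun i => by
    simp [y]
  have key : ∀ i, hc.toHom (Additive.ofMul (d i)) =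
      c (σ i) (y i) + c (γ : SL(2, ℤ)) (y (τ i)) - c (σ (τ i)) (y (τ i)) := fun i => by
    rw [IsCocycle.toHom_apply, hval, hc, hc, hc.map_inv, hσy, hγy, sub_eq_add_neg]
  simp only [← hd, onImg_mapGL, key, Finset.sum_sub_distrib, Finset.sum_add_distrib,
    hτ.1.sum_comp fun i => c (σ i) (y i), add_sub_cancel_left,
    hτ.1.sum_comp fun i => c (γ : SL(2, ℤ)) (y i)]
  rw [h.fibreSum_eq (y := QuotientGroup.mk 1) (h.proj_mk 1)]
  simp only [h.rightMul_one_eq]
  rfl

omit [Fintype ι] in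
theorem isCocycle_rightMul (hc : IsCocycle c) (i : ι) :
    IsCocycle fun g y => c g (h.rightMul i y) := by
  intro a b x
  show c (a * b) _ = c a _ + c b _
  rw [hc, h.rightMul_smul]

omit [Fintype ι] in
theorem conjOp_toHom (hc : IsCocycle c) (i : ι) :
    h.conjOp R i hc.toHom = (h.isCocycle_rightMul hc i).toHom := by
  refine AddMonoidHom.ext fun x => ?_
  obtain ⟨γ, rfl⟩ := Additive.ofMul.surjective x
  rw [h.conjOp_apply, IsCocycle.toHom_apply, IsCocycle.toHom_apply, h.rightMul_one_eq, hc, hc,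
    hc.map_inv]
  have h1 : (σ i)⁻¹ • (QuotientGroup.mk 1 : SL(2, ℤ) ⧸ Γ') = (((σ i)⁻¹ : SL(2, ℤ)) : SL(2, ℤ) ⧸ Γ') := by
    simp
  have h2 : (γ : SL(2, ℤ)) • (((σ i)⁻¹ : SL(2, ℤ)) : SL(2, ℤ) ⧸ Γ') =
      (((σ i)⁻¹ : SL(2, ℤ)) : SL(2, ℤ) ⧸ Γ') := by
    rw [MulAction.Quotient.smul_coe, smul_eq_mul, QuotientGroup.eq]
    simpa [mul_assoc] using h.conj_mem i _ (inv_mem γ.2)
  rw [h1, h2]
  abel

end Cocycle

section Invertible

open Gamma0

variable (h2 : IsUnit (2 : R)) (h3 : IsUnit (3 : R))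

include h2 in
omit h [Fintype ι] in
theorem apply_neg_one (hneg : -1 ∈ Γ) (φ : Additive Γ →+ A) :
    φ (Additive.ofMul ⟨-1, hneg⟩) = 0 := by
  set a := φ (Additive.ofMul ⟨-1, hneg⟩) with ha
  have h0 : a + a = 0 := by
    rw [ha, ← map_add, ← ofMul_mul]
    convert map_zero φ
    refine congrArg Additive.ofMul (Subtype.ext ?_)
    simp
  obtain ⟨u, hu⟩ := h2
  have : (2 : R) • a = 0 := by rw [← one_add_one_eq_two, add_smul, one_smul, h0]
  rw [← hu, ← Units.smul_def] at this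
  exact (smul_eq_zero_iff_eq u).1 this

variable (R) in
/-- The symmetrisation making `u` satisfy the relation of `S`. -/
def projS (u : R) (w : SL(2, ℤ) ⧸ Γ' → A) : SL(2, ℤ) ⧸ Γ' → A :=
  u • (w - fun y => w (ModularGroup.S • y))

variable (R) in
/-- The symmetrisation making `v` satisfy the relation of `Gamma0.ST`. -/
def projR (u : R) (w : SL(2, ℤ) ⧸ Γ' → A) : SL(2, ℤ) ⧸ Γ' → A :=
  u • ((w - fun y => w (Gamma0.ST • y)) + (w - fun y => w (Gamma0.ST • Gamma0.ST • y)))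

omit [Fintype ι] h in
theorem isRelPair_proj (hneg : -1 ∈ Γ') (a b : R) (w w' : SL(2, ℤ) ⧸ Γ' → A) :
    IsRelPair (projS R a w) (projR R b w') := by
  have hSS : ∀ x : SL(2, ℤ) ⧸ Γ', ModularGroup.S • ModularGroup.S • x = x := fun x => by
    rw [← mul_smul, S_mul_S, neg_one_smul_coset hneg]
  have hRRR : ∀ x : SL(2, ℤ) ⧸ Γ', Gamma0.ST • Gamma0.ST • Gamma0.ST • x = x := fun x => by
    rw [← mul_smul, ← mul_smul, ← pow_two, ← pow_succ, ST_pow_three, neg_one_smul_coset hneg]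
  refine ⟨fun x => ?_, fun x => ?_⟩
  · simp only [projS, Pi.smul_apply, Pi.sub_apply, hSS, ← smul_add]
    rw [show w x - w (ModularGroup.S • x) + (w (ModularGroup.S • x) - w x) = 0 by abel, smul_zero]
  · simp only [projR, Pi.smul_apply, Pi.sub_apply, Pi.add_apply, hRRR, ← smul_add]
    rw [show w' x - w' (Gamma0.ST • x) + (w' x - w' (Gamma0.ST • Gamma0.ST • x)) +
        (w' (Gamma0.ST • x) - w' (Gamma0.ST • Gamma0.ST • x) + (w' (Gamma0.ST • x) - w' x)) +
        (w' (Gamma0.ST • Gamma0.ST • x) - w' x + (w' (Gamma0.ST • Gamma0.ST • x) - w' (Gamma0.ST • x))) = 0 by abel, smul_zero]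

include h2 in
omit [Fintype ι] h in
theorem exists_half : ∃ a : R, ∀ x : A, a • (x + x) = x := by
  obtain ⟨u, hu⟩ := h2
  refine ⟨(u⁻¹ : Rˣ), fun x => ?_⟩
  rw [← two_nsmul, ← Nat.cast_smul_eq_nsmul R, Nat.cast_ofNat, ← hu, ← Units.smul_def,
    ← Units.smul_def, inv_smul_smul]

include h3 in
omit [Fintype ι] h in
theorem exists_third : ∃ b : R, ∀ x : A, b • (x + x + x) = x := by
  obtain ⟨v, hv⟩ := h3
  refine ⟨(v⁻¹ : Rˣ), fun x => ?_⟩
  rw [show x + x + x = (3 : ℕ) • x by abel, ← Nat.cast_smul_eq_nsmul R, Nat.cast_ofNat, ← hv,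
    ← Units.smul_def, ← Units.smul_def, inv_smul_smul]

/-- The kernel of corestriction is spanned by the differences as soon as, for `S` and for
`Gamma0.ST`, functions with the relation and vanishing fibre sums are sums of differences of
functions with the relation. -/
theorem exists_eq_sum_conjOp_of_solve (hneg : -1 ∈ Γ') {φ : Additive Γ' →+ A}
    (hφ0 : φ (Additive.ofMul ⟨-1, hneg⟩) = 0) (hφ : h.cores R φ = 0)
    (hS : ∀ w : SL(2, ℤ) ⧸ Γ' → A, (∀ y, w (ModularGroup.S • y) = -w y) →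
      (∀ x, h.fibreSum w x = 0) → ∃ u : ι → SL(2, ℤ) ⧸ Γ' → A,
        (∀ i y, u i y + u i (ModularGroup.S • y) = 0) ∧
          ∀ y, w y = ∑ i, (u i (h.rightMul i y) - u i y))
    (hR : ∀ w : SL(2, ℤ) ⧸ Γ' → A,
      (∀ y, w y + w (Gamma0.ST • y) + w (Gamma0.ST • Gamma0.ST • y) = 0) →
      (∀ x, h.fibreSum w x = 0) → ∃ v : ι → SL(2, ℤ) ⧸ Γ' → A,
        (∀ i y, v i y + v i (Gamma0.ST • y) + v i (Gamma0.ST • Gamma0.ST • y) = 0) ∧
          ∀ y, w y = ∑ i, (v i (h.rightMul i y) - v i y)) :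
    ∃ ψ : ι → (Additive Γ' →+ A), φ = ∑ i, (h.conjOp R i (ψ i) - ψ i) := by
  obtain ⟨c, hc, hrel, rfl⟩ := exists_cocycle_toHom hneg φ hφ0
  rw [h.cores_toHom hc] at hφ
  obtain ⟨f, hf⟩ := ((h.isCocycle_fibreSum hc).toHom_eq_zero_iff).1 hφ
  obtain ⟨f', hf'⟩ := h.fibreSum_surjective f
  set c' : SL(2, ℤ) → SL(2, ℤ) ⧸ Γ' → A := fun g y => c g y - (f' (g • y) - f' y) with hc'def
  have hc' : IsCocycle c' := fun g k y => by
    simp only [hc'def]
    rw [hc, mul_smul]
    abel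
  have hsum : ∀ g x, h.fibreSum (c' g) x = 0 := fun g x => by
    rw [show c' g = c g - ((fun y => f' (g • y)) - f') from rfl, h.fibreSum_sub, h.fibreSum_sub,
      h.fibreSum_comp_smul, hf', hf', hf g x, sub_self]
  have htoHom : hc.toHom = hc'.toHom := AddMonoidHom.ext fun x => by
    obtain ⟨γ, rfl⟩ := Additive.ofMul.surjective x
    rw [IsCocycle.toHom_apply, IsCocycle.toHom_apply]
    show _ = c _ _ - _
    have hfix : (γ : SL(2, ℤ)) • (QuotientGroup.mk 1 : SL(2, ℤ) ⧸ Γ') = QuotientGroup.mk 1 := by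
      rw [MulAction.Quotient.smul_coe, smul_eq_mul, mul_one, QuotientGroup.eq]
      simp
    rw [hfix, sub_self, sub_zero]
  have hrelS : ∀ y, c' ModularGroup.S (ModularGroup.S • y) = -c' ModularGroup.S y := fun y => by
    refine eq_neg_of_add_eq_zero_right ?_
    simp only [hc'def, ← mul_smul ModularGroup.S ModularGroup.S, S_mul_S,
      neg_one_smul_coset hneg]
    rw [← hrel.1 y]
    abel
  have hrelR : ∀ y, c' Gamma0.ST y + c' Gamma0.ST (Gamma0.ST • y) +
      c' Gamma0.ST (Gamma0.ST • Gamma0.ST • y) = 0 := fun y => by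
    simp only [hc'def]
    rw [show Gamma0.ST • Gamma0.ST • Gamma0.ST • y = y by rw [← mul_smul, ← mul_smul, ← pow_two, ← pow_succ, ST_pow_three,
      neg_one_smul_coset hneg], ← hrel.2 y]
    abel
  obtain ⟨u, hu, hu'⟩ := hS _ hrelS (hsum _)
  obtain ⟨v, hv, hv'⟩ := hR _ hrelR (hsum _)
  choose d hd hdS hdR using fun i => exists_cocycle hneg ⟨hu i, hv i⟩
  refine ⟨fun i => (hd i).toHom, ?_⟩
  set e : SL(2, ℤ) → SL(2, ℤ) ⧸ Γ' → A :=
    fun g y => ∑ i, (d i g (h.rightMul i y) - d i g y) with hedef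
  have he : IsCocycle e := fun g k y => by
    simp only [hedef, ← Finset.sum_add_distrib]
    refine Finset.sum_congr rfl fun i _ => ?_
    rw [hd i g k, hd i g k, h.rightMul_smul]
    abel
  have hce : c' = e := by
    refine hc'.ext_of_eq he (funext fun y => ?_) (funext fun y => ?_)
    · rw [hu', hedef]
      simp only [hdS]
    · rw [hv', hedef]
      simp only [hdR]
  rw [htoHom]
  refine AddMonoidHom.ext fun x => ?_
  obtain ⟨γ, rfl⟩ := Additive.ofMul.surjective x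
  rw [AddMonoidHom.finsetSum_apply, IsCocycle.toHom_apply, hce]
  refine Finset.sum_congr rfl fun i _ => ?_
  rw [AddMonoidHom.sub_apply, h.conjOp_toHom (hd i) i]
  rfl

include h2 in
theorem exists_solve_S (hneg : -1 ∈ Γ') {w : SL(2, ℤ) ⧸ Γ' → A}
    (hw : ∀ y, w (ModularGroup.S • y) = -w y) (hsum : ∀ x, h.fibreSum w x = 0) :
    ∃ u : ι → SL(2, ℤ) ⧸ Γ' → A, (∀ i y, u i y + u i (ModularGroup.S • y) = 0) ∧
      ∀ y, w y = ∑ i, (u i (h.rightMul i y) - u i y) := by
  obtain ⟨a, ha⟩ := exists_half (A := A) h2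
  obtain ⟨u, hu⟩ := h.exists_eq_sum_rightMul hsum
  refine ⟨fun i => projS R a (u i), fun i => (isRelPair_proj hneg a a (u i) (u i)).1, fun y => ?_⟩
  conv_lhs => rw [← ha (w y)]
  rw [← sub_neg_eq_add, ← hw, hu, hu, ← Finset.sum_sub_distrib, Finset.smul_sum]
  refine Finset.sum_congr rfl fun i _ => ?_
  simp only [projS, Pi.smul_apply, Pi.sub_apply, h.rightMul_smul, ← smul_sub]
  congr 1
  abel

include h3 in
theorem exists_solve_R (hneg : -1 ∈ Γ') {w : SL(2, ℤ) ⧸ Γ' → A}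
    (hw : ∀ y, w y + w (Gamma0.ST • y) + w (Gamma0.ST • Gamma0.ST • y) = 0)
    (hsum : ∀ x, h.fibreSum w x = 0) :
    ∃ v : ι → SL(2, ℤ) ⧸ Γ' → A,
      (∀ i y, v i y + v i (Gamma0.ST • y) + v i (Gamma0.ST • Gamma0.ST • y) = 0) ∧
      ∀ y, w y = ∑ i, (v i (h.rightMul i y) - v i y) := by
  obtain ⟨b, hb⟩ := exists_third (A := A) h3
  obtain ⟨v, hv⟩ := h.exists_eq_sum_rightMul hsum
  refine ⟨fun i => projR R b (v i), fun i => (isRelPair_proj hneg b b (v i) (v i)).2, fun y => ?_⟩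
  conv_lhs => rw [← hb (w y)]
  have e3 : w y + w y + w y =
      (w y - w (Gamma0.ST • y)) + (w y - w (Gamma0.ST • Gamma0.ST • y)) := by
    rw [show w (Gamma0.ST • Gamma0.ST • y) = -(w y + w (Gamma0.ST • y)) from
      eq_neg_of_add_eq_zero_right (hw y)]
    abel
  rw [e3, hv, hv, hv, ← Finset.sum_sub_distrib, ← Finset.sum_sub_distrib,
    ← Finset.sum_add_distrib, Finset.smul_sum]
  refine Finset.sum_congr rfl fun i _ => ?_
  simp only [projR, Pi.smul_apply, Pi.sub_apply, Pi.add_apply, h.rightMul_smul, ← smul_sub]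
  congr 1
  abel

include h2 h3 in
theorem exists_eq_sum_conjOp (hneg : -1 ∈ Γ') {φ : Additive Γ' →+ A} (hφ : h.cores R φ = 0) :
    ∃ ψ : ι → (Additive Γ' →+ A), φ = ∑ i, (h.conjOp R i (ψ i) - ψ i) :=
  h.exists_eq_sum_conjOp_of_solve hneg (apply_neg_one h2 hneg φ) hφ
    (fun _ => h.exists_solve_S h2 hneg) fun _ => h.exists_solve_R h3 hneg

end Invertible

end IsCoreps

end Fermat.Agent.RT.GammaH
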