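import Mathlib.GroupTheory.QuotientGroup.Basic
import Fermat.Agent.RT.GammaH.Cores
import Fermat.Agent.RT.GammaH.Hecke

/-!
# Restriction and corestriction between `Γ_H` and `Γ₀(M)`

`Γ₀(M)` appears as `gammaH M ⊤`. Both maps commute with all Hecke operators, the diamond operators
act trivially on `Γ₀(M)`, and a homomorphism killed by restriction is multiplied by `ℓ + 1` by
`T_ℓ`.
-/

set_option autoImplicit false

noncomputable section

namespace Fermat.Agent.RT.GammaH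

open CongruenceSubgroup Matrix.SpecialLinearGroup
open scoped MatrixGroups

variable {M : ℕ} {K : Subgroup (ZMod M)ˣ}

/-- The representatives of `Γ_H \ Γ₀(M)`, indexed by the quotient of `(ℤ/M)ˣ` by `K`. -/
def deltaRep (K : Subgroup (ZMod M)ˣ) (q : (ZMod M)ˣ ⧸ K) : SL(2, ℤ) := gamma0Elt (q.out)⁻¹

theorem deltaRep_mem (q : (ZMod M)ˣ ⧸ K) : deltaRep K q ∈ Gamma0 M := gamma0Elt_mem _

theorem deltaRep_upperLeft (q : (ZMod M)ˣ ⧸ K) :
    ((deltaRep K q) 0 0 : ZMod M) = ((q.out)⁻¹ : (ZMod M)ˣ) := gamma0Elt_upperLeft _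

theorem le_top_gammaH : gammaH M K ≤ gammaH M ⊤ := gammaH_mono le_top

theorem deltaRep_eq_of_upperLeft {q q' : (ZMod M)ˣ ⧸ K} {u : (ZMod M)ˣ} (hu : u ∈ K)
    (h : ((deltaRep K q) 0 0 : ZMod M) = u * (deltaRep K q') 0 0) : q = q' := by
  rw [deltaRep_upperLeft, deltaRep_upperLeft, ← Units.val_mul, Units.val_inj,
    eq_mul_inv_iff_mul_eq] at h
  rw [← QuotientGroup.out_eq' q, ← QuotientGroup.out_eq' q', QuotientGroup.eq, h]
  exact hu

theorem isCoreps_deltaRep : IsCoreps (gammaH M K) (gammaH M ⊤) (deltaRep K) where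
  le := le_top_gammaH
  mem q := gammaH_top ▸ deltaRep_mem q
  conj q γ := ⟨gammaH_conj (deltaRep_mem q), fun h => by
    have := gammaH_conj (inv_mem (deltaRep_mem q)) h
    simpa [mul_assoc] using this⟩
  inj q q' h := by
    obtain ⟨-, u, hu, ha⟩ := h
    refine deltaRep_eq_of_upperLeft hu ?_
    rw [← ha, ← gamma0_mul_apply_upperLeft _ _ (deltaRep_mem q'), inv_mul_cancel_right]
  surj g hg := by
    obtain ⟨hc, u, -, ha⟩ := hg
    refine ⟨QuotientGroup.mk u⁻¹, ?_⟩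
    set q : (ZMod M)ˣ ⧸ K := QuotientGroup.mk u⁻¹
    have hw : u * q.out ∈ K := by
      have h := QuotientGroup.out_eq' q
      rw [eq_comm, QuotientGroup.eq, inv_inv] at h
      exact h
    refine gamma0_mul_inv_mem (Gamma0_mem.2 hc) (deltaRep_mem q) hw ?_
    rw [ha, deltaRep_upperLeft, Units.val_mul, mul_assoc, Units.mul_inv, mul_one]

variable {A : Type*} [AddCommGroup A] (R : Type*) [Semiring R] [Module R A]

/-- Corestriction to `Γ₀(M)`. -/
def coresTop (K : Subgroup (ZMod M)ˣ) [Fintype ((ZMod M)ˣ ⧸ K)] :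
    (Additive (gammaH M K) →+ A) →ₗ[R] (Additive (gammaH M (⊤ : Subgroup (ZMod M)ˣ)) →+ A) :=
  (isCoreps_deltaRep (K := K)).cores R

/-- Restriction from `Γ₀(M)`. -/
def resTop (K : Subgroup (ZMod M)ˣ) :
    (Additive (gammaH M (⊤ : Subgroup (ZMod M)ˣ)) →+ A) →ₗ[R] (Additive (gammaH M K) →+ A) :=
  res R le_top_gammaH

theorem conjOp_eq_diamond (q : (ZMod M)ˣ ⧸ K) :
    (isCoreps_deltaRep (K := K)).conjOp (A := A) R q = diamond M K R q.out := rfl

theorem resTop_coresTop [Fintype ((ZMod M)ˣ ⧸ K)] (φ : Additive (gammaH M K) →+ A) :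
    resTop R K (coresTop R K φ) = ∑ q : (ZMod M)ˣ ⧸ K, diamond M K R q.out φ := by
  exact (isCoreps_deltaRep (K := K)).res_cores (R := R) φ

theorem exists_eq_sum_diamond [Fintype ((ZMod M)ˣ ⧸ K)] (h2 : IsUnit (2 : R)) (h3 : IsUnit (3 : R))
    (hneg : -1 ∈ K) {φ : Additive (gammaH M K) →+ A} (hφ : coresTop R K φ = 0) :
    ∃ ψ : (ZMod M)ˣ ⧸ K → (Additive (gammaH M K) →+ A),
      φ = ∑ q, (diamond M K R q.out (ψ q) - ψ q) := by
  exact (isCoreps_deltaRep (K := K)).exists_eq_sum_conjOp h2 h3 (neg_one_mem_gammaH hneg) hφ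

theorem diamond_apply (u : (ZMod M)ˣ) (φ : Additive (gammaH M K) →+ A) (γ : gammaH M K) :
    diamond M K R u φ (Additive.ofMul γ) =
      φ (Additive.ofMul ⟨_, gammaH_conj (gamma0Elt_mem u⁻¹) γ.2⟩) :=
  opOf_conj_apply (R := R) (fun _ hg => gammaH_conj (gamma0Elt_mem u⁻¹) hg) φ γ

theorem diamond_top (u : (ZMod M)ˣ) (φ : Additive (gammaH M (⊤ : Subgroup (ZMod M)ˣ)) →+ A) :
    diamond M ⊤ R u φ = φ := diamond_of_mem R (Subgroup.mem_top u) φ

theorem diamond_resTop (u : (ZMod M)ˣ) (φ : Additive (gammaH M (⊤ : Subgroup (ZMod M)ˣ)) →+ A) :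
    diamond M K R u (resTop R K φ) = resTop R K φ := by
  refine AddMonoidHom.ext fun x => ?_
  obtain ⟨γ, rfl⟩ := Additive.ofMul.surjective x
  conv_rhs => rw [← diamond_top R u φ]
  rw [diamond_apply, resTop, res_apply, res_apply, diamond_apply]
  rfl

variable {n : ℕ} [hn : Fact n.Prime]

theorem resTop_hecke (φ : Additive (gammaH M (⊤ : Subgroup (ZMod M)ˣ)) →+ A) :
    resTop R K (hecke M ⊤ n R φ) = hecke M K n R (resTop R K φ) := by
  unfold hecke resTop
  rw [res_eq_opOf, opOf_comp, opOf_comp]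
  exact LinearMap.congr_fun (opOf_congr _ _ (Equiv.prodComm (HIdx M n) Unit) fun p => by
    simp [mul_inv_cancel, one_mem]) φ

theorem isReps_deltaRep_hRep :
    IsReps (gammaH M K) (heckeSet M ⊤ n)
      (fun p : ((ZMod M)ˣ ⧸ K) × HIdx M n => mapGL ℝ (deltaRep K p.1) * hRep M n p.2) where
  mem p := gammaH_mul_heckeSet (hRep_mem_heckeSet p.2) (gammaH_top ▸ deltaRep_mem p.1)
  inj := by
    rintro ⟨q, i⟩ ⟨q', j⟩ h
    have hle := img_mono (le_top_gammaH (M := M) (K := K)) h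
    have hq : ∀ q : (ZMod M)ˣ ⧸ K, (mapGL ℝ (deltaRep K q) : GLR) ∈ img (gammaH M ⊤) := fun q =>
      mapGL_mem_img.2 (gammaH_top ▸ deltaRep_mem q)
    obtain rfl : i = j := hRep_injective_mod (Γ := gammaH M ⊤) i j (by
      have := mul_mem (mul_mem (inv_mem (hq q)) hle) (hq q')
      simpa [mul_assoc] using this)
    refine Prod.ext (isCoreps_deltaRep.isReps.inj q q' ?_) rfl
    simpa [mul_assoc] using h
  surj g hg := by
    obtain ⟨i, hi⟩ := (isReps_hRep (K := ⊤)).surj g hg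
    obtain ⟨q, hq⟩ := (isCoreps_deltaRep (K := K)).isReps.surj _ hi
    exact ⟨(q, i), by simpa [mul_assoc] using hq⟩

theorem coresTop_hecke [Fintype ((ZMod M)ˣ ⧸ K)] (φ : Additive (gammaH M K) →+ A) :
    coresTop R K (hecke M K n R φ) = hecke M ⊤ n R (coresTop R K φ) := by
  unfold hecke coresTop IsCoreps.cores
  rw [opOf_comp, opOf_comp]
  refine LinearMap.congr_fun (opOf_eq_of_isReps (D := heckeSet M ⊤ n) _ _ ?_
    (isReps_deltaRep_hRep (K := K))) φ
  refine (isReps_deltaRep_hRep (K := K)).of_card (fun p => ?_) ?_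
    (le_of_eq (Nat.card_congr (Equiv.prodComm _ _)))
  · exact heckeSet_mul_gammaH (hRep_mem_heckeSet p.1) ⟨_, (isCoreps_deltaRep (K := K)).mem p.2⟩
  · rintro ⟨i, q⟩ ⟨j, q'⟩ h
    obtain ⟨γ, hγ, he⟩ := h
    obtain ⟨X, hX, -, hXc, x, hx, hXa⟩ := hRep_mem_heckeSet (K := (⊥ : Subgroup (ZMod M)ˣ)) i
    obtain ⟨Y, hY, -, hYc, y, hy, hYa⟩ := hRep_mem_heckeSet (K := (⊥ : Subgroup (ZMod M)ˣ)) j
    rw [Subgroup.mem_bot] at hx hy
    subst hx hy
    have heq : hRep M n i * mapGL ℝ (deltaRep K q) =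
        mapGL ℝ γ * (hRep M n j * mapGL ℝ (deltaRep K q')) := by
      rw [he, inv_mul_cancel_right]
    have e := congrArg (fun m : Matrix (Fin 2) (Fin 2) ℤ => (m 0 0 : ZMod M))
      ((hX.mul (isIntMat_mapGL _)).unique
        (heq ▸ (isIntMat_mapGL γ).mul (hY.mul (isIntMat_mapGL _))))
    obtain ⟨hγc, u, hu, hua⟩ := hγ
    have hs : ∀ q : (ZMod M)ˣ ⧸ K, ((deltaRep K q) 1 0 : ZMod M) = 0 := fun q =>
      Gamma0_mem.1 (deltaRep_mem q)
    obtain rfl : q = q' := by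
      refine deltaRep_eq_of_upperLeft hu ?_
      simpa [Matrix.mul_apply, Fin.sum_univ_two, hXa, hYa, hXc, hYc, hs, hua] using e
    refine Prod.ext (hRep_injective_mod (Γ := gammaH M K) i j ⟨γ, ⟨?_, u, hu, hua⟩, ?_⟩) rfl
    · exact hγc
    · rw [← mul_assoc] at heq
      rw [eq_mul_inv_iff_mul_eq]
      exact (mul_right_cancel heq).symm

theorem coresTop_diamond [Fintype ((ZMod M)ˣ ⧸ K)] (u : (ZMod M)ˣ) (φ : Additive (gammaH M K) →+ A) :
    coresTop R K (diamond M K R u φ) = coresTop R K φ := by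
  unfold diamond coresTop IsCoreps.cores
  rw [opOf_comp]
  refine LinearMap.congr_fun (opOf_eq_of_isReps (D := (img (gammaH M ⊤) : Set GLR)) _ _ ?_
    (isCoreps_deltaRep (K := K)).isReps) φ
  refine (isCoreps_deltaRep (K := K)).isReps.of_card (fun p => ?_) ?_
    (le_of_eq (Nat.card_congr (Equiv.uniqueProd _ Unit).symm))
  · exact mul_mem (mapGL_mem_img.2 (gammaH_top ▸ gamma0Elt_mem _))
      (mapGL_mem_img.2 (gammaH_top ▸ deltaRep_mem p.2))
  · rintro ⟨⟨⟩, q⟩ ⟨⟨⟩, q'⟩ h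
    refine Prod.ext rfl (isCoreps_deltaRep.inj q q' ?_)
    simp only [diaRep, ← map_inv, ← map_mul, mapGL_mem_img] at h
    have := gammaH_conj (inv_mem (gamma0Elt_mem u⁻¹)) h
    simpa [mul_assoc] using this

theorem hecke_of_resTop_eq_zero {φ : Additive (gammaH M (⊤ : Subgroup (ZMod M)ˣ)) →+ A}
    (h : resTop R K φ = 0) : hecke M ⊤ n R φ = Fintype.card (HIdx M n) • φ := by
  refine AddMonoidHom.ext fun x => ?_
  obtain ⟨γ, rfl⟩ := Additive.ofMul.surjective x
  obtain ⟨τ, hτ⟩ := admissible_hRep (M := M) (K := ⊤) (n := n) γ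
  choose c hc using fun i => exists_of_mem_img (hτ.2 i)
  have key : ∀ i, φ (Additive.ofMul (c i)) = φ (Additive.ofMul γ) := fun i => by
    obtain ⟨X, hX, -, hXc, x, hx, hXa⟩ := hRep_mem_heckeSet (K := (⊥ : Subgroup (ZMod M)ˣ)) i
    obtain ⟨Y, hY, -, hYc, y, hy, hYa⟩ := hRep_mem_heckeSet (K := (⊥ : Subgroup (ZMod M)ˣ)) (τ i)
    rw [Subgroup.mem_bot] at hx hy
    subst hx hy
    have heq : hRep M n i * mapGL ℝ (γ : SL(2, ℤ)) = mapGL ℝ (c i : SL(2, ℤ)) * hRep M n (τ i) := by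
      rw [hc, inv_mul_cancel_right]
    have e := congrArg (fun m : Matrix (Fin 2) (Fin 2) ℤ => (m 0 0 : ZMod M))
      ((hX.mul (isIntMat_mapGL _)).unique (heq ▸ (isIntMat_mapGL _).mul hY))
    have hγc := γ.2.1
    simp [Matrix.mul_apply, Fin.sum_univ_two, hXa, hYa, hYc, hγc] at e
    have hmem : (c i : SL(2, ℤ)) * (γ : SL(2, ℤ))⁻¹ ∈ gammaH M K :=
      gamma0_mul_inv_mem (gammaH_le_Gamma0 (c i).2) (gammaH_le_Gamma0 γ.2) (one_mem K)
        (by rw [Units.val_one, one_mul, e])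
    have h0 := DFunLike.congr_fun h (Additive.ofMul ⟨_, hmem⟩)
    rw [resTop, res_apply, AddMonoidHom.zero_apply,
      show Subgroup.inclusion le_top_gammaH ⟨_, hmem⟩ = c i * γ⁻¹ from Subtype.ext rfl,
      ofMul_mul, ofMul_inv, map_add, _root_.map_neg, ← sub_eq_add_neg, sub_eq_zero] at h0
    exact h0
  unfold hecke
  rw [opOf_apply_of_isPerm _ _ _ hτ]
  simp only [← hc, onImg_mapGL, key, Finset.sum_const, Finset.card_univ]
  rfl

omit hn in
theorem card_hIdx (h : ¬ n ∣ M) : Fintype.card (HIdx M n) = n + 1 := by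
  unfold HIdx
  rw [Fintype.card_congr (Equiv.subtypeUnivEquiv fun _ _ => h), Fintype.card_option, Fintype.card_fin]

/-- The kernel of restriction is Eisenstein. -/
theorem hecke_of_resTop_eq_zero' {φ : Additive (gammaH M (⊤ : Subgroup (ZMod M)ˣ)) →+ A}
    (h : resTop R K φ = 0) (hnM : ¬ n ∣ M) : hecke M ⊤ n R φ = (n + 1) • φ := by
  rw [hecke_of_resTop_eq_zero R h, card_hIdx hnM]

omit hn in
/-- The diamond operators as an action of the quotient. -/
def diaHom (K : Subgroup (ZMod M)ˣ) :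
    (ZMod M)ˣ ⧸ K →* Module.End R (Additive (gammaH M K) →+ A) :=
  QuotientGroup.lift K
    { toFun := fun u => diamond M K R u
      map_one' := LinearMap.ext fun φ => diamond_of_mem R (one_mem K) φ
      map_mul' := fun u v => LinearMap.ext fun φ => diamond_mul R u v φ }
    fun _ hu => LinearMap.ext fun φ => diamond_of_mem R hu φ

omit hn in
theorem diaHom_mk (u : (ZMod M)ˣ) :
    diaHom (A := A) R K (QuotientGroup.mk u) = diamond M K R u := rfl

omit hn in
theorem diamond_out (q : (ZMod M)ˣ ⧸ K) : diamond (A := A) M K R q.out = diaHom R K q := by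
  rw [← diaHom_mk, QuotientGroup.out_eq']

end Fermat.Agent.RT.GammaH
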