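import Mathlib.GroupTheory.PGroup
import Mathlib.LinearAlgebra.FreeModule.PID
import Mathlib.RingTheory.DiscreteValuationRing.Basic
import Mathlib.RingTheory.Filtration
import Fermat.Agent.RT.GammaH.Localizer

/-!
# Freeness over a group ring from corestriction

`H` carries an action of a finite `p`-group `Δ` through operators congruent to `1` modulo `m`,
`C : H → H₀` is surjective, an operator outside `m` sends its kernel into the span of the
`δ x - x`, and `R : H₀ → H` satisfies
`R ∘ C = ∑ δ` and is injective modulo the uniformiser up to an operator outside `m`. Then the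
localisation of `H` is free over `O[Δ]` of the rank of the localisation of `H₀`.
-/

set_option autoImplicit false

noncomputable section

namespace Fermat.Agent.RT.GammaH

open IsLocalRing

variable {O : Type} [CommRing O] [IsDomain O] [IsDiscreteValuationRing O] [Finite (ResidueField O)]
  {p : ℕ} [Fact p.Prime] [CharP (ResidueField O) p]
  {𝔸 : Type} [CommRing 𝔸] [Algebra O 𝔸] {Δ : Type} [CommGroup Δ]
  {H H₀ : Type} [AddCommGroup H] [Module 𝔸 H] [Module O H] [IsScalarTower O 𝔸 H] [Module.Finite O H]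
  [AddCommGroup H₀] [Module 𝔸 H₀] [Module O H₀] [IsScalarTower O 𝔸 H₀] [Module.Finite O H₀]

omit [Finite (ResidueField O)] [Module.Finite O H] in
theorem exists_uniformizer_smul {ϖ : O} (hϖ : Irreducible ϖ) {N : Submodule O H} {x : H}
    (hx : x ∈ maximalIdeal O • N) : ∃ y ∈ N, ϖ • y = x := by
  rw [hϖ.maximalIdeal_eq, Submodule.ideal_span_singleton_smul] at hx
  exact (Submodule.mem_smul_pointwise_iff_exists x ϖ N).1 hx

variable [Module.Free O H] [Module.Free O H₀] [Fintype Δ]

theorem exists_freeBasis (hΔ : IsPGroup p Δ) {m : Ideal 𝔸} (hm : m ≠ ⊤) {e : 𝔸}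
    (heH : IsLocalizer m H e) (heH₀ : IsLocalizer m H₀ e)
    (δ : Δ → 𝔸) (hδm : ∀ q, δ q - 1 ∈ m) (hone : ∀ x : H, δ 1 • x = x)
    (hmul : ∀ q q' (x : H), δ (q * q') • x = δ q • δ q' • x)
    (C : H →ₗ[𝔸] H₀) (hC : Function.Surjective C)
    {t₁ : 𝔸} (ht₁ : t₁ ∉ m)
    (hker : ∀ x, C x = 0 → ∃ y : Δ → H, t₁ • x = ∑ q, (δ q • y q - y q))
    (R : H₀ →ₗ[𝔸] H) (hRC : ∀ x, R (C x) = ∑ q, δ q • x)
    {ϖ : O} (hϖ : Irreducible ϖ) {t : 𝔸} (ht : t ∉ m)
    (hres : ∀ (x : H₀) (y : H), R x = ϖ • y → ∃ z : H₀, t • x = ϖ • z) :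
    ∃ b : Fin (Module.finrank O (localPart O e H₀)) → localPart O e H,
      Function.Bijective fun c : Fin (Module.finrank O (localPart O e H₀)) × Δ →₀ O =>
        c.sum fun iq x => x • localAct O e H (δ iq.2) (b iq.1) := by
  classical
  set M := localPart O e H with hM
  set M₀ := localPart O e H₀ with hM₀
  set d := Module.finrank O M₀
  let w : Module.Basis (Fin d) O M₀ := Module.finBasis O M₀
  choose pre hpre using fun i => hC (w i : H₀)
  let b : Fin d → M := fun i => ⟨e • pre i, heH.idem _⟩
  have hCb : ∀ i, C (b i : H) = w i := fun i => by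
    show C (e • pre i) = _
    rw [map_smul, hpre]
    exact (w i).2
  refine ⟨b, ?_⟩
  let g : Fin d × Δ → H := fun iq => δ iq.2 • (b iq.1 : H)
  let F := Finsupp.linearCombination O g
  have hFM : ∀ c, F c ∈ M := fun c => by
    rw [show F c = _ from Finsupp.linearCombination_apply O c]
    exact Submodule.sum_mem _ fun iq _ =>
      Submodule.smul_mem _ _ (smul_mem_localPart _ (b iq.1).2)
  have hval : ∀ c : Fin d × Δ →₀ O,
      ((c.sum fun iq x => x • localAct O e H (δ iq.2) (b iq.1) : M) : H) = F c := fun c => by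
    rw [show F c = _ from Finsupp.linearCombination_apply O c, Finsupp.sum, Finsupp.sum,
      Submodule.coe_sum]
    rfl
  -- translations
  have htrans : ∀ (r : Δ) (c : Fin d × Δ →₀ O),
      F (Finsupp.mapDomain (fun iq => (iq.1, r * iq.2)) c) = δ r • F c := fun r c => by
    rw [show F _ = _ from Finsupp.linearCombination_mapDomain O _ c,
      show F c = _ from Finsupp.linearCombination_apply O c,
      Finsupp.linearCombination_apply, Finsupp.sum, Finsupp.sum, Finset.smul_sum]
    refine Finset.sum_congr rfl fun iq _ => ?_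
    show c iq • g (iq.1, r * iq.2) = _
    rw [show g (iq.1, r * iq.2) = δ r • g iq from hmul _ _ _, smul_comm]
  have hstab : ∀ r, ∀ v ∈ LinearMap.range F, δ r • v - v ∈ LinearMap.range F := by
    rintro r _ ⟨c, rfl⟩
    exact sub_mem ⟨_, htrans r c⟩ ⟨c, rfl⟩
  -- one step
  have hstep : ∀ x ∈ M, ∃ v ∈ LinearMap.range F, ∃ y : Δ → H, (∀ q, y q ∈ M) ∧
      x = v + ∑ q, (δ q • y q - y q) := by
    intro x hx
    have hCx : C x ∈ M₀ := by
      rw [mem_localPart, ← map_smul, hx]
    set a := w.repr ⟨C x, hCx⟩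
    have hsum : C x = ∑ i, a i • (w i : H₀) := by
      have := congrArg (Subtype.val) (w.sum_repr ⟨C x, hCx⟩)
      rw [Submodule.coe_sum] at this
      exact this.symm
    set z := ∑ i, a i • (b i : H) with hz
    obtain ⟨y, hy⟩ := hker (x - z) (by
      rw [map_sub, hsum, hz, map_sum, sub_eq_zero]
      exact Finset.sum_congr rfl fun i _ => by rw [LinearMap.map_smul_of_tower, hCb])
    obtain ⟨t', ht'⟩ := heH.invert t₁ ht₁
    refine ⟨z, sum_mem fun i _ => Submodule.smul_mem _ _ ⟨Finsupp.single (i, 1) 1, ?_⟩,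
      fun q => (t' * e) • y q,
      fun q => by show (t' * e) • y q ∈ M; rw [mul_smul]; exact smul_mem_localPart _ (heH.idem _), ?_⟩
    · rw [show F _ = _ from Finsupp.linearCombination_single O _ _, one_smul]
      exact hone _
    · have hzM : z ∈ M := sum_mem fun i _ => Submodule.smul_mem _ _ (b i).2
      rw [← sub_eq_iff_eq_add', ← show e • (x - z) = x - z from sub_mem hx hzM, ← ht',
        show t₁ * t' * e = t' * e * t₁ by ring, mul_smul (t' * e) t₁, hy, Finset.smul_sum]
      exact Finset.sum_congr rfl fun q _ => by rw [smul_sub, smul_comm (t' * e)]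
  -- iteration
  let M' : Submodule 𝔸 H :=
    { carrier := {x | e • x = x}
      zero_mem' := smul_zero e
      add_mem' := fun hx hy => M.add_mem hx hy
      smul_mem' := fun a x hx => smul_mem_localPart (O := O) a hx }
  let J : Ideal 𝔸 := Ideal.span (Set.range fun q => δ q - 1)
  have hiter : ∀ j : ℕ, ∀ x ∈ M, ∃ v ∈ LinearMap.range F, x - v ∈ J ^ j • M' := by
    intro j
    induction j with
    | zero =>
      refine fun x hx => ⟨0, zero_mem _, ?_⟩
      rw [sub_zero, pow_zero, Ideal.one_eq_top, Submodule.top_smul]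
      exact hx
    | succ j ih =>
      intro x hx
      obtain ⟨v, hv, y, hy, hxy⟩ := hstep x hx
      choose v' hv' hw using fun q => ih (y q) (hy q)
      refine ⟨v + ∑ q, (δ q • v' q - v' q),
        add_mem hv (sum_mem fun q _ => hstab q _ (hv' q)), ?_⟩
      have : x - (v + ∑ q, (δ q • v' q - v' q)) = ∑ q, (δ q - 1) • (y q - v' q) := by
        rw [hxy, add_sub_add_left_eq_sub, ← Finset.sum_sub_distrib]
        refine Finset.sum_congr rfl fun q _ => ?_
        rw [sub_smul, one_smul, smul_sub]
        abel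
      rw [this, pow_succ', mul_smul]
      exact sum_mem fun q _ => Submodule.smul_mem_smul (Ideal.subset_span ⟨q, rfl⟩) (hw q)
  let ann : Ideal 𝔸 :=
    { carrier := {a | ∀ x ∈ M, a • x ∈ maximalIdeal O • M}
      zero_mem' := fun x _ => by rw [zero_smul]; exact zero_mem _
      add_mem' := fun {a a'} ha ha' x hx => by
        rw [add_smul]
        exact add_mem (ha x hx) (ha' x hx)
      smul_mem' := fun c a ha x hx => by
        rw [smul_eq_mul, mul_comm, mul_smul]
        exact ha _ (smul_mem_localPart c hx) }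
  obtain ⟨N, hN⟩ := Ideal.exists_pow_le_of_le_radical_of_fg (I := J) (J := ann)
    (Ideal.span_le.2 (by
      rintro _ ⟨q, rfl⟩
      obtain ⟨n, hn⟩ := heH.exists_pow_smul_mem (O := O) (hδm q) hm
      exact ⟨n, hn⟩))
    ⟨(Set.finite_range fun q => δ q - 1).toFinset, by rw [Set.Finite.coe_toFinset]⟩
  have hJN : ∀ z ∈ J ^ N • M', z ∈ maximalIdeal O • M := fun z hz => by
    induction hz using Submodule.smul_induction_on' with
    | smul a ha y hy => exact hN ha y hy
    | add y _ z _ hy hz => exact add_mem hy hz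
  have hspan : M ≤ LinearMap.range F := by
    refine Submodule.le_of_le_smul_of_le_jacobson_bot (I := maximalIdeal O)
      (IsNoetherian.noetherian M) (maximalIdeal_le_jacobson _) fun x hx => ?_
    obtain ⟨v, hv, hxv⟩ := hiter N x hx
    exact Submodule.mem_sup.2 ⟨v, hv, _, hJN _ hxv, add_sub_cancel _ _⟩
  -- injectivity modulo the uniformiser
  have hmod : ∀ c, F c ∈ maximalIdeal O • M → ∀ iq, c iq ∈ maximalIdeal O := by
    set W₀ : AddSubgroup (Fin d × Δ → ResidueField O) :=
      { carrier := {u | ∃ c, F c ∈ maximalIdeal O • M ∧ ∀ iq, residue O (c iq) = u iq}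
        zero_mem' := ⟨0, by rw [map_zero]; exact zero_mem _, fun iq => by simp⟩
        add_mem' := by
          rintro u u' ⟨c, hc, hu⟩ ⟨c', hc', hu'⟩
          exact ⟨c + c', by rw [map_add]; exact add_mem hc hc', fun iq => by simp [hu, hu']⟩
        neg_mem' := by
          rintro u ⟨c, hc, hu⟩
          exact ⟨-c, by rw [map_neg]; exact neg_mem hc, fun iq => by simp [hu]⟩ }
    suffices hW : W₀ = ⊥ by
      intro c hc iq
      have h0 : (fun iq => residue O (c iq)) ∈ W₀ := ⟨c, hc, fun _ => rfl⟩
      rw [hW, AddSubgroup.mem_bot] at h0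
      exact (residue_eq_zero_iff _).1 (congrFun h0 iq)
    by_contra hne
    have hsm : ∀ (r : Δ) (u : Fin d × Δ → ResidueField O), u ∈ W₀ →
        (fun iq => u (iq.1, r⁻¹ * iq.2)) ∈ W₀ := by
      rintro r u ⟨c, hc, hu⟩
      refine ⟨Finsupp.mapDomain (fun iq => (iq.1, r * iq.2)) c, ?_, fun iq => ?_⟩
      · rw [htrans]
        generalize F c = y₀ at hc ⊢
        induction hc using Submodule.smul_induction_on' with
        | smul a ha y hy =>
          rw [smul_comm]
          exact Submodule.smul_mem_smul ha (smul_mem_localPart _ hy)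
        | add y _ z _ hy hz =>
          rw [smul_add]
          exact add_mem hy hz
      · show _ = u (iq.1, r⁻¹ * iq.2)
        rw [← hu]
        congr 1
        conv_lhs => rw [show iq = (fun iq : Fin d × Δ => (iq.1, r * iq.2)) (iq.1, r⁻¹ * iq.2) by simp]
        exact Finsupp.mapDomain_apply (fun a a' h => by simpa [Prod.ext_iff] using h) _ _
    let : MulAction Δ W₀ :=
      { smul := fun r u => ⟨fun iq => u.1 (iq.1, r⁻¹ * iq.2), hsm r u.1 u.2⟩
        one_smul := fun u => Subtype.ext (funext fun iq => by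
          show u.1 (iq.1, (1 : Δ)⁻¹ * iq.2) = u.1 iq
          simp)
        mul_smul := fun r r' u => Subtype.ext (funext fun iq => by
          show u.1 (iq.1, (r * r')⁻¹ * iq.2) = u.1 (iq.1, r'⁻¹ * (r⁻¹ * iq.2))
          rw [mul_inv_rev, mul_assoc]) }
    obtain ⟨u₀, hu₀, hu₀ne⟩ := (AddSubgroup.bot_or_exists_ne_zero W₀).resolve_left hne
    have hp : p ∣ Nat.card W₀ := by
      have hord : p • (⟨u₀, hu₀⟩ : W₀) = 0 := Subtype.ext (funext fun iq => by
        show p • u₀ iq = 0
        rw [← Nat.cast_smul_eq_nsmul (ResidueField O), CharP.cast_eq_zero, zero_smul])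
      have h1 : addOrderOf (⟨u₀, hu₀⟩ : W₀) = p :=
        addOrderOf_eq_prime hord fun h => hu₀ne (congrArg Subtype.val h)
      exact h1 ▸ addOrderOf_dvd_natCard (⟨u₀, hu₀⟩ : W₀)
    obtain ⟨u, hu, hu0⟩ := hΔ.exists_fixed_point_of_prime_dvd_card_of_fixed_point W₀ hp
      (a := 0) (fun r => Subtype.ext (funext fun _ => rfl))
    have hfix : ∀ i q, u.1 (i, q) = u.1 (i, 1) := fun i q => by
      have := congrFun (congrArg Subtype.val (hu q)) (i, q)
      change u.1 (i, q⁻¹ * q) = u.1 (i, q) at this
      rw [inv_mul_cancel] at this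
      exact this.symm
    obtain ⟨c, hc, hcu⟩ := u.2
    set a : Fin d → O := fun i => c (i, 1)
    set c' : Fin d × Δ →₀ O := Finsupp.equivFunOnFinite.symm fun iq => a iq.1
    have hdiff : F (c - c') ∈ maximalIdeal O • M := by
      rw [show F _ = _ from Finsupp.linearCombination_apply O _]
      refine Submodule.sum_mem _ fun iq _ =>
        Submodule.smul_mem_smul ?_ (smul_mem_localPart _ (b iq.1).2)
      rw [← residue_eq_zero_iff]
      simp [c', a, hcu, hfix iq.1 iq.2]
    have hc' : F c' ∈ maximalIdeal O • M := by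
      have := sub_mem hc hdiff
      rwa [map_sub, sub_sub_cancel] at this
    obtain ⟨y, hyM, hy⟩ := exists_uniformizer_smul hϖ hc'
    set w₀ : H₀ := ∑ i, a i • (w i : H₀) with hw₀
    have hRw : R w₀ = F c' := by
      rw [show w₀ = C (∑ i, a i • (b i : H)) by simp [hw₀, map_sum, LinearMap.map_smul_of_tower, hCb],
        hRC, show F c' = _ from Finsupp.linearCombination_apply O _,
        Finsupp.sum_fintype c' (fun i a => a • g i) (fun _ => zero_smul O _),
        Fintype.sum_prod_type_right]
      refine Finset.sum_congr rfl fun q _ => ?_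
      rw [Finset.smul_sum]
      exact Finset.sum_congr rfl fun i _ => smul_comm _ _ _
    obtain ⟨z, hz⟩ := hres w₀ y (hRw.trans hy.symm)
    obtain ⟨t', ht'⟩ := heH₀.invert t ht
    have hw₀M : e • w₀ = w₀ := by
      show w₀ ∈ M₀
      exact sum_mem fun i _ => Submodule.smul_mem _ _ (w i).2
    have hw₀eq : w₀ = ϖ • ((t' * e) • z) := by
      rw [smul_comm, ← hz, smul_smul, show t' * e * t = t * t' * e by ring, ht', hw₀M]
    have hzM : (t' * e) • z ∈ M₀ := by
      rw [mem_localPart, mul_smul, smul_comm e t', heH₀.idem]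
    set zz : M₀ := ⟨_, hzM⟩
    have hrepr : (∑ i, a i • w i : M₀) = ϖ • zz := Subtype.ext (by
      rw [Submodule.coe_sum]
      exact hw₀eq)
    refine hu0 (Subtype.ext (funext fun iq => ?_))
    have := congrArg (fun m : M₀ => w.repr m iq.1) hrepr
    simp only [map_smul, Finsupp.smul_apply, w.repr_sum_self, smul_eq_mul] at this
    show (0 : ResidueField O) = u.1 iq
    rw [show u.1 iq = u.1 (iq.1, 1) from hfix iq.1 iq.2, ← hcu]
    show _ = residue O (a iq.1)
    rw [this, map_mul, (residue_eq_zero_iff ϖ).2 hϖ.not_isUnit, zero_mul]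
  have hinj : ∀ c, F c = 0 → c = 0 := by
    have key : ∀ j : ℕ, ∀ c, F c = 0 → ∀ iq, c iq ∈ maximalIdeal O ^ j := by
      intro j
      induction j with
      | zero => intro c _ iq; simp
      | succ j ih =>
        intro c hc iq
        have h1 := hmod c (by rw [hc]; exact zero_mem _)
        simp only [hϖ.maximalIdeal_eq, Ideal.mem_span_singleton] at h1
        choose c₁ hc₁ using h1
        set c₂ := Finsupp.equivFunOnFinite.symm c₁
        have hcc : c = ϖ • c₂ := Finsupp.ext fun iq => by simp [c₂, hc₁ iq]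
        have h0 : F c₂ = 0 := by
          rw [hcc, map_smul] at hc
          exact (smul_eq_zero.1 hc).resolve_left hϖ.ne_zero
        rw [hcc, pow_succ', Finsupp.smul_apply, smul_eq_mul]
        exact Ideal.mul_mem_mul hϖ.not_isUnit (ih c₂ h0 iq)
    intro c hc
    refine Finsupp.ext fun iq => ?_
    have h := (Submodule.mem_iInf _).2 fun j => key j c hc iq
    rwa [Ideal.iInf_pow_eq_bot_of_isLocalRing _ (maximalIdeal.isMaximal O).ne_top] at h
  refine ⟨fun c c' h => ?_, fun x => ?_⟩
  · have h' := congrArg Subtype.val h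
    simp only [hval] at h'
    exact sub_eq_zero.1 (hinj _ (by rw [map_sub, h', sub_self]))
  · obtain ⟨c, hc⟩ := hspan x.2
    exact ⟨c, Subtype.ext ((hval c).trans hc)⟩

end Fermat.Agent.RT.GammaH
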