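import Fermat.Agent.RT.GammaH.CoresThree
import Fermat.Agent.RT.Lift.Degeneracy

/-!
# The kernel of corestriction to `Γ₀(M)` up to a Hecke operator

For `r ≡ 2 (mod 3)` not dividing `M`, `Gamma0.ST` fixes no coset of `Γ₀(M r)`. Since `T_r` factors
through level `M r` compatibly with the corestrictions, it maps the kernel of corestriction into
the span of the differences under the diamond operators, for any coefficients with `2` invertible.
-/

set_option autoImplicit false

noncomputable section

namespace Fermat.Agent.RT.GammaH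

open Fermat.Agent.LevelRaising (RaiseData)
open scoped MatrixGroups

variable {M : ℕ} {K : Subgroup (ZMod M)ˣ} {A : Type*} [AddCommGroup A] {R : Type*} [Semiring R]
  [Module R A]

/-- Corestriction to `Γ₀(M)` is surjective for coefficients without `3`-torsion. -/
theorem coresTop_surjective_of_noThree [Fintype ((ZMod M)ˣ ⧸ K)] (h2 : IsUnit (2 : R))
    (hneg : -1 ∈ K) (htor : ∀ a : A, a + a + a = 0 → a = 0) :
    Function.Surjective (coresTop (A := A) R K) := by
  exact (isCoreps_deltaRep (K := K)).cores_surjective_of_noThree (A := A) h2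
    (neg_one_mem_gammaH hneg) htor

/-- `T_r` maps the kernel of corestriction into the span of the differences. -/
theorem exists_hecke_eq_sum_diamond [NeZero M] [Fintype ((ZMod M)ˣ ⧸ K)] {r : ℕ} [Fact r.Prime]
    (hr3 : r % 3 = 2) (hrM : ¬ r ∣ M) (h2 : IsUnit (2 : R)) (hneg : -1 ∈ K)
    {φ : Additive (gammaH M K) →+ A} (hφ : coresTop R K φ = 0) :
    ∃ ψ : (ZMod M)ˣ ⧸ K → (Additive (gammaH M K) →+ A),
      hecke M K r R φ = ∑ q, (diamond M K R q.out (ψ q) - ψ q) := by
  classical
  have hd : RaiseData r M := ⟨Fact.out, hrM⟩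
  have : NeZero (M * r) := ⟨mul_ne_zero (NeZero.ne M) (Fact.out : r.Prime).ne_zero⟩
  let _ : Fintype ((ZMod (M * r))ˣ ⧸ Lift.liftSub r K) := Fintype.ofFinite _
  have hneg' : -1 ∈ Lift.liftSub r K := by
    show ZMod.unitsMap _ (-1) ∈ K
    convert hneg
    exact Units.ext (by simp [ZMod.unitsMap_val])
  have hy : coresTop R (Lift.liftSub r K) (Lift.resDeg R r K φ) = 0 := by
    rw [Lift.coresTop_resDeg hd, hφ, map_zero]
    rfl
  obtain ⟨ψ, hψ⟩ := (isCoreps_deltaRep (K := Lift.liftSub r K)).exists_eq_sum_conjOp_of_free h2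
    (neg_one_mem_gammaH hneg')
    (fun x => by
      revert x
      rw [gammaH_top]
      exact Gamma0_ST_smul_ne (Fact.out : r.Prime) hr3 (dvd_mul_left r M))
    hy
  let π := ZMod.unitsMap (dvd_mul_right M r)
  let c : (ZMod (M * r))ˣ ⧸ Lift.liftSub r K → (ZMod M)ˣ ⧸ K := fun p => QuotientGroup.mk (π p.out)
  refine ⟨fun q => ∑ p ∈ Finset.univ.filter (fun p => c p = q), Lift.starDeg hd R K (ψ p), ?_⟩
  have hstep : hecke M K r R φ =
      ∑ p, (diamond M K R (c p).out (Lift.starDeg hd R K (ψ p)) - Lift.starDeg hd R K (ψ p)) := by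
    rw [← Lift.starDeg_resDeg hd]
    refine (congrArg (Lift.starDeg hd R K) hψ).trans ?_
    rw [map_sum]
    refine Finset.sum_congr rfl fun p _ => ?_
    rw [map_sub, conjOp_eq_diamond, Lift.starDeg_diamond hd, ← diaHom_mk, diamond_out]
  rw [hstep]
  refine (Finset.sum_fiberwise_of_maps_to (g := c) (fun p _ => Finset.mem_univ _) _).symm.trans ?_
  refine Finset.sum_congr rfl fun q _ => ?_
  rw [map_sum, ← Finset.sum_sub_distrib]
  exact Finset.sum_congr rfl fun p hp => by rw [(Finset.mem_filter.1 hp).2]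

end Fermat.Agent.RT.GammaH
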