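import Fermat.Agent.Poincare.Gamma0Link
import Fermat.Agent.Gamma0.Main

/-!
# `dim S₂(Γ) = g(Γ)` for finite index `Γ ∋ -1`

Weight two cusp forms of an arbitrary finite index subgroup are the vector valued forms on the coset
space, so that their dimension is the genus defined combinatorially in `Gamma0.Count`.
-/

set_option autoImplicit false

noncomputable section

open UpperHalfPlane hiding I
open Filter Topology Complex CongruenceSubgroup
open scoped MatrixGroups Manifold ModularForm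

namespace Fermat.Agent.RT.GammaH

open Fermat.Agent.Poincare Fermat.Agent.Gamma0

variable (Γ : Subgroup SL(2, ℤ)) [Γ.FiniteIndex]

/-- `dim S₂(Γ)` is the genus. -/
theorem finrank_cuspForm_two_eq_genusOf (hneg : -1 ∈ Γ) :
    Module.finrank ℂ (CuspForm Γ 2) = genusOf Γ := by
  classical
  have : Fintype (SL(2, ℤ) ⧸ Γ) := Fintype.ofFinite _
  have hX : ∀ x : SL(2, ℤ) ⧸ Γ, (-1 : SL(2, ℤ)) • x = x := Gamma0.neg_one_smul_coset hneg
  have h := FormBasis.finrank_two_eq (X := SL(2, ℤ) ⧸ Γ) hX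
  rw [← (cuspFormVEquiv Γ).finrank_eq, ← natCard_orb_T_eq_cuspSet] at h
  have h2 := card_add_mul_fixed (X := SL(2, ℤ) ⧸ Γ) ModularGroup.S Nat.prime_two fun x => by
    rw [pow_two, mul_smul, S_smul_S_smul hneg]
  have h3 := card_add_mul_fixed (X := SL(2, ℤ) ⧸ Γ) Gamma0.ST Nat.prime_three fun x => by
    rw [ST_pow_three, hX]
  have h4 := two_mul_genusOf_add hneg
  have e2 : Nat.card (MulAction.fixedBy (SL(2, ℤ) ⧸ Γ) ModularGroup.S) =
      Nat.card {x : SL(2, ℤ) ⧸ Γ // ModularGroup.S • x = x} := rfl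
  have e3 : Nat.card (MulAction.fixedBy (SL(2, ℤ) ⧸ Γ) Gamma0.ST) =
      Nat.card {x : SL(2, ℤ) ⧸ Γ // (ModularGroup.S * ModularGroup.T) • x = x} := rfl
  rw [e2] at h2
  rw [e3] at h3
  rw [Nat.card_eq_fintype_card (α := SL(2, ℤ) ⧸ Γ)] at h2 h3 h4
  omega

theorem finrank_parabolicHoms_eq (hneg : -1 ∈ Γ) :
    Module.finrank ℂ (ModularCurve.Period.parabolicHoms ℂ Γ ℂ) = 2 * genusOf Γ := by
  obtain ⟨γ, hγ⟩ := exists_parabolicHoms_equiv (Γ := Γ) hneg
  obtain ⟨e, -⟩ := hγ ℂ ℂ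
  rw [e.finrank_eq, Module.finrank_fin_fun]

end Fermat.Agent.RT.GammaH
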