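import Mathlib.NumberTheory.GaussSum
import Mathlib.NumberTheory.DirichletCharacter.Basic
import Fermat.Agent.RT.GammaH.Coeff

/-!
# Twists by characters of prime conductor and depletion

For squarefree `L` a function with nebentype `χ` on `Γ₀(L)` is twisted, prime by prime, by
characters of the primes where `χ` is nontrivial; no nonzero function dies in this process.
-/

set_option autoImplicit false

noncomputable section

open CongruenceSubgroup UpperHalfPlane Matrix.SpecialLinearGroup ModularFormClass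
open scoped MatrixGroups ModularForm

namespace Fermat.Agent.RT.GammaH

variable {M L : ℕ}

/-- Removing the coefficients of index not prime to `r`. -/
theorem exists_deplete [NeZero M] {r : ℕ} [NeZero r] (hr : r ∣ M) (hL : L ∣ M)
    {ε : DirichletCharacter ℂ L} {f : ℍ → ℂ} {a : ℕ → ℂ} (hf : IsNeb M ε f) (ha : HasCoeff f a) :
    ∃ F, IsNeb (M * r) ε F ∧ HasCoeff F (fun n => if n.Coprime r then a n else 0) ∧
      F = translSum r (DeligneSerre.depleteWeight (N := r)) f := by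
  classical
  refine ⟨_, ?_, (hasCoeff_translSum r _ ha).congr fun n => ?_, rfl⟩
  · suffices h : IsNeb (M * r) (ε * 1) (translSum r (DeligneSerre.depleteWeight (N := r)) f) by
      rwa [mul_one] at h
    refine hf.translSum hr hL fun d hd x => ?_
    have hdr : IsUnit (d : ZMod r) := by
      rw [← map_intCast (ZMod.castHom hr (ZMod r))]; exact hd.map _
    have hdL : IsUnit (d : ZMod L) := by
      rw [← map_intCast (ZMod.castHom hL (ZMod L))]; exact hd.map _
    rw [MulChar.one_apply hdL, one_mul, DeligneSerre.depleteWeight, DeligneSerre.depleteWeight]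
    congr 1
    refine (Fintype.sum_bijective (fun u : (ZMod r)ˣ => hdr.unit ^ 2 * u)
      (Group.mulLeft_bijective _) _ _ fun u => ?_).symm
    simp [mul_assoc]
  · rw [DeligneSerre.sum_depleteWeight]
    simp only [ZMod.isUnit_iff_coprime]
    split_ifs <;> simp

/-- Twist by a nontrivial character of prime modulus. -/
theorem exists_twist_prime [NeZero M] {v : ℕ} [Fact v.Prime] (hvM : v ∣ M) (hvL : v ∣ L)
    (hL : L ∣ M) {ε : DirichletCharacter ℂ L} {f : ℍ → ℂ} {a : ℕ → ℂ} (hf : IsNeb M ε f)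
    (ha : HasCoeff f a) {α : DirichletCharacter ℂ v} (hα : α ≠ 1) :
    ∃ F, IsNeb (M * v) (ε * DirichletCharacter.changeLevel hvL α ^ 2) F ∧
      HasCoeff F (fun n => α (n : ZMod v) * a n) ∧
      F = translSum v (fun x => (gaussSum α⁻¹ ZMod.stdAddChar)⁻¹ * α⁻¹ x) f := by
  classical
  have hα' : α⁻¹ ≠ 1 := inv_ne_one.2 hα
  have hτ : gaussSum α⁻¹ ZMod.stdAddChar ≠ 0 :=
    gaussSum_ne_zero_of_nontrivial (by simp [NeZero.ne v]) hα' (ZMod.isPrimitive_stdAddChar v)
  refine ⟨_, hf.translSum hvM hL fun d hd x => ?_, (hasCoeff_translSum v _ ha).congr fun n => ?_,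
    rfl⟩
  · have hdL : IsUnit (d : ZMod L) := by
      rw [← map_intCast (ZMod.castHom hL (ZMod L))]; exact hd.map _
    have hcast : DirichletCharacter.changeLevel hvL α (d : ZMod L) = α (d : ZMod v) := by
      rw [← hdL.unit_spec, DirichletCharacter.changeLevel_eq_cast_of_dvd, hdL.unit_spec,
        ZMod.cast_intCast hvL]
    have hdv : IsUnit (d : ZMod v) := by
      rw [← map_intCast (ZMod.castHom hvL (ZMod v))]; exact hdL.map _
    have hinv : α (d : ZMod v) * α⁻¹ (d : ZMod v) = 1 := by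
      rw [← MulChar.mul_apply, mul_inv_cancel, MulChar.one_apply hdv]
    rw [MulChar.pow_apply' _ two_ne_zero, hcast, map_mul, map_pow]
    linear_combination -((gaussSum α⁻¹ ZMod.stdAddChar)⁻¹ * α⁻¹ x) *
      (α (d : ZMod v) * α⁻¹ (d : ZMod v) + 1) * hinv
  · congr 1
    have hsum : ∑ x : ZMod v, α⁻¹ x * ZMod.stdAddChar (x * (n : ZMod v)) =
        gaussSum α⁻¹ ZMod.stdAddChar * α (n : ZMod v) := by
      rcases eq_or_ne (n : ZMod v) 0 with h | h
      · simp [h, MulChar.sum_eq_zero_of_ne_one hα', MulChar.map_zero]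
      · lift (n : ZMod v) to (ZMod v)ˣ using isUnit_iff_ne_zero.2 h with u hu
        have := gaussSum_mulShift_eq α⁻¹ ZMod.stdAddChar u
        rw [inv_inv, mul_comm] at this
        rw [← this]
        simp [gaussSum, mul_comm]
    simp only [mul_assoc, ← Finset.mul_sum, hsum]
    rw [inv_mul_cancel_left₀ hτ]

/-- A form supported on the multiples of a prime exactly dividing the level, at which the
character is nontrivial, vanishes. -/
theorem eq_zero_of_supported [NeZero M] {v R : ℕ} (hv : v.Prime) (hM : M = v * R) (hvR : ¬ v ∣ R)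
    (hL : L ∣ M) {ε : DirichletCharacter ℂ L} {f : ℍ → ℂ} {a : ℕ → ℂ} (hf : IsNeb M ε f)
    (ha : HasCoeff f a) (hsupp : ∀ n, ¬ v ∣ n → a n = 0) {d : ℤ} (hd1 : (R : ℤ) ∣ d - 1)
    (hdv : ¬ (v : ℤ) ∣ d) (hε : ε (d : ZMod L) ≠ 1) : f = 0 := by
  have : NeZero v := ⟨hv.ne_zero⟩
  -- `f` is invariant under translation by `1 / v`
  have htr : ∀ j : ℤ, f ∣[(2 : ℤ)] transl v j = f := by
    intro j
    refine HasCoeff.ext (fun τ => ?_) ha
    rw [transl, translQ, DeligneSerre.slash_ratShift_apply]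
    refine (ha _).congr_fun fun n => ?_
    by_cases hn : v ∣ n
    · obtain ⟨k, rfl⟩ := hn
      have hq : Function.Periodic.qParam 1 (((((j : ℚ) / v : ℚ) : ℝ) +ᵥ τ : ℍ) : ℂ) ^ (v * k) =
          Function.Periodic.qParam 1 (τ : ℂ) ^ (v * k) := by
        rw [pow_mul, pow_mul]
        congr 1
        rw [Function.Periodic.qParam, Function.Periodic.qParam, ← Complex.exp_nat_mul,
          ← Complex.exp_nat_mul, Complex.exp_eq_exp_iff_exists_int]
        refine ⟨j, ?_⟩
        have hv0 : (v : ℂ) ≠ 0 := Nat.cast_ne_zero.2 hv.ne_zero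
        rw [coe_vadd]
        push_cast
        field_simp
        ring
      rw [hq]
    · rw [hsupp n hn, zero_mul, zero_mul]
  obtain ⟨k, hk⟩ : ∃ k : ℤ, (v : ℤ) ∣ 1 + (R : ℤ) * k - d := by
    obtain ⟨x, y, hxy⟩ := Nat.isCoprime_iff_coprime.2 (hv.coprime_iff_not_dvd.2 hvR)
    exact ⟨y * (d - 1), -x * (d - 1), by linear_combination (d - 1) * hxy⟩
  have hdk : ¬ (v : ℤ) ∣ 1 + (R : ℤ) * k := fun h => hdv (by simpa using dvd_sub h hk)
  obtain ⟨j, t, ht⟩ : ∃ j t : ℤ, k + j * (1 + (R : ℤ) * k) = v * t := by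
    have : IsCoprime (v : ℤ) (1 + (R : ℤ) * k) :=
      (Prime.coprime_iff_not_dvd (Nat.prime_iff_prime_int.1 hv)).2 hdk
    obtain ⟨x, y, hxy⟩ := this
    exact ⟨-(k * y), k * x, by linear_combination -k * hxy⟩
  let γ₁ : SL(2, ℤ) := ⟨!![1, 0; (M : ℤ), 1], by simp [Matrix.det_fin_two_of]⟩
  have hdet : (!![1 + j * (R : ℤ), t; (M : ℤ), 1 + (R : ℤ) * k] :
      Matrix (Fin 2) (Fin 2) ℤ).det = 1 := by
    rw [Matrix.det_fin_two_of, hM]
    push_cast
    linear_combination (R : ℤ) * ht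
  let γ₂ : SL(2, ℤ) := ⟨_, hdet⟩
  have hγ₁ : γ₁ ∈ Gamma0 M := Newforms.mem_gamma0_iff_dvd.2 (by simp [γ₁])
  have hγ₂ : γ₂ ∈ Gamma0 M := Newforms.mem_gamma0_iff_dvd.2 (by simp [γ₂])
  have hmat : transl v j * mapGL ℝ γ₁ * transl v k = mapGL ℝ γ₂ := by
    refine Units.ext ?_
    have hvR' : (v : ℝ) ≠ 0 := Nat.cast_ne_zero.2 hv.ne_zero
    have htR : (k : ℝ) + j * (1 + (R : ℝ) * k) = v * t := by exact_mod_cast ht
    have hMR : (M : ℝ) = v * R := by exact_mod_cast hM
    have hV : ∀ (g : SL(2, ℤ)) (i j : Fin 2),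
        ((mapGL ℝ g : GL (Fin 2) ℝ) : Matrix (Fin 2) (Fin 2) ℝ) i j = ((g i j : ℤ) : ℝ) :=
      fun g i j => by simp
    have hG1 : ((mapGL ℝ γ₁ : GL (Fin 2) ℝ) : Matrix (Fin 2) (Fin 2) ℝ) =
        !![1, 0; (M : ℝ), 1] := by
      ext a b
      rw [hV]
      fin_cases a <;> fin_cases b <;> simp [γ₁]
    rw [Units.val_mul, Units.val_mul, val_transl, val_transl, hG1]
    ext a b
    rw [hV]
    fin_cases a <;> fin_cases b <;>
      simp [Matrix.mul_apply, Fin.sum_univ_two, γ₂, hMR] <;> (try field_simp)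
    · linear_combination htR
    · ring
  have e1 : f ∣[(2 : ℤ)] (mapGL ℝ γ₁ : GL (Fin 2) ℝ) = f := by
    refine (hf.neb γ₁ hγ₁).trans ?_
    simp [γ₁]
  have e2 : f ∣[(2 : ℤ)] (mapGL ℝ γ₂ : GL (Fin 2) ℝ) =
      ε (((1 + (R : ℤ) * k : ℤ)) : ZMod L) • f := by
    refine (hf.neb γ₂ hγ₂).trans ?_
    simp [γ₂]
  rw [← hmat, SlashAction.slash_mul, SlashAction.slash_mul, htr, e1, htr] at e2
  have hdd : (((1 + (R : ℤ) * k : ℤ)) : ZMod L) = (d : ZMod L) := by
    rw [ZMod.intCast_eq_intCast_iff_dvd_sub]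
    have hR' : (R : ℤ) ∣ d - (1 + (R : ℤ) * k) := by
      simpa [sub_add_eq_sub_sub] using dvd_sub hd1 (dvd_mul_right (R : ℤ) k)
    refine dvd_trans (Int.natCast_dvd_natCast.2 hL) ?_
    rw [hM, Nat.cast_mul]
    exact IsCoprime.mul_dvd (Nat.isCoprime_iff_coprime.2 (hv.coprime_iff_not_dvd.2 hvR))
      (by simpa using dvd_neg.2 hk) hR'
  rw [hdd] at e2
  by_contra hf0
  exact hε ((smul_left_injective ℂ hf0 (show (1 : ℂ) • f = ε (d : ZMod L) • f by
    rw [one_smul]; exact e2)).symm)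

/-- The component at `v` of a character of squarefree modulus. -/
theorem exists_component {v : ℕ} (hvL : v ∣ L) (hcop : v.Coprime (L / v))
    (ψ : DirichletCharacter ℂ L) :
    ∃ α : DirichletCharacter ℂ v, ∀ u : (ZMod L)ˣ,
      ZMod.unitsMap (Nat.div_dvd_of_dvd hvL) u = 1 → α (ZMod.cast (u : ZMod L)) = ψ u := by
  set e := ZMod.chineseRemainder hcop with he
  have hmul : v * (L / v) = L := Nat.mul_div_cancel' hvL
  set c : ZMod L ≃+* ZMod v × ZMod (L / v) := (ZMod.ringEquivCongr hmul.symm).trans e with hc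
  set ι : (ZMod v)ˣ →* (ZMod L)ˣ :=
    (Units.map c.symm.toRingHom.toMonoidHom).comp
      ((MulEquiv.prodUnits.symm.toMonoidHom).comp (MonoidHom.inl _ _)) with hι
  refine ⟨MulChar.ofUnitHom (ψ.toUnitHom.comp ι), fun u hu => ?_⟩
  have h1 : (c (u : ZMod L)).1 = ZMod.cast (u : ZMod L) :=
    RingHom.congr_fun (RingHom.ext_zmod ((RingHom.fst _ _).comp c.toRingHom)
      (ZMod.castHom hvL (ZMod v))) _
  have h2 : (c (u : ZMod L)).2 = 1 := by
    have := RingHom.congr_fun (RingHom.ext_zmod ((RingHom.snd _ _).comp c.toRingHom)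
      (ZMod.castHom (Nat.div_dvd_of_dvd hvL) (ZMod (L / v)))) (u : ZMod L)
    refine this.trans ?_
    simpa [ZMod.unitsMap, Units.ext_iff] using hu
  set w : (ZMod v)ˣ := Units.map (ZMod.castHom hvL (ZMod v)).toMonoidHom u with hw
  have hιw : ι w = u := by
    refine Units.ext ?_
    apply c.injective
    simp only [hι, MonoidHom.coe_comp, Function.comp_apply, Units.coe_map, MonoidHom.inl_apply]
    simp [hw, Prod.ext_iff, h1, h2, MulEquiv.prodUnits]
  have : (ZMod.cast (u : ZMod L) : ZMod v) = (w : ZMod v) := rfl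
  rw [this, MulChar.ofUnitHom_coe, MonoidHom.comp_apply, hιw]
  rfl

/-! ### The full twist -/

section Eta

variable [NeZero L]

omit [NeZero L] in
theorem coprime_div_of_squarefree (hL : Squarefree L) {v : ℕ} (hv : v.Prime) (hvL : v ∣ L) :
    ¬ v ∣ L / v := fun h =>
  hv.not_isUnit (hL v ((Nat.dvd_div_iff_mul_dvd hvL).1 h))

/-- A character trivial on every kernel `(ℤ/L)ˣ → (ℤ/(L/v))ˣ` is trivial. -/
theorem eq_one_of_forall_ker (hL : Squarefree L) (θ : DirichletCharacter ℂ L)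
    (h : ∀ v, v.Prime → ∀ hv : v ∣ L, ∀ u : (ZMod L)ˣ,
      ZMod.unitsMap (Nat.div_dvd_of_dvd hv) u = 1 → θ u = 1) : θ = 1 := by
  rw [DirichletCharacter.eq_one_iff_conductor_eq_one]
  by_contra hc
  obtain ⟨v, hv, hvc⟩ := Nat.exists_prime_and_dvd hc
  have hvL : v ∣ L := hvc.trans θ.conductor_dvd_level
  have hf : θ.FactorsThrough (L / v) :=
    (DirichletCharacter.factorsThrough_iff_ker_unitsMap (Nat.div_dvd_of_dvd hvL)).2 fun u hu =>
      MonoidHom.mem_ker.2 (Units.ext (h v hv hvL u hu))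
  exact coprime_div_of_squarefree hL hv hvL
    (hvc.trans (DirichletCharacter.conductor_dvd_of_mem_conductorSet θ hf))

open scoped Classical in
/-- The primes at which `χ` is nontrivial. -/
def badPrimes (χ : DirichletCharacter ℂ L) : Finset ℕ :=
  L.primeFactors.filter fun v => ¬ ∀ u : (ZMod L)ˣ,
    ((u : ZMod L).cast : ZMod (L / v)) = 1 → χ u = 1

variable {χ θ : DirichletCharacter ℂ L} {e : ℕ}

theorem mem_badPrimes {v : ℕ} : v ∈ badPrimes χ ↔ v.Prime ∧ v ∣ L ∧
    ∃ u : (ZMod L)ˣ, ((u : ZMod L).cast : ZMod (L / v)) = 1 ∧ χ u ≠ 1 := by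
  classical
  simp [badPrimes, NeZero.ne L, and_assoc]

omit [NeZero L] in
theorem unitsMap_eq_one_iff {d : ℕ} (hd : d ∣ L) (u : (ZMod L)ˣ) :
    ZMod.unitsMap hd u = 1 ↔ ((u : ZMod L).cast : ZMod d) = 1 := by
  rw [Units.ext_iff, ZMod.unitsMap_val, Units.val_one]

open scoped Classical in
/-- The component at `v` of `χ ^ e`. -/
def etaComp (χ : DirichletCharacter ℂ L) (e v : ℕ) : DirichletCharacter ℂ v :=
  if h : v ∣ L ∧ v.Coprime (L / v) then (exists_component h.1 h.2 (χ ^ e)).choose else 1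

omit [NeZero L] in
theorem etaComp_spec (hL : Squarefree L) {v : ℕ} (hv : v.Prime) (hvL : v ∣ L) (u : (ZMod L)ˣ)
    (hu : ZMod.unitsMap (Nat.div_dvd_of_dvd hvL) u = 1) :
    etaComp χ e v (ZMod.cast (u : ZMod L)) = χ u ^ e := by
  have h : v ∣ L ∧ v.Coprime (L / v) :=
    ⟨hvL, hv.coprime_iff_not_dvd.2 (coprime_div_of_squarefree hL hv hvL)⟩
  rw [etaComp, dif_pos h, (exists_component h.1 h.2 (χ ^ e)).choose_spec u hu,
    MulChar.pow_apply_coe]

theorem etaComp_ne_one (hL : Squarefree L) (he : θ ^ (2 * e) * χ = 1) {v : ℕ}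
    (hv : v ∈ badPrimes χ) : etaComp θ e v ≠ 1 := by
  obtain ⟨hp, hvL, u, hu, hne⟩ := mem_badPrimes.1 hv
  intro h1
  have h2 := etaComp_spec (χ := θ) (e := e) hL hp hvL u ((unitsMap_eq_one_iff _ u).2 hu)
  rw [h1, MulChar.one_apply (show IsUnit ((u : ZMod L).cast : ZMod v) from
    u.isUnit.map (ZMod.castHom hvL (ZMod v)))] at h2
  have h3 : θ u ^ (2 * e) * χ u = 1 := by
    rw [← MulChar.pow_apply_coe, ← MulChar.mul_apply, he, MulChar.one_apply_coe]
  rw [mul_comm 2, pow_mul, ← h2, one_pow, one_mul] at h3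
  exact hne h3

omit [NeZero L] in
theorem mulChar_prod_apply {ι : Type*} (s : Finset ι) (θ : ι → DirichletCharacter ℂ L)
    (u : (ZMod L)ˣ) : (∏ i ∈ s, θ i) (u : ZMod L) = ∏ i ∈ s, θ i (u : ZMod L) := by
  classical
  induction s using Finset.induction_on with
  | empty => simp [MulChar.one_apply_coe]
  | insert a s ha ih => rw [Finset.prod_insert ha, Finset.prod_insert ha, MulChar.mul_apply, ih]

theorem badPrimes_subset : badPrimes χ ⊆ L.primeFactors := by
  intro v hv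
  obtain ⟨hp, hvL, -⟩ := mem_badPrimes.1 hv
  exact Nat.mem_primeFactors.2 ⟨hp, hvL, NeZero.ne L⟩

/-- `v`-component of `χ ^ e` at level `L`. -/
def etaLift (χ : DirichletCharacter ℂ L) (e v : ℕ) : DirichletCharacter ℂ L :=
  if h : v ∣ L then DirichletCharacter.changeLevel h (etaComp χ e v) else 1

omit [NeZero L] in
theorem etaLift_apply (hL : Squarefree L) {v w : ℕ} (hv : v.Prime) (hvL : v ∣ L) (hw : w.Prime)
    (hwL : w ∣ L) (u : (ZMod L)ˣ) (hu : ZMod.unitsMap (Nat.div_dvd_of_dvd hvL) u = 1) :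
    etaLift χ e w u = if w = v then χ u ^ e else 1 := by
  rw [etaLift, dif_pos hwL, DirichletCharacter.changeLevel_eq_cast_of_dvd]
  rcases eq_or_ne w v with rfl | hne
  · rw [if_pos rfl, etaComp_spec hL hw hwL u hu]
  · have hd : w ∣ L / v := by
      rw [Nat.dvd_div_iff_mul_dvd hvL]
      exact ((Nat.coprime_primes hv hw).2 hne.symm).mul_dvd_of_dvd_of_dvd hvL hwL
    have h1 : ((u : ZMod L).cast : ZMod w) = 1 := by
      have := congrArg (ZMod.unitsMap hd) hu
      rw [map_one, ← MonoidHom.comp_apply, ZMod.unitsMap_comp, unitsMap_eq_one_iff] at this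
      exact this
    rw [if_neg hne, h1, map_one]

omit [NeZero L] in
theorem prod_etaLift_apply (hL : Squarefree L) {s : Finset ℕ} (hs : s ⊆ L.primeFactors) {v : ℕ}
    (hv : v.Prime) (hvL : v ∣ L) (u : (ZMod L)ˣ)
    (hu : ZMod.unitsMap (Nat.div_dvd_of_dvd hvL) u = 1) :
    (∏ w ∈ s, etaLift χ e w) u = if v ∈ s then χ u ^ e else 1 := by
  rw [mulChar_prod_apply]
  refine (Finset.prod_congr rfl fun w hw => etaLift_apply hL hv hvL
    (Nat.prime_of_mem_primeFactors (hs hw)) (Nat.dvd_of_mem_primeFactors (hs hw)) u hu).trans ?_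
  exact Finset.prod_ite_eq' s v fun _ => χ u ^ e

theorem prod_etaLift_eq_pow (hL : Squarefree L) :
    ∏ w ∈ badPrimes χ, etaLift χ e w = χ ^ e := by
  rw [← mul_inv_eq_one]
  refine eq_one_of_forall_ker hL _ fun v hv hvL u hu => ?_
  rw [MulChar.mul_apply, MulChar.inv_apply_eq_inv',
    prod_etaLift_apply (χ := χ) (e := e) hL badPrimes_subset hv hvL u hu,
    MulChar.pow_apply_coe]
  split_ifs with hb
  · exact mul_inv_cancel₀ (pow_ne_zero _ (u.isUnit.map χ).ne_zero)
  · have : χ u = 1 := by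
      by_contra hne
      exact hb (mem_badPrimes.2 ⟨hv, hvL, u, (unitsMap_eq_one_iff _ u).1 hu, hne⟩)
    simp [this]

/-- The value of the twisting character. -/
def etaSeq (χ : DirichletCharacter ℂ L) (e n : ℕ) : ℂ :=
  ∏ v ∈ badPrimes χ, etaComp χ e v (n : ZMod v)

theorem etaSeq_eq (hL : Squarefree L) {n : ℕ} {u : (ZMod L)ˣ} (hu : (u : ZMod L) = n) :
    etaSeq χ e n = χ u ^ e := by
  rw [← MulChar.pow_apply_coe, ← prod_etaLift_eq_pow hL, mulChar_prod_apply]
  refine Finset.prod_congr rfl fun v hv => ?_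
  have hvL := (mem_badPrimes.1 hv).2.1
  rw [etaLift, dif_pos hvL, DirichletCharacter.changeLevel_eq_cast_of_dvd, hu,
    ZMod.cast_natCast hvL]

/-- A representative congruent to `u` modulo `L` and to `1` modulo `R`. -/
theorem exists_int_rep (hL : Squarefree L) {v R : ℕ} (hv : v.Prime) (hvL : v ∣ L)
    (hR : L / v ∣ R) (hvR : ¬ v ∣ R) {u : (ZMod L)ˣ}
    (hu : ((u : ZMod L).cast : ZMod (L / v)) = 1) :
    ∃ d : ℤ, (R : ℤ) ∣ d - 1 ∧ ¬ (v : ℤ) ∣ d ∧ (d : ZMod L) = (u : ZMod L) := by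
  obtain ⟨x, y, hxy⟩ := Nat.isCoprime_iff_coprime.2 (hv.coprime_iff_not_dvd.2 hvR)
  set a : ℤ := ((u : ZMod L).val : ℤ) with ha
  set d : ℤ := 1 + y * R * (a - 1) with hd
  have hdv : (v : ℤ) ∣ d - a := ⟨-x * (a - 1), by rw [hd]; linear_combination (a - 1) * hxy⟩
  have hdu : (d : ZMod L) = (u : ZMod L) := by
    have ha1 : ((L / v : ℕ) : ℤ) ∣ a - 1 := by
      rw [← ZMod.intCast_zmod_eq_zero_iff_dvd]
      push_cast [ha]
      rw [ZMod.natCast_val, hu, sub_self]
    have hd1 : ((L / v : ℕ) : ℤ) ∣ d - 1 :=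
      ⟨y * ((R / (L / v) : ℕ) : ℤ) * (a - 1), by
        rw [hd]
        conv_lhs => rw [← Nat.mul_div_cancel' hR]
        push_cast
        ring⟩
    have h : (L : ℤ) ∣ d - a := by
      rw [← Nat.mul_div_cancel' hvL, Nat.cast_mul]
      refine IsCoprime.mul_dvd (Nat.isCoprime_iff_coprime.2
        (hv.coprime_iff_not_dvd.2 (coprime_div_of_squarefree hL hv hvL))) hdv ?_
      simpa using dvd_sub hd1 ha1
    rw [← sub_eq_zero]
    have := (ZMod.intCast_zmod_eq_zero_iff_dvd _ _).2 h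
    simpa [ha] using this
  refine ⟨d, ⟨y * (a - 1), by rw [hd]; ring⟩, fun h => ?_, hdu⟩
  have : IsUnit ((d : ℤ) : ZMod v) := by
    rw [← map_intCast (ZMod.castHom hvL (ZMod v)), hdu]
    exact u.isUnit.map _
  rw [(ZMod.intCast_zmod_eq_zero_iff_dvd d v).2 h] at this
  have hfact : Fact (1 < v) := ⟨hv.one_lt⟩
  exact not_isUnit_zero this

/-- The partial twist at a set of bad primes. -/
theorem exists_twist_set (hL : Squarefree L) (he : θ ^ (2 * e) * χ = 1) {s : Finset ℕ}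
    (hs : s ⊆ badPrimes χ) {f : ℍ → ℂ} {a : ℕ → ℂ} (hf : IsNeb L χ f) (ha : HasCoeff f a) :
    ∃ F, IsNeb (L * ∏ v ∈ s, v) (χ * (∏ v ∈ s, etaLift θ e v) ^ 2) F ∧
      HasCoeff F (fun n => (∏ v ∈ s, etaComp θ e v (n : ZMod v)) * a n) ∧ (F = 0 → f = 0) := by
  induction s using Finset.induction_on with
  | empty =>
    refine ⟨f, ?_, ha.congr fun n => by simp, id⟩
    rw [Finset.prod_empty, Finset.prod_empty, mul_one, one_pow, mul_one]
    exact hf
  | insert v s hvs ih =>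
    obtain ⟨hv, hvL, u, hu, hne⟩ := mem_badPrimes.1 (hs (Finset.mem_insert_self v s))
    obtain ⟨F, hF, hFa, hF0⟩ := ih ((Finset.subset_insert v s).trans hs)
    have hbad := etaComp_ne_one hL he (hs (Finset.mem_insert_self v s))
    set M := L * ∏ w ∈ s, w with hM
    have hprime : ∀ w ∈ s, w.Prime := fun w hw =>
      (mem_badPrimes.1 (hs (Finset.mem_insert_of_mem hw))).1
    have : NeZero M :=
      ⟨mul_ne_zero (NeZero.ne L) (Finset.prod_ne_zero_iff.2 fun w hw => (hprime w hw).ne_zero)⟩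
    have : Fact v.Prime := ⟨hv⟩
    have hLM : L ∣ M := dvd_mul_right _ _
    obtain ⟨G, hG, hGa, -⟩ :=
      exists_twist_prime (hvL.trans hLM) hvL hLM hF hFa hbad
    refine ⟨G, ?_, hGa.congr fun n => ?_, fun h0 => hF0 ?_⟩
    · rw [Finset.prod_insert hvs, Finset.prod_insert hvs, mul_comm v, ← mul_assoc, ← hM, mul_pow,
        mul_comm (etaLift θ e v ^ 2), ← mul_assoc, etaLift, dif_pos hvL]
      exact hG
    · rw [Finset.prod_insert hvs, mul_assoc]
    · -- nothing dies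
      have hvR : ¬ v ∣ L / v * ∏ w ∈ s, w := by
        refine hv.prime.not_dvd_mul (coprime_div_of_squarefree hL hv hvL) ?_
        rw [hv.prime.dvd_finsetProd_iff]
        rintro ⟨w, hw, hvw⟩
        exact hvs ((Nat.prime_dvd_prime_iff_eq hv (hprime w hw)).1 hvw ▸ hw)
      have hMeq : M = v * (L / v * ∏ w ∈ s, w) := by
        rw [← mul_assoc, Nat.mul_div_cancel' hvL]
      obtain ⟨d, hd1, hdv, hdu⟩ := exists_int_rep hL hv hvL (dvd_mul_right _ _) hvR hu
      refine eq_zero_of_supported hv hMeq hvR hLM hF hFa (fun n hn => ?_) hd1 hdv ?_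
      · have h := (hG.eq_zero_iff (hLM.trans (dvd_mul_right _ _)) hGa).1 h0 n
        refine (mul_eq_zero.1 h).resolve_left ?_
        have hu' : IsUnit (n : ZMod v) :=
          (ZMod.isUnit_iff_coprime _ _).2 ((hv.coprime_iff_not_dvd.2 hn).symm)
        exact (hu'.map _).ne_zero
      · rw [hdu, MulChar.mul_apply, MulChar.pow_apply_coe,
          prod_etaLift_apply hL (((Finset.subset_insert v s).trans hs).trans
            badPrimes_subset) hv hvL u ((unitsMap_eq_one_iff _ u).2 hu), if_neg hvs,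
          one_pow, mul_one]
        exact hne

/-- The twist to trivial character. -/
theorem exists_twist (hL : Squarefree L) (he : θ ^ (2 * e) * χ = 1)
    (hbad : badPrimes θ ⊆ badPrimes χ) {f : ℍ → ℂ} {a : ℕ → ℂ}
    (hf : IsNeb L χ f) (ha : HasCoeff f a) :
    ∃ F, IsNeb (L * ∏ v ∈ badPrimes θ, v) (1 : DirichletCharacter ℂ L) F ∧
      HasCoeff F (fun n => etaSeq θ e n * a n) ∧ (F = 0 → f = 0) := by
  obtain ⟨F, hF, hFa, h0⟩ := exists_twist_set hL he hbad hf ha
  rw [prod_etaLift_eq_pow hL, ← pow_mul, mul_comm χ, mul_comm e, he] at hF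
  exact ⟨F, hF, hFa, h0⟩

end Eta

end Fermat.Agent.RT.GammaH
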