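import Fermat.Agent.Newforms.Newform
import Fermat.Agent.RT.GammaH.Semisimple

/-!
# From an eigen homomorphism to a normalised eigenform with nebentype and its twist
-/

set_option autoImplicit false

noncomputable section

open CongruenceSubgroup UpperHalfPlane ModularFormClass Matrix.SpecialLinearGroup
open ModularCurve.Period
open scoped MatrixGroups ModularForm ComplexConjugate

namespace Fermat.Agent.RT.GammaH

open Fermat.Agent.Periods.Congruence (per perLin per_injective per_add_conj_injective)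
open Fermat.Agent.HeckeDuality (SeqEigen eulerWeight)

variable {L : ℕ} [NeZero L] {K : Subgroup (ZMod L)ˣ}

/-- The Hecke operator on forms, linearly. -/
def heckeLin (p : ℕ) [Fact p.Prime] : Module.End ℂ (FormH L K) where
  toFun := heckeForm p
  map_add' f g := DFunLike.coe_injective <| by
    simp [coe_heckeForm, slashSum, SlashAction.add_slash, Finset.sum_add_distrib]
  map_smul' c f := DFunLike.coe_injective <| by
    simp only [RingHom.id_apply, coe_heckeForm, slashSum, FunLike.coe_smul, Finset.smul_sum]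
    refine Finset.sum_congr rfl fun i _ => ?_
    obtain ⟨A, hA, hd, -⟩ := hRep_mem_heckeSet (K := K) i
    rw [ModularForm.smul_slash, UpperHalfPlane.σ, if_pos (det_pos_of_isIntMat hA
      (hd ▸ Int.natCast_pos.2 (Fact.out : p.Prime).pos)), ContinuousAlgEquiv.refl_apply]

@[simp] theorem heckeLin_apply (p : ℕ) [Fact p.Prime] (f : FormH L K) :
    heckeLin p f = heckeForm p f := rfl

theorem heckeForm_comm (p q : ℕ) [Fact p.Prime] [Fact q.Prime] (f : FormH L K) :
    heckeForm p (heckeForm q f) = heckeForm q (heckeForm p f) :=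
  sub_eq_zero.1 (per_injective Gamma_le_gammaH (by
    rw [per_sub, per_heckeForm, per_heckeForm, per_heckeForm, per_heckeForm, hecke_comm, sub_self]))

omit [NeZero L] in
theorem coe_formConjH (f : FormH L K) : ⇑(formConjH f) = ⇑f ∣[(2 : ℤ)] UpperHalfPlane.J := rfl

theorem isChiForm_formConjH {χ : (ZMod L)ˣ →* ℂˣ} {g : FormH L K}
    (hg : IsChiForm ((Units.map (starRingEnd ℂ).toMonoidHom).comp χ) g) :
    IsChiForm χ (formConjH g) := by
  intro u
  refine DFunLike.coe_injective ?_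
  rw [coe_diaForm, FunLike.coe_smul, coe_formConjH, ModularForm.SL_slash,
    ← SlashAction.slash_mul]
  show ⇑g ∣[(2 : ℤ)] (UpperHalfPlane.J * mapGL ℝ (gamma0Elt u⁻¹)) = _
  have hmem : jConjSL (gamma0Elt u⁻¹) ∈ Gamma0 L := jConjSL_mem_Gamma0 (gamma0Elt_mem _)
  have hd : ((jConjSL (gamma0Elt u⁻¹) 1 1 : ℤ) : ZMod L) = u := by
    have h1 : ((gamma0Elt u⁻¹ 0 0 : ℤ) : ZMod L) * (gamma0Elt u⁻¹ 1 1 : ℤ) -
        (gamma0Elt u⁻¹ 0 1 : ℤ) * (gamma0Elt u⁻¹ 1 0 : ℤ) = 1 := by
      exact_mod_cast congrArg (Int.cast : ℤ → ZMod L) (Gamma0.det_eq (gamma0Elt u⁻¹))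
    rw [gamma0Elt_lowerLeft, mul_zero, sub_zero, gamma0Elt_upperLeft] at h1
    simpa using (Units.inv_mul_eq_one (u := u)).1 h1 |>.symm
  have hn : ⇑g ∣[(2 : ℤ)] (mapGL ℝ (jConjSL (gamma0Elt u⁻¹)) : GL (Fin 2) ℝ) =
      (conj (χ u : ℂ)) • ⇑g := slash_eq_of_mem_gamma0 hg hmem hd
  rw [Periods.J_mul_mapGL, SlashAction.slash_mul, hn, ModularForm.smul_slash]
  congr 1
  simp [UpperHalfPlane.σ, show ¬(1 : ℝ) < 0 by simp]

theorem qCoeff_formConjH (f : FormH L K) (n : ℕ) :
    qCoeff (formConjH f) n = conj (qCoeff f n) :=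
  qCoeff_formH_eq _ (hasCoeff_formConjH f (hasCoeff_formH f)) n

theorem formH_ext {f g : FormH L K} (h : ∀ n, qCoeff f n = qCoeff g n) : f = g :=
  DFunLike.coe_injective (((hasCoeff_formH f).congr h).ext (hasCoeff_formH g))

theorem toDir_conj (χ : (ZMod L)ˣ →* ℂˣ) (x : ZMod L) :
    toDir ((Units.map (starRingEnd ℂ).toMonoidHom).comp χ) x = conj (toDir χ x) := by
  by_cases hx : IsUnit x
  · lift x to (ZMod L)ˣ using hx
    rw [toDir_coe, toDir_coe]
    rfl
  · rw [(toDir _).map_nonunit hx, (toDir χ).map_nonunit hx, map_zero]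

variable {S : Finset ℕ} {a : ℕ → ℂ} {χ : (ZMod L)ˣ →* ℂˣ}

/-- A nonzero form with the same eigensystem. -/
theorem exists_formH_of_eigen (hneg : -1 ∈ K)
    {φ : Additive (gammaH L K) →+ ℂ} (hφ : φ ∈ parabolicHoms ℂ (gammaH L K) ℂ) (hne : φ ≠ 0)
    (hdia : ∀ u, diamond L K ℂ u φ = (χ u : ℂ) • φ)
    (hT : ∀ (ℓ : ℕ) [Fact ℓ.Prime], ℓ ∉ S → hecke L K ℓ ℂ φ = a ℓ • φ) :
    ∃ f : FormH L K, f ≠ 0 ∧ IsChiForm χ f ∧
      ∀ (ℓ : ℕ) [Fact ℓ.Prime], ℓ ∉ S → heckeForm ℓ f = a ℓ • f := by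
  obtain ⟨f, g, rfl⟩ := exists_per_add_conjHom hneg hφ
  obtain ⟨hf, hg⟩ := chiForms_of_diamond hdia
  have heig : ∀ (ℓ : ℕ) [Fact ℓ.Prime], ℓ ∉ S →
      heckeForm ℓ f = a ℓ • f ∧ heckeForm ℓ g = conj (a ℓ) • g := by
    intro ℓ _ hℓ
    have key : per (heckeForm ℓ f - a ℓ • f) +
        conjHom (per (heckeForm ℓ g - conj (a ℓ) • g)) = 0 := by
      have h' := hT ℓ hℓ
      rw [map_add, hecke_conjHom, ← per_heckeForm, ← per_heckeForm] at h'
      refine AddMonoidHom.ext fun x => ?_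
      have hx := DFunLike.congr_fun h' x
      simp only [per_sub, per_smul, AddMonoidHom.add_apply, AddMonoidHom.sub_apply, conjHom_apply,
        AddMonoidHom.smul_apply, AddMonoidHom.zero_apply, smul_eq_mul, map_sub, map_mul,
        Complex.conj_conj] at hx ⊢
      linear_combination hx
    obtain ⟨h1, h2⟩ := per_add_conj_injective Gamma_le_gammaH
      (fun γ => DFunLike.congr_fun key (Additive.ofMul γ))
    exact ⟨sub_eq_zero.1 h1, sub_eq_zero.1 h2⟩
  by_cases hf0 : f = 0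
  · refine ⟨formConjH g, fun h => hne ?_, isChiForm_formConjH hg, fun ℓ _ hℓ => formH_ext fun n => ?_⟩
    · have : g = 0 := formH_eq_zero fun n => by
        have := qCoeff_formConjH g n
        rw [h, qCoeff_formH_eq (0 : FormH L K) (a := 0) hasCoeff_zero, Pi.zero_apply] at this
        simpa using this.symm
      subst hf0 this
      simp [Periods.Congruence.per_zero Gamma_le_gammaH, conjHom]
    · have := congrArg (fun F : FormH L K => conj (qCoeff F n)) (heig ℓ hℓ).2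
      simp only [qCoeff_formH_smul, qCoeff_heckeForm hg, map_mul, Complex.conj_conj] at this
      rw [qCoeff_heckeForm (isChiForm_formConjH hg), qCoeff_formH_smul, qCoeff_formConjH, ← this]
      simp only [seqOp, qCoeff_formConjH, nebWeight, toDir_conj]
      split_ifs <;> simp
  · exact ⟨f, hf0, hf, fun ℓ _ hℓ => (heig ℓ hℓ).1⟩

/-- A normalised eigenform of all Hecke operators, with the same eigensystem outside `S`. -/
theorem exists_eigenForm (hneg : -1 ∈ K)
    {φ : Additive (gammaH L K) →+ ℂ} (hφ : φ ∈ parabolicHoms ℂ (gammaH L K) ℂ) (hne : φ ≠ 0)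
    (hdia : ∀ u, diamond L K ℂ u φ = (χ u : ℂ) • φ)
    (hT : ∀ (ℓ : ℕ) [Fact ℓ.Prime], ℓ ∉ S → hecke L K ℓ ℂ φ = a ℓ • φ) :
    ∃ (f : FormH L K) (lam : ℕ → ℂ), IsChiForm χ f ∧ qCoeff f 1 = 1 ∧
      SeqEigen (nebWeight (toDir χ)) lam (qCoeff f) ∧
      (∀ (p : ℕ) [Fact p.Prime], heckeForm p f = lam p • f) ∧
      (∀ p, p.Prime → p ∉ S → lam p = a p) := by
  classical
  have := finiteDimensional_formH (M := L) hneg
  obtain ⟨f₀, hf₀, hχf₀, hTf₀⟩ := exists_formH_of_eigen hneg hφ hne hdia hT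
  let gen : Set (Module.End ℂ (FormH L K)) :=
    Set.range fun p : {p : ℕ // p.Prime} => @heckeLin L _ K p.1 ⟨p.2⟩
  have hcomm : ∀ x ∈ gen, ∀ y ∈ gen, x * y = y * x := by
    rintro _ ⟨⟨p, hp⟩, rfl⟩ _ ⟨⟨q, hq⟩, rfl⟩
    have : Fact p.Prime := ⟨hp⟩
    have : Fact q.Prime := ⟨hq⟩
    exact LinearMap.ext fun f => heckeForm_comm p q f
  have := Algebra.isMulCommutative_adjoin ℂ hcomm
  let : CommRing (Algebra.adjoin ℂ gen) := by
    open scoped IsMulCommutative in exact inferInstance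
  let W : Submodule ℂ (FormH L K) :=
    { carrier := {f | IsChiForm χ f ∧ ∀ (ℓ : ℕ) [Fact ℓ.Prime], ℓ ∉ S → heckeLin ℓ f = a ℓ • f}
      zero_mem' := by
        refine ⟨fun u => DFunLike.coe_injective ?_, fun ℓ _ _ => by rw [map_zero, smul_zero]⟩
        simp [coe_diaForm, SlashAction.zero_slash]
      add_mem' := fun {x y} hx hy => by
        refine ⟨?_, fun ℓ _ hℓ => by rw [map_add, hx.2 ℓ hℓ, hy.2 ℓ hℓ, smul_add]⟩
        simpa [sub_eq_add_neg] using hx.1.sub (hy.1.smul (-1))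
      smul_mem' := fun c x hx =>
        ⟨hx.1.smul c, fun ℓ _ hℓ => by rw [map_smul, hx.2 ℓ hℓ, smul_comm]⟩ }
  have hWinv : ∀ T ∈ Algebra.adjoin ℂ gen, ∀ w ∈ W, T w ∈ W := by
    intro T hT'
    induction hT' using Algebra.adjoin_induction with
    | mem x hx =>
      obtain ⟨⟨p, hp⟩, rfl⟩ := hx
      have : Fact p.Prime := ⟨hp⟩
      intro w hw
      refine ⟨heckeForm_isChiForm hw.1, fun ℓ _ hℓ => ?_⟩
      show heckeForm ℓ (heckeForm p w) = _
      rw [heckeForm_comm, show heckeForm ℓ w = a ℓ • w from hw.2 ℓ hℓ]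
      exact map_smul (heckeLin p) (a ℓ) w
    | algebraMap r => exact fun w hw => W.smul_mem r hw
    | add x y _ _ hx hy => exact fun w hw => W.add_mem (hx w hw) (hy w hw)
    | mul x y _ _ hx hy => exact fun w hw => hx _ (hy w hw)
  obtain ⟨θ, f, hfW, hf, heig⟩ := HeckeDuality.exists_eigenCharacter
    (Algebra.adjoin ℂ gen).val.toRingHom W
    ((Submodule.ne_bot_iff _).2 ⟨f₀, ⟨hχf₀, hTf₀⟩, hf₀⟩) (fun T w hw => hWinv T.1 T.2 w hw)
  let lam : ℕ → ℂ := fun p =>
    if hp : p.Prime then θ ⟨_, Algebra.subset_adjoin (Set.mem_range_self ⟨p, hp⟩)⟩ else 0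
  have hlam : ∀ (p : ℕ) [Fact p.Prime], heckeForm p f = lam p • f := fun p hp => by
    simp only [lam, dif_pos hp.out]
    exact heig ⟨_, Algebra.subset_adjoin (Set.mem_range_self ⟨p, hp.out⟩)⟩
  have hseq : SeqEigen (nebWeight (toDir χ)) lam (qCoeff f) := fun p hp n => by
    have : Fact p.Prime := ⟨hp⟩
    have h := congrArg (fun F : FormH L K => qCoeff F n) (hlam p)
    simp only [qCoeff_heckeForm hfW.1, qCoeff_formH_smul] at h
    exact h
  have h1 : qCoeff f 1 ≠ 0 := fun h =>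
    hf (formH_eq_zero (hseq.eq_zero (qCoeff_formH_zero f) h))
  refine ⟨(qCoeff f 1)⁻¹ • f, lam, hfW.1.smul _,
    by rw [qCoeff_formH_smul, inv_mul_cancel₀ h1], fun p hp n => ?_, fun p _ => ?_,
    fun p hp hpS => ?_⟩
  · simp only [qCoeff_formH_smul]
    have := hseq p hp n
    split_ifs at this ⊢ <;> linear_combination (qCoeff f 1)⁻¹ * this
  · rw [← heckeLin_apply, map_smul, heckeLin_apply, hlam, smul_comm]
  · have : Fact p.Prime := ⟨hp⟩
    exact smul_left_injective ℂ hf ((hlam p).symm.trans (hfW.2 p hpS))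

/-- The twist of the normalised eigenform is a normalised eigenform on `Γ₀`. -/
theorem exists_twist_eigenForm (hL : Squarefree L) {e : ℕ} {θ : DirichletCharacter ℂ L}
    (he : θ ^ (2 * e) * toDir χ = 1) (hbad : badPrimes θ ⊆ badPrimes (toDir χ))
    {f : FormH L K} {lam : ℕ → ℂ} (hf : IsChiForm χ f) (h1 : qCoeff f 1 = 1)
    (hseq : SeqEigen (nebWeight (toDir χ)) lam (qCoeff f)) :
    ∃ G : CuspForm (Gamma0 (twistLevel θ)) 2, G.IsNormalizedEigenform ∧
      ∀ n, qCoeff G n = etaSeq θ e n * qCoeff f n := by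
  have := neZero_twistLevel (χ := θ)
  obtain ⟨G, hG, -⟩ := exists_twistForm hL he hbad hf
  refine ⟨G, ?_, hG⟩
  have hG1 : qCoeff G 1 = 1 := by rw [hG, h1, etaSeq_one, one_mul]
  have hne : G ≠ 0 := fun h => by
    rw [h] at hG1
    exact zero_ne_one ((((Newforms.coeffLin (N := twistLevel θ) (k := 2) 1).map_zero).symm).trans hG1)
  have h := HeckeDuality.isNormalizedEigenform_of_eigen hne
    (fun p => etaSeq θ e p * lam p) fun p hp => by
      refine (Newforms.hOp_eq_smul_iff hp G _).2 fun n => ?_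
      simp only [hG]
      refine (seqOp_twist hL he hp (qCoeff f) n).trans ?_
      rw [seqOp, hseq p hp n]
      ring
  simpa [hG1] using h.2.1

end Fermat.Agent.RT.GammaH
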