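import Fermat.Agent.Newforms.Eigen
import Fermat.Agent.RT.Interface
import Fermat.Agent.RT.GammaH.EigenForm
import Fermat.Agent.RT.GammaH.EigenVector

/-!
# A congruent level has nonzero localised module

The eigensystem of a congruent form lives on the lattice `Hom(Γ₀(M), ℤ)`; if the localiser killed
`Hom(Γ₀(M), O)`, the eigenvalue of the localiser would reduce both to `0` and to `1`.
-/

set_option autoImplicit false

noncomputable section

namespace Fermat.Agent.RT.GammaH

open CongruenceSubgroup MvPolynomial IsLocalRing ModularFormClass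
open scoped MatrixGroups ModularForm

open Fermat.Agent.Periods.Congruence (per per_injective)

variable {M : ℕ} [NeZero M] {K : Subgroup (ZMod M)ˣ}

/-- Complex homomorphisms are combinations of integral ones. -/
theorem exists_int_decomp (φ : HomC K) : ∃ (r : ℕ) (w : Fin r → ℂ)
    (ψ : Fin r → (Additive (gammaH M K) →+ ℤ)), ∀ γ, φ γ = ∑ i, w i * (ψ i γ : ℂ) := by
  have : Group.FG SL(2, ℤ) := Group.fg_iff.2
    ⟨{ModularGroup.S, Gamma0.ST}, Gamma0.closure_S_ST, Set.toFinite _⟩
  have h1 : Group.FG (gammaH M K) := Subgroup.fg_of_index_ne_zero _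
  have : AddGroup.FG (Additive (gammaH M K)) := GroupFG.iff_add_fg.1 h1
  have : Module.Finite ℤ φ.range := Module.Finite.iff_addGroup_fg.2 (AddGroup.fg_range φ)
  have : Module.Free ℤ φ.range := Module.free_of_finite_type_torsion_free'
  let b := Module.finBasis ℤ φ.range
  refine ⟨_, fun i => (b i : ℂ), fun i => (b.coord i).toAddMonoidHom.comp φ.rangeRestrict,
    fun γ => ?_⟩
  have h := congrArg φ.range.subtype (b.sum_repr (φ.rangeRestrict γ)).symm
  rw [map_sum] at h
  refine h.trans (Finset.sum_congr rfl fun i _ => ?_)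
  rw [map_zsmul, zsmul_eq_mul, mul_comm]
  rfl

/-- Homomorphisms independent over `R` stay independent over a domain containing `R`. -/
theorem linearIndependent_coeff {R T : Type} [CommRing R] [CommRing T] [IsDomain T] [Algebra R T]
    [FaithfulSMul R T] {ι : Type} {y : ι → (Additive (gammaH M K) →+ R)}
    (hy : LinearIndependent R y) :
    LinearIndependent T fun i => (algebraMap R T).toAddMonoidHom.comp (y i) := by
  obtain ⟨n, γ, hγ⟩ := exists_coords (K := K)
  let ev : (Additive (gammaH M K) →+ R) →ₗ[R] (Fin n → R) :=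
    { toFun := fun φ i => φ (γ i)
      map_add' := fun _ _ => rfl
      map_smul' := fun _ _ => rfl }
  let evT : (Additive (gammaH M K) →+ T) →ₗ[T] (Fin n → T) :=
    { toFun := fun φ i => φ (γ i)
      map_add' := fun _ _ => rfl
      map_smul' := fun _ _ => rfl }
  exact LinearIndependent.of_comp evT (linearIndependent_algebraMap_comp_iff.2
    (hy.map' ev (LinearMap.ker_eq_bot.2 fun φ ψ h => hγ R φ ψ (congrFun h))))

omit [NeZero M] in
/-- An operator with integral coefficients acts through its image over `O`. -/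
theorem map_cast_smul {O : Type} [CommRing O] {S : Finset ℕ} {A : Type} [AddCommGroup A]
    [Module O A] (q : OpRing ℤ M S) (φ : Additive (gammaH M K) →+ A) :
    toHomMod.symm (MvPolynomial.map (Int.castRingHom O) q • (toHomMod φ : HomMod O S K A)) =
      toHomMod.symm (q • (toHomMod φ : HomMod ℤ S K A)) := by
  induction q using MvPolynomial.induction_on generalizing φ with
  | C z =>
    rw [map_C, ← algebraMap_eq, ← algebraMap_eq, algebraMap_smul, algebraMap_smul]
    exact AddMonoidHom.ext fun γ => (Int.cast_smul_eq_zsmul O z (φ γ))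
  | add a b ha hb =>
    rw [map_add, add_smul, add_smul, map_add, map_add, ha, hb]
  | mul_X a i ha =>
    rw [map_mul, map_X, mul_smul, mul_smul]
    rcases i with u | ℓ
    · rw [X_inl_smul, X_inl_smul]
      exact ha (diamond M K ℤ u φ)
    · have : Fact ℓ.1.Prime := ⟨ℓ.2.1⟩
      rw [X_inr_smul, X_inr_smul]
      exact ha (hecke M K ℓ.1 ℤ φ)

/-- A form on `Γ₀(M)` as a form on `Γ_H`. -/
def toFormH (g : CuspForm (Gamma0 M) 2) : FormH M K :=
  mkFormH g (fun _ hγ => Newforms.slash_gamma0_eq g (gammaH_le_Gamma0 hγ))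
    (Newforms.isCuspFn_cuspForm g)

theorem isChiForm_toFormH (g : CuspForm (Gamma0 M) 2) :
    IsChiForm (1 : (ZMod M)ˣ →* ℂˣ) (toFormH (K := K) g) := fun u => by
  refine DFunLike.coe_injective ?_
  rw [coe_diaForm, MonoidHom.one_apply, Units.val_one, one_smul]
  exact Newforms.slash_gamma0_eq g (gamma0Elt_mem _)

theorem heckeForm_toFormH {g : CuspForm (Gamma0 M) 2} (hg : g.IsNormalizedEigenform) (p : ℕ)
    [hp : Fact p.Prime] :
    heckeForm p (toFormH (K := K) g) = qCoeff g p • toFormH (K := K) g := by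
  refine formH_ext fun n => ?_
  rw [qCoeff_heckeForm (isChiForm_toFormH g), qCoeff_formH_smul]
  refine Eq.trans ?_ ((Newforms.hOp_eq_smul_iff hp.out g _).1
    (Newforms.hOp_of_isNormalizedEigenform hg hp.out) n)
  have hw : nebWeight (toDir (1 : (ZMod M)ˣ →* ℂˣ)) p = HeckeDuality.eulerWeight M p := by
    rw [nebWeight, HeckeDuality.eulerWeight]
    by_cases h : p ∣ M
    · have h0 : ¬ IsUnit ((p : ℕ) : ZMod M) := fun hu =>
        ((Nat.Prime.coprime_iff_not_dvd hp.out).1 ((ZMod.isUnit_iff_coprime _ _).1 hu)) h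
      rw [if_pos h, MulChar.map_nonunit _ h0, zero_mul]
    · have hu := (ZMod.isUnit_iff_coprime p M).2 ((Nat.Prime.coprime_iff_not_dvd hp.out).2 h)
      rw [if_neg h, ← hu.unit_spec, toDir_coe, MonoidHom.one_apply, Units.val_one, one_mul]
  rw [seqOp, hw]
  rfl

variable {O : Type} [CommRing O] [IsDomain O] [IsLocalRing O] [CharZero O] {S : Finset ℕ}
  {abar : ℕ → ResidueField O}

/-- The localised module of a congruent level is nonzero. -/
theorem ne_bot_of_isCongruentLevel {e : OpRing O M S}
    (he : IsLocalizer (resIdeal S abar M) (HomMod O S (⊤ : Subgroup (ZMod M)ˣ) O) e)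
    (hcong : IsCongruentLevel S abar M) :
    localPart O e (HomMod O S (⊤ : Subgroup (ZMod M)ˣ) O) ≠ ⊥ := by
  classical
  intro hbot
  set H := HomMod O S (⊤ : Subgroup (ZMod M)ˣ) O
  have he0 : ∀ x : H, e • x = 0 := fun x =>
    (Submodule.mem_bot O).1 (hbot ▸ he.smul_self_mem x)
  obtain ⟨g, hg, φ, hφ⟩ := hcong
  -- the eigenclass
  set gH : FormH M (⊤ : Subgroup (ZMod M)ˣ) := toFormH g
  set v : HomC (⊤ : Subgroup (ZMod M)ˣ) := per gH
  have hv : v ≠ 0 := fun h => by
    have h1 : gH = 0 := per_injective Gamma_le_gammaH h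
    exact hg.ne_zero (DFunLike.coe_injective (congrArg (fun F : FormH M _ => (⇑F : _ → ℂ)) h1))
  let θ : OpRing ℤ M S →ₐ[ℤ] ℂ := aeval (Sum.elim 1 fun ℓ => qCoeff g ℓ.1)
  have heig : ∀ q, opC ℤ S (⊤ : Subgroup (ZMod M)ˣ) q v = θ q • v := by
    intro q
    induction q using MvPolynomial.induction_on with
    | C z => rw [opC_C, Module.algebraMap_end_apply, ← algebraMap_eq, AlgHom.commutes]
    | add a b ha hb => rw [map_add, map_add, LinearMap.add_apply, ha, hb, add_smul]
    | mul_X a i ha =>
      have hi : opC ℤ S (⊤ : Subgroup (ZMod M)ˣ) (X i) v = θ (X i) • v := by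
        rcases i with u | ℓ
        · rw [opC_inl, diamond_top, show θ (X (Sum.inl u)) = 1 by simp [θ], one_smul]
        · have : Fact ℓ.1.Prime := ⟨ℓ.2.1⟩
          rw [opC_inr, show θ (X (Sum.inr ℓ)) = qCoeff g ℓ.1 by simp [θ], ← per_heckeForm,
            heckeForm_toFormH hg, per_smul]
      rw [map_mul, map_mul, Module.End.mul_apply, hi, map_smul, ha, smul_smul, mul_comm]
  -- the lattice
  set HZ := HomMod ℤ S (⊤ : Subgroup (ZMod M)ˣ) ℤ
  have : Module.Free ℤ HZ := by exact instFreeHomMod
  have : Module.Finite ℤ HZ := by exact instFiniteHomMod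
  set bZ := Module.Free.chooseBasis ℤ HZ
  let A : OpRing ℤ M S → Matrix _ _ ℤ := fun q =>
    LinearMap.toMatrixAlgEquiv bZ (opAct ℤ S (⊤ : Subgroup (ZMod M)ˣ) ℤ q)
  have hA : ∀ q j, q • bZ j = ∑ i, A q i j • bZ i := fun q j => by
    refine (bZ.sum_repr (q • bZ j)).symm.trans (Finset.sum_congr rfl fun i _ => ?_)
    exact congrArg (· • bZ i)
      (LinearMap.toMatrixAlgEquiv_apply bZ (opAct ℤ S (⊤ : Subgroup (ZMod M)ˣ) ℤ q) i j).symm
  -- the eigenclass in the complexified lattice
  set yC : _ → HomC (⊤ : Subgroup (ZMod M)ˣ) := fun j => toHomC (bZ j) with hyC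
  obtain ⟨r, w₀, ψ, hψ⟩ := exists_int_decomp v
  obtain ⟨w, hw⟩ : ∃ w : Module.Free.ChooseBasisIndex ℤ HZ → ℂ, ∑ j, w j • yC j = v := by
    refine (Submodule.mem_span_range_iff_exists_fun ℂ).1 ?_
    have hv' : v = ∑ i, w₀ i • toHomC (toHomMod (ψ i) : HZ) := by
      refine AddMonoidHom.ext fun γ => ?_
      rw [hψ γ, AddMonoidHom.finsetSum_apply]
      exact Finset.sum_congr rfl fun i _ => rfl
    rw [hv']
    refine sum_mem fun i _ => Submodule.smul_mem _ _ ?_
    rw [← bZ.sum_repr (toHomMod (ψ i) : HZ), map_sum]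
    refine sum_mem fun j _ => ?_
    rw [map_smul, smul_homC]
    exact Submodule.smul_mem _ _ (Submodule.subset_span ⟨j, rfl⟩)
  have hker : ∀ q, A q = 0 → θ q = 0 := fun q hq => by
    refine (smul_eq_zero.1 ((heig q).symm.trans ?_)).resolve_right hv
    simp [← hw, hyC, ← toHomC_smul, hA, hq]
  -- integrality
  have hint : ∀ q, θ q ∈ integralClosure ℤ ℂ := fun q => by
    have hQ0 := LinearMap.aeval_self_charpoly (opAct ℤ S (⊤ : Subgroup (ZMod M)ˣ) ℤ q)
    have hQ := LinearMap.charpoly_monic (opAct ℤ S (⊤ : Subgroup (ZMod M)ˣ) ℤ q)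
    set Q := (opAct ℤ S (⊤ : Subgroup (ZMod M)ˣ) ℤ q).charpoly
    refine ⟨Q, hQ, ?_⟩
    rw [← Polynomial.aeval_def, Polynomial.aeval_algHom_apply]
    refine smul_left_injective ℂ hv ((heig _).symm.trans ?_)
    have hzero : ∀ x : HZ, Polynomial.aeval q Q • x = 0 := fun x => by
      rw [smul_eq_opAct, ← Polynomial.aeval_algHom_apply]
      exact LinearMap.congr_fun hQ0 x
    simp [← hw, map_sum, map_smul, hyC, ← toHomC_smul, hzero]
  let θR : OpRing ℤ M S →ₐ[ℤ] integralClosure ℤ ℂ := θ.codRestrict _ hint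
  let cast' : OpRing ℤ M S →+* OpRing O M S := MvPolynomial.map (Int.castRingHom O)
  have hred : ∀ q, φ (θR q) = algebraMap _ _ (opRes S abar M (cast' q)) := by
    intro q
    refine congrFun (congrArg DFunLike.coe (?_ : φ.comp θR.toRingHom =
      ((algebraMap (ResidueField O) (AlgebraicClosure (ResidueField O))).comp
        ((opRes S abar M : OpRing O M S →ₐ[O] _) : OpRing O M S →+* ResidueField O)).comp cast')) q
    refine MvPolynomial.ringHom_ext (fun z => ?_) fun i => ?_
    · exact DFunLike.congr_fun (RingHom.ext_int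
        ((φ.comp θR.toRingHom).comp C)
        ((((algebraMap (ResidueField O) (AlgebraicClosure (ResidueField O))).comp
          ((opRes S abar M : OpRing O M S →ₐ[O] _) : OpRing O M S →+* ResidueField O)).comp cast').comp C)) z
    · simp only [RingHom.coe_comp, Function.comp_apply, cast', map_X, RingHom.coe_coe]
      rcases i with u | ℓ
      · rw [opRes_inl, map_one]
        refine (congrArg φ (Subtype.ext ?_ : θR (X (Sum.inl u)) = 1)).trans (map_one φ)
        show θ (X (Sum.inl u)) = 1
        simp [θ]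
      · rw [opRes_inr]
        refine hφ ℓ.1 ℓ.2.1 ℓ.2.2 _ ?_
        show θ (X (Sum.inr ℓ)) = _
        simp [θ]
  -- the expansion of the localiser
  set supp := e.support
  let c : supp → O := fun s => e.coeff s.1
  let mon : supp → OpRing ℤ M S := fun s => monomial s.1 1
  have hexp : e = ∑ s, C (c s) * cast' (mon s) := by
    conv_lhs => rw [e.as_sum, ← Finset.sum_coe_sort]
    exact Finset.sum_congr rfl fun s _ => by simp [c, mon, cast', C_mul_monomial]
  have hliO : LinearIndependent O fun j => (algebraMap ℤ O).toAddMonoidHom.comp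
      (toHomMod.symm (bZ j)) :=
    linearIndependent_coeff (R := ℤ) (T := O) (y := fun j => toHomMod.symm (bZ j))
      (bZ.linearIndependent.map' toHomMod.symm.toLinearMap (LinearEquiv.ker _))
  have hmat : ∀ i j, ∑ s, c s * ((A (mon s) i j : ℤ) : O) = 0 := fun i j => by
    set y := fun j => (algebraMap ℤ O).toAddMonoidHom.comp (toHomMod.symm (bZ j))
    have key : ∀ q, toHomMod.symm (cast' q • (toHomMod (y j) : H)) =
        ∑ i, ((A q i j : ℤ) : O) • y i := fun q => by
      rw [map_cast_smul]
      have h1 : q • (toHomMod (y j) : HomMod ℤ S (⊤ : Subgroup (ZMod M)ˣ) O) =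
          mapCoeff (Algebra.linearMap ℤ O) (q • bZ j) := by
        rw [map_smul]
        rfl
      rw [h1, hA, map_sum, map_sum]
      refine Finset.sum_congr rfl fun i _ => ?_
      rw [LinearMap.map_smul_of_tower]
      exact AddMonoidHom.ext fun γ => (Int.cast_smul_eq_zsmul O _ _).symm
    have h : toHomMod.symm (e • (toHomMod (y j) : H)) = 0 := by rw [he0, map_zero]
    rw [hexp, Finset.sum_smul, map_sum] at h
    have h' : ∑ s, c s • ∑ i, ((A (mon s) i j : ℤ) : O) • y i = 0 := by
      refine (Finset.sum_congr rfl fun s _ => ?_).trans h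
      rw [mul_smul, ← algebraMap_eq, algebraMap_smul, map_smul, key]
    simp only [Finset.smul_sum, smul_smul] at h'
    rw [Finset.sum_comm] at h'
    simp only [← Finset.sum_smul] at h'
    exact Fintype.linearIndependent_iff.1 hliO _ h' i
  -- the operators span a lattice of integral matrices
  let Aₗ : OpRing ℤ M S →ₗ[ℤ] Matrix _ _ ℤ :=
    (LinearMap.toMatrixAlgEquiv bZ).toLinearMap ∘ₗ
      (opAct ℤ S (⊤ : Subgroup (ZMod M)ˣ) ℤ).toLinearMap
  let B := Module.Free.chooseBasis ℤ (LinearMap.range Aₗ)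
  choose pre hpre using fun k => (B k).2
  let n : supp → _ → ℤ := fun s k => B.repr ⟨Aₗ (mon s), LinearMap.mem_range_self _ _⟩ k
  have hn : ∀ s, Aₗ (mon s) = ∑ k, n s k • (B k : Matrix _ _ ℤ) := fun s => by
    have h := congrArg Subtype.val (B.sum_repr ⟨Aₗ (mon s), LinearMap.mem_range_self _ _⟩)
    rw [Submodule.coe_sum] at h
    exact h.symm
  have hθn : ∀ s, θR (mon s) = ∑ k, n s k • θR (pre k) := fun s => by
    have h := hker (mon s - ∑ k, n s k • pre k) (show Aₗ _ = 0 by
      rw [map_sub, map_sum, hn]; simp only [map_zsmul, hpre, sub_self])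
    rw [map_sub, map_sum, sub_eq_zero] at h
    simp only [map_zsmul] at h
    exact Subtype.ext (h.trans (by simp [θR]))
  -- and their relations hold over `O`
  have hc : ∀ k, ∑ s, c s * ((n s k : ℤ) : O) = 0 := fun k => by
    refine Fintype.linearIndependent_iff.1 ((linearIndependent_algebraMap_comp_iff (S := O)).2
      ((B.linearIndependent.map' _ (Submodule.ker_subtype _)).map'
        ((Matrix.ofLinearEquiv ℤ).symm.trans (LinearEquiv.curry ℤ ℤ _ _).symm).toLinearMap
        (LinearEquiv.ker _))) (fun k => ∑ s, c s * ((n s k : ℤ) : O)) ?_ k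
    refine _root_.funext fun ij => ?_
    have h := hmat ij.1 ij.2
    simp only [show ∀ s, A (mon s) = _ from hn, Matrix.sum_apply, Matrix.smul_apply] at h
    refine Eq.trans ?_ h
    simp [Finset.sum_mul, Finset.mul_sum, mul_assoc]
    exact Finset.sum_comm
  have hone : opRes S abar M e = 1 := by
    have h1 := he.sub_one_mem
    rwa [mem_resIdeal, map_sub, map_one, sub_eq_zero] at h1
  refine one_ne_zero (α := AlgebraicClosure (ResidueField O)) ?_
  rw [← map_one (algebraMap (ResidueField O) _), ← hone, hexp, map_sum]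
  simp only [map_mul, map_sum, ← algebraMap_eq, AlgHom.commutes, ResidueField.algebraMap_eq,
    ← hred, hθn, zsmul_eq_mul, Finset.mul_sum]
  rw [Finset.sum_comm]
  refine Finset.sum_eq_zero fun k _ => ?_
  have h := congrArg (fun x => algebraMap (ResidueField O) (AlgebraicClosure (ResidueField O))
    (residue O x)) (hc k)
  simp only [map_sum, map_mul, map_intCast, map_zero] at h
  rw [← zero_mul (φ (θR (pre k))), ← h, Finset.sum_mul]
  simp [mul_assoc]

end Fermat.Agent.RT.GammaH
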