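import Fermat.Agent.RT.GammaH.Coeff

/-!
# Atkin–Lehner matrices, translations, and `v`-old functions

The key statement is `eq_zero_of_old`: an old function at `v` which is killed by `U_v` together
with its image under `W_{v²}` vanishes.
-/

set_option autoImplicit false

noncomputable section

open CongruenceSubgroup UpperHalfPlane Matrix.SpecialLinearGroup
open scoped MatrixGroups ModularForm

namespace Fermat.Agent.RT.GammaH


open Fermat.Agent.Newforms (ALData realMat ratGL mem_gamma0_iff_dvd)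
open P2MW.S_ModularForm_heckeT_slash_eq_self_of_mem_Gamma0.ModularForm.HeckeSlashInvariance

/-- Invariance under `Γ₀(v) ∩ Γ₁(R)`. -/
def LowInv (v R : ℕ) (f : ℍ → ℂ) : Prop :=
  ∀ γ : SL(2, ℤ), ((v * R : ℕ) : ℤ) ∣ γ 1 0 → (R : ℤ) ∣ γ 0 0 - 1 → f ∣[(2 : ℤ)] γ = f

theorem IsNeb.lowInv {M L v R : ℕ} {ε : DirichletCharacter ℂ L} {f : ℍ → ℂ} (hf : IsNeb M ε f)
    (hM : M ∣ v * R) (hε : ∀ d : ℤ, IsCoprime d ((v * R : ℕ) : ℤ) → (R : ℤ) ∣ d - 1 →
      ε (d : ZMod L) = 1) : LowInv v R f := by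
  intro γ hc ha
  rw [hf.neb γ (mem_gamma0_iff_dvd.2 ((Int.natCast_dvd_natCast.2 hM).trans hc)), hε, one_smul]
  · obtain ⟨c, hc⟩ := hc
    refine ⟨γ 0 0, -(γ 0 1) * c, ?_⟩
    have := γ.det_coe
    rw [Matrix.det_fin_two, hc] at this
    linear_combination this
  · obtain ⟨c, hc⟩ := hc
    obtain ⟨k, hk⟩ := ha
    refine ⟨(v : ℤ) * c * γ 0 1 - k * γ 1 1, ?_⟩
    have := γ.det_coe
    rw [Matrix.det_fin_two, hc, Nat.cast_mul] at this
    linear_combination this - γ 1 1 * hk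

/-- Two Atkin–Lehner matrices differ by an element of `Γ₀(vR)`. -/
theorem al_exists_mul {v R : ℕ} (D D' : ALData v R) :
    ∃ γ : SL(2, ℤ), ((v * R : ℕ) : ℤ) ∣ γ 1 0 ∧
      (R : ℤ) ∣ γ 0 0 - (v : ℤ) * D.x * D'.v ∧ D.gl = mapGL ℝ γ * D'.gl := by
  have hdet : (!![(v : ℤ) * D.x * D'.v - D.y * R * D'.z, -D.x * D'.y + D.y * D'.x;
      (v : ℤ) * R * (D.z * D'.v - D.v * D'.z), -(R : ℤ) * D.z * D'.y + v * D.v * D'.x] :
      Matrix (Fin 2) (Fin 2) ℤ).det = 1 := by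
    rw [Matrix.det_fin_two_of]
    linear_combination ((v : ℤ) * D'.x * D'.v - R * D'.z * D'.y) * D.eq_one + D'.eq_one
  let γ : SL(2, ℤ) := ⟨_, hdet⟩
  refine ⟨γ, by simp [γ], ⟨-(D.y * D'.z), by simp [γ]; ring⟩, Units.ext ?_⟩
  rw [Units.val_mul, ALData.val_gl, ALData.val_gl, Newforms.mapGL_eq_realMat, ← Matrix.map_mul]
  congr 1
  ext i j
  fin_cases i <;> fin_cases j <;> simp [ALData.intMat, γ, Matrix.mul_apply, Fin.sum_univ_two]
  · linear_combination (-(v : ℤ) * D.x) * D'.eq_one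
  · linear_combination (-D.y) * D'.eq_one
  · linear_combination (-(v : ℤ) * R * D.z) * D'.eq_one
  · linear_combination (-(v : ℤ) * D.v) * D'.eq_one

theorem LowInv.al_congr {v R : ℕ} {f : ℍ → ℂ} (hf : LowInv v R f) (D D' : ALData v R)
    (hx : (R : ℤ) ∣ D.x - D'.x) : f ∣[(2 : ℤ)] D.gl = f ∣[(2 : ℤ)] D'.gl := by
  obtain ⟨γ, hc, ha, he⟩ := al_exists_mul D D'
  have hγ : f ∣[(2 : ℤ)] (mapGL ℝ γ : GL (Fin 2) ℝ) = f := by
    refine hf γ hc ?_
    obtain ⟨k, hk⟩ := ha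
    obtain ⟨k', hk'⟩ := hx
    exact ⟨k + (v : ℤ) * D'.v * k' + D'.z * D'.y,
      by linear_combination hk + (v : ℤ) * D'.v * hk' + D'.eq_one⟩
  rw [he, SlashAction.slash_mul, hγ]

/-- An Atkin–Lehner matrix for a multiple of the level. -/
def alLower {v R R₁ : ℕ} (h : R ∣ R₁) (D : ALData v R₁) : ALData v R where
  hq := D.hq
  x := D.x
  y := D.y
  z := D.z * ((R₁ / R : ℕ) : ℤ)
  v := D.v
  eq_one := by
    have h' : (R₁ : ℤ) = R * ((R₁ / R : ℕ) : ℤ) := by rw [← Nat.cast_mul, Nat.mul_div_cancel' h]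
    linear_combination D.eq_one + D.z * D.y * h'

theorem alLower_gl {v R R₁ : ℕ} (h : R ∣ R₁) (D : ALData v R₁) : (alLower h D).gl = D.gl := by
  refine Units.ext ?_
  rw [ALData.val_gl, ALData.val_gl]
  congr 1
  have h' : (R₁ : ℤ) = R * ((R₁ / R : ℕ) : ℤ) := by rw [← Nat.cast_mul, Nat.mul_div_cancel' h]
  simp only [ALData.intMat, alLower]
  generalize ((R₁ / R : ℕ) : ℤ) = k at h' ⊢
  ext i j
  fin_cases i <;> fin_cases j <;> simp
  linear_combination (-(v : ℤ) * D.z) * h'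

/-- Translations by `1/m` commute with Atkin–Lehner at `v` up to rescaling. -/
theorem transl_mul_al {v R R₁ m : ℕ} [NeZero m] (hR : R * m ∣ R₁) (hm : m * m ∣ R₁)
    (D : ALData v R₁) (hD : D.x = 1) (x : ZMod m) :
    ∃ X : ALData v R₁, (R : ℤ) ∣ X.x - D.x ∧
      transl m x.val * D.gl = X.gl * transl m (x * (D.v : ZMod m)).val := by
  obtain ⟨e, he⟩ := hm
  obtain ⟨e', he'⟩ := hR
  set u : ℤ := (x.val : ℤ) with hu
  set u' : ℤ := ((x * (D.v : ZMod m)).val : ℤ) with hu'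
  obtain ⟨t, ht⟩ : (m : ℤ) ∣ u * D.v - u' := by
    rw [← ZMod.intCast_zmod_eq_zero_iff_dvd]
    simp [hu, hu']
  have heZ : (R₁ : ℤ) = m * m * e := by exact_mod_cast he
  have he'Z : (R₁ : ℤ) = R * m * e' := by exact_mod_cast he'
  let X : ALData v R₁ :=
    { hq := D.hq
      x := 1 + u * D.z * (m * e)
      y := D.y + v * t - u * u' * v * D.z * e
      z := D.z
      v := D.v - u' * D.z * (m * e)
      eq_one := by
        linear_combination D.eq_one + (-(v : ℤ) * D.v) * hD + (v : ℤ) * D.z * m * e * ht +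
          (-(D.z * (v : ℤ) * t) + u * u' * v * D.z * D.z * e) * heZ }
  refine ⟨X, ?_, Units.ext ?_⟩
  · have hme : (m : ℤ) * e = R * e' := mul_left_cancel₀
      (Nat.cast_ne_zero.2 (NeZero.ne m)) (by linear_combination he'Z - heZ)
    exact ⟨u * D.z * e', by simp only [X, hD]; linear_combination u * D.z * hme⟩
  · rw [Units.val_mul, Units.val_mul, val_transl, val_transl, ALData.val_gl, ALData.val_gl]
    have hm0 : (m : ℝ) ≠ 0 := Nat.cast_ne_zero.2 (NeZero.ne m)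
    have htR : (u : ℝ) * D.v - u' = m * t := by exact_mod_cast ht
    have heR : (R₁ : ℝ) = m * m * e := by exact_mod_cast he
    ext i j
    fin_cases i <;> fin_cases j <;>
      simp [ALData.intMat, realMat, X, hD, Matrix.mul_apply, Fin.sum_univ_two, heR] <;>
      field_simp
    · linear_combination (v : ℝ) * htR
    · ring

theorem translSum_slash_al {v R R₁ m : ℕ} [NeZero m] (hR : R * m ∣ R₁) (hm : m * m ∣ R₁)
    (D : ALData v R₁) (hD : D.x = 1) {f : ℍ → ℂ} (hf : LowInv v R f) {w : ZMod m → ℂ} {μ : ℂ}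
    (hw : ∀ x, w x = μ * w (x * (D.v : ZMod m))) :
    translSum m w f ∣[(2 : ℤ)] D.gl = μ • translSum m w (f ∣[(2 : ℤ)] D.gl) := by
  have hdv : IsUnit (D.v : ZMod m) := by
    refine IsUnit.of_mul_eq_one ((v : ZMod m) * (D.x : ZMod m)) ?_
    have := congrArg (Int.cast : ℤ → ZMod m) D.eq_one
    push_cast at this
    rw [(ZMod.natCast_eq_zero_iff R₁ m).2 ((dvd_mul_left m m).trans hm), zero_mul, zero_mul,
      sub_zero] at this
    linear_combination this
  have hRR : R ∣ R₁ := (dvd_mul_right R m).trans hR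
  rw [translSum, translSum, SlashAction.sum_slash, Finset.smul_sum]
  refine Fintype.sum_bijective (fun x => x * (D.v : ZMod m))
    (Units.mulRight hdv.unit).bijective _ _ fun x => ?_
  obtain ⟨X, hX, he⟩ := transl_mul_al hR hm D hD x
  rw [ModularForm.smul_slash, D.σ_gl, ContinuousAlgEquiv.refl_apply, smul_smul, ← hw,
    ← SlashAction.slash_mul, he, SlashAction.slash_mul]
  congr 2
  rw [← alLower_gl hRR X, ← alLower_gl hRR D]
  exact hf.al_congr _ _ hX

/-- `U_v` does not see translations by `1/v`. -/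
theorem heckeU_slash_transl {v : ℕ} [NeZero v] {f : ℍ → ℂ}
    (hT : ∀ k : ℤ, f ∣[(2 : ℤ)] (mapGL ℝ (ModularGroup.T ^ k) : GL (Fin 2) ℝ) = f) (t : ℤ) :
    ModularForm.heckeU 2 v (f ∣[(2 : ℤ)] transl v t) = ModularForm.heckeU 2 v f := by
  rw [heckeU_eq_sum_zmod, heckeU_eq_sum_zmod]
  refine Fintype.sum_bijective (fun j => j + (t : ZMod v)) (Equiv.addRight _).bijective _ _
    fun j => ?_
  obtain ⟨k, hk⟩ : (v : ℤ) ∣ (j.val : ℤ) + t - ((j + (t : ZMod v)).val : ℤ) := by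
    rw [← ZMod.intCast_zmod_eq_zero_iff_dvd]
    simp
  have he : transl v t * ModularForm.heckeMatrix v j.val =
      mapGL ℝ (ModularGroup.T ^ k) * ModularForm.heckeMatrix v (j + (t : ZMod v)).val := by
    refine Units.ext ?_
    rw [Units.val_mul, Units.val_mul, val_transl, ModularForm.val_heckeMatrix (NeZero.ne v),
      ModularForm.val_heckeMatrix (NeZero.ne v), Newforms.mapGL_eq_realMat,
      ModularGroup.coe_T_zpow]
    have hkR : ((j.val : ℕ) : ℝ) + t - ((j + (t : ZMod v)).val : ℕ) = v * k := by exact_mod_cast hk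
    have hv0 : (v : ℝ) ≠ 0 := Nat.cast_ne_zero.2 (NeZero.ne v)
    ext a b
    fin_cases a <;> fin_cases b <;>
      simp [realMat, Matrix.mul_apply, Fin.sum_univ_two, -ZMod.natCast_val]
    try field_simp
    linear_combination hkR
  rw [← SlashAction.slash_mul, he, SlashAction.slash_mul, hT]

/-- `U_v` is a left inverse of `f ↦ f|diag(v, 1)` up to `v`. -/
theorem heckeU_slash_diag {v : ℕ} [NeZero v] {f : ℍ → ℂ}
    (hT : ∀ k : ℤ, f ∣[(2 : ℤ)] (mapGL ℝ (ModularGroup.T ^ k) : GL (Fin 2) ℝ) = f) :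
    ModularForm.heckeU 2 v (f ∣[(2 : ℤ)] ModularForm.heckeDiagMatrix v) = (v : ℂ) • f := by
  rw [ModularForm.heckeU_def, Finset.sum_congr rfl fun j _ => show
    (f ∣[(2 : ℤ)] ModularForm.heckeDiagMatrix v) ∣[(2 : ℤ)] ModularForm.heckeMatrix v j = f from ?_,
    Finset.sum_const, Finset.card_range, Nat.cast_smul_eq_nsmul]
  rw [← SlashAction.slash_mul]
  refine (ALData.slash_two_of_smul (g' := (mapGL ℝ (ModularGroup.T ^ (j : ℤ)) : GL (Fin 2) ℝ))
    (Nat.cast_pos.2 (Nat.pos_of_ne_zero (NeZero.ne v))) ?_ f).trans (hT _)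
  rw [Units.val_mul, ModularForm.val_heckeMatrix (NeZero.ne v),
    ModularForm.val_heckeDiagMatrix (NeZero.ne v), Newforms.mapGL_eq_realMat,
    ModularGroup.coe_T_zpow]
  ext a b
  fin_cases a <;> fin_cases b <;> simp [realMat, Matrix.mul_apply, Fin.sum_univ_two]

theorem slash_T_zpow_of_inv {M : ℕ} {f : ℍ → ℂ} (hf : ∀ γ ∈ Gamma0 M, f ∣[(2 : ℤ)] γ = f) (k : ℤ) :
    f ∣[(2 : ℤ)] (mapGL ℝ (ModularGroup.T ^ k) : GL (Fin 2) ℝ) = f :=
  hf _ (mem_gamma0_iff_dvd.2 (by simp [ModularGroup.coe_T_zpow]))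

theorem IsNeb.slash_T_zpow {M L : ℕ} {ε : DirichletCharacter ℂ L} {f : ℍ → ℂ} (hf : IsNeb M ε f)
    (k : ℤ) : f ∣[(2 : ℤ)] (mapGL ℝ (ModularGroup.T ^ k) : GL (Fin 2) ℝ) = f := by
  refine (hf.neb _ (mem_gamma0_iff_dvd.2 (by simp [ModularGroup.coe_T_zpow]))).trans ?_
  simp [ModularGroup.coe_T_zpow]

/-- On forms of level `R` an Atkin–Lehner matrix at `v` is `f ↦ f|diag(v, 1)`. -/
theorem slash_al_of_lower {v R : ℕ} [NeZero v] (D : ALData v R) {f : ℍ → ℂ}
    (hf : ∀ γ ∈ Gamma0 R, f ∣[(2 : ℤ)] γ = f) :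
    f ∣[(2 : ℤ)] D.gl = f ∣[(2 : ℤ)] ModularForm.heckeDiagMatrix v := by
  have hdet : (!![D.x, D.y; (R : ℤ) * D.z, (v : ℤ) * D.v] :
      Matrix (Fin 2) (Fin 2) ℤ).det = 1 := by
    rw [Matrix.det_fin_two_of]; linear_combination D.eq_one
  let δ : SL(2, ℤ) := ⟨_, hdet⟩
  have hδi : f ∣[(2 : ℤ)] (mapGL ℝ δ : GL (Fin 2) ℝ) = f :=
    hf δ (mem_gamma0_iff_dvd.2 (by simp [δ]))
  have he : D.gl = mapGL ℝ δ * ModularForm.heckeDiagMatrix v := by
    refine Units.ext ?_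
    rw [Units.val_mul, ALData.val_gl, ModularForm.val_heckeDiagMatrix (NeZero.ne v),
      Newforms.mapGL_eq_realMat]
    ext i j
    fin_cases i <;> fin_cases j <;>
      simp [ALData.intMat, realMat, δ, Matrix.mul_apply, Fin.sum_univ_two] <;> ring
  rw [he, SlashAction.slash_mul, hδi]

section Sq

variable {v R : ℕ} (D : ALData v R) (D₂ : ALData (v * v) R) (hx : D₂.x = D.x) (hy : D₂.y = D.y)
  (hz : D₂.z = D.z) (hv : D.v = (v : ℤ) * D₂.v)

include hx hy hz hv in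
theorem slash_al_sq [NeZero v] (f : ℍ → ℂ) :
    f ∣[(2 : ℤ)] D₂.gl = (f ∣[(2 : ℤ)] D.gl) ∣[(2 : ℤ)] ModularForm.heckeDiagMatrix v := by
  rw [← SlashAction.slash_mul]
  congr 1
  refine Units.ext ?_
  rw [Units.val_mul, ALData.val_gl, ALData.val_gl, ModularForm.val_heckeDiagMatrix (NeZero.ne v)]
  ext a b
  fin_cases a <;> fin_cases b <;>
    simp [ALData.intMat, realMat, hx, hy, hz, hv, Matrix.mul_apply, Fin.sum_univ_two] <;> ring

include hx hy hz hv in
theorem slash_diag_al_sq [NeZero v] {f : ℍ → ℂ}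
    (hf : ∀ γ ∈ Gamma0 (v * R), f ∣[(2 : ℤ)] γ = f) :
    (f ∣[(2 : ℤ)] ModularForm.heckeDiagMatrix v) ∣[(2 : ℤ)] D₂.gl = f ∣[(2 : ℤ)] D.gl := by
  let D' : ALData v R :=
    { hq := D.hq
      x := (v : ℤ) * D.x
      y := D.y
      z := D.z
      v := D₂.v
      eq_one := by linear_combination D.eq_one - (v : ℤ) * D.x * hv }
  rw [← SlashAction.slash_mul]
  refine (ALData.slash_two_of_smul (g' := D'.gl)
    (Nat.cast_pos.2 (Nat.pos_of_ne_zero (NeZero.ne v))) ?_ f).trans ?_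
  · rw [Units.val_mul, ALData.val_gl, ALData.val_gl,
      ModularForm.val_heckeDiagMatrix (NeZero.ne v)]
    ext a b
    fin_cases a <;> fin_cases b <;>
      simp [ALData.intMat, realMat, D', hx, hy, hz, Matrix.mul_apply, Fin.sum_univ_two] <;> ring_nf
    simp
  · obtain ⟨γ, hc, -, he⟩ := al_exists_mul D' D
    have hγ : f ∣[(2 : ℤ)] (mapGL ℝ γ : GL (Fin 2) ℝ) = f := hf γ (mem_gamma0_iff_dvd.2 hc)
    rw [he, SlashAction.slash_mul, hγ]

end Sq

/-- **Old at `v` and killed by `U_v` on both sides: zero.** -/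
theorem eq_zero_of_old {v R : ℕ} (hv : v.Prime) (hvR : ¬ v ∣ R) (D : ALData (v * v) R)
    {A : ℍ → ℂ} (hA : ∀ γ ∈ Gamma0 (v * R), A ∣[(2 : ℤ)] γ = A) {H : ℍ → ℂ}
    (hH : H = A + (-(v : ℂ)⁻¹) •
      (ModularForm.heckeU 2 v A ∣[(2 : ℤ)] ModularForm.heckeDiagMatrix v))
    (hW : ModularForm.heckeU 2 v (H ∣[(2 : ℤ)] D.gl) = 0) : H = 0 := by
  have : NeZero v := ⟨hv.ne_zero⟩
  have hv0 : (v : ℂ) ≠ 0 := Nat.cast_ne_zero.2 hv.ne_zero
  let D₁ : ALData v R :=
    { hq := hv.ne_zero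
      x := D.x
      y := D.y
      z := D.z
      v := (v : ℤ) * D.v
      eq_one := by have := D.eq_one; push_cast at this; linear_combination this }
  set dg := ModularForm.heckeDiagMatrix v with hdg
  set B := ModularForm.heckeU 2 v A with hB
  have hBinv : ∀ γ ∈ Gamma0 (v * R), B ∣[(2 : ℤ)] γ = B := fun γ hγ => by
    have : Fact v.Prime := ⟨hv⟩
    exact P2MW.S_ModularForm_heckeU_slash_eq_self_of_mem_Gamma0.solution 2 (dvd_mul_right v R)
      (by rintro _ ⟨δ, hδ, rfl⟩; exact hA δ hδ) (mapGL ℝ γ) ⟨γ, hγ, rfl⟩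
  set A' := A ∣[(2 : ℤ)] D₁.gl with hA'
  have hA'inv : ∀ γ ∈ Gamma0 (v * R), A' ∣[(2 : ℤ)] γ = A' := fun γ hγ => D₁.slash_gl_inv hA hγ
  -- `H|W`
  have hW1 : A ∣[(2 : ℤ)] D.gl = A' ∣[(2 : ℤ)] dg := slash_al_sq D₁ D rfl rfl rfl rfl A
  have hW2 : (B ∣[(2 : ℤ)] dg) ∣[(2 : ℤ)] D.gl = B ∣[(2 : ℤ)] D₁.gl :=
    slash_diag_al_sq D₁ D rfl rfl rfl rfl hBinv
  rw [hH, SlashAction.add_slash, ModularForm.smul_slash, D.σ_gl, ContinuousAlgEquiv.refl_apply, hW1,
    hW2, ModularForm.heckeU_add, ModularForm.heckeU_smul,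
    heckeU_slash_diag (slash_T_zpow_of_inv hA'inv)] at hW
  -- traces
  set TA := A' + ModularForm.heckeU 2 v (A' ∣[(2 : ℤ)] D₁.gl) with hTA
  set TB := B + ModularForm.heckeU 2 v (B ∣[(2 : ℤ)] D₁.gl) with hTB
  have hTA' : TA = A' + B := by rw [hTA, hA', D₁.slash_gl_gl hA]
  have hk : ((v : ℂ) ^ 2 - 1) • A' = TB - TA := by
    have hU : ModularForm.heckeU 2 v (B ∣[(2 : ℤ)] D₁.gl) = ((v : ℂ) ^ 2) • A' := by
      funext τ
      have := congrFun hW τ
      simp only [Pi.add_apply, Pi.smul_apply, smul_eq_mul, Pi.zero_apply] at this ⊢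
      field_simp at this
      linear_combination -this
    rw [hTB, hU, hTA', sub_smul, one_smul]
    abel
  have hne : (v : ℂ) ^ 2 - 1 ≠ 0 := by
    rw [sub_ne_zero]
    exact_mod_cast (Nat.one_lt_pow two_ne_zero hv.one_lt).ne'
  have hinv : ∀ g ∈ Gamma0 R, A' ∣[(2 : ℤ)] g = A' := by
    intro g hg
    have h1 := Newforms.trace_inv hv hvR D₁ hA'inv hg
    have h2 := Newforms.trace_inv hv hvR D₁ hBinv hg
    refine smul_right_injective _ hne ?_
    show ((v : ℂ) ^ 2 - 1) • (A' ∣[(2 : ℤ)] g) = ((v : ℂ) ^ 2 - 1) • A'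
    rw [← ModularForm.SL_smul_slash, hk, sub_eq_add_neg, SlashAction.add_slash,
      SlashAction.neg_slash, hTA, hTB, h1, h2]
  have hAk : A = A' ∣[(2 : ℤ)] dg := (D₁.slash_gl_gl hA).symm.trans (slash_al_of_lower D₁ hinv)
  have hBk : B = (v : ℂ) • A' := by
    rw [hB, hAk]
    exact heckeU_slash_diag (slash_T_zpow_of_inv hA'inv)
  rw [hH, hBk, ModularForm.smul_slash, ModularForm.σ_heckeDiagMatrix,
    ContinuousAlgEquiv.refl_apply, smul_smul, neg_mul, inv_mul_cancel₀ hv0, hAk, _root_.neg_smul, one_smul,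
    add_neg_cancel]

/-- The twist of a function of level `vR` by a character whose square is inverse to the nebentype
is killed by `U_v` after applying `W_{v²}`. -/
theorem heckeU_twist_slash_al {v R : ℕ} [hv : Fact v.Prime] (D : ALData (v * v) R)
    {ε α : DirichletCharacter ℂ v} (hεα : ε * α ^ 2 = 1) (hα : α ≠ 1) {f : ℍ → ℂ}
    (hf : IsNeb (v * R) ε f) (c : ℂ) :
    ModularForm.heckeU 2 v (translSum v (fun x => c * α⁻¹ x) f ∣[(2 : ℤ)] D.gl) = 0 := by
  have hεu : ∀ x : ZMod v, IsUnit x → α⁻¹ x * ε x⁻¹ = α x := by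
    intro x hx
    lift x to (ZMod v)ˣ using hx
    have h := congrArg (fun θ : DirichletCharacter ℂ v => θ (x⁻¹ : (ZMod v)ˣ)) hεα
    simp only [MulChar.mul_apply, MulChar.pow_apply_coe, MulChar.one_apply_coe] at h
    rw [ZMod.inv_coe_unit, MulChar.inv_apply_eq_inv']
    have hi : α (x⁻¹ : (ZMod v)ˣ) = (α x)⁻¹ := by
      rw [← MulChar.coe_toUnitHom, ← MulChar.coe_toUnitHom, map_inv, Units.val_inv_eq_inv_val]
    rw [hi] at h
    have h0 : (α x) ≠ 0 := (x.isUnit.map α).ne_zero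
    field_simp at h ⊢
    linear_combination h
  have hy : ((D.y : ℤ) : ZMod v) * ((R : ZMod v) * (D.z : ZMod v)) = -1 := by
    have := congrArg (Int.cast : ℤ → ZMod v) D.eq_one
    push_cast at this
    rw [ZMod.natCast_self, zero_mul, zero_mul, zero_mul, zero_sub] at this
    linear_combination -this
  rw [translSum, SlashAction.sum_slash, ModularForm.heckeU_def]
  have hterm : ∀ x : ZMod v, ModularForm.heckeU 2 v (((c * α⁻¹ x) •
      (f ∣[(2 : ℤ)] transl v x.val)) ∣[(2 : ℤ)] D.gl) =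
      (c * ε (-((D.y : ℤ) : ZMod v)) * α x) • ModularForm.heckeU 2 v f := by
    intro x
    rw [ModularForm.smul_slash, D.σ_gl, ContinuousAlgEquiv.refl_apply, ModularForm.heckeU_smul]
    rcases eq_or_ne x 0 with rfl | hx
    · rw [MulChar.map_zero, MulChar.map_zero]
      simp
    set u : ℤ := (x.val : ℤ) with hu
    set t : ℤ := ((((D.y : ℤ) : ZMod v) / (x * ((R : ZMod v) * (D.z : ZMod v)))).val : ℤ) with ht
    have hRz : (R : ZMod v) * (D.z : ZMod v) ≠ 0 := fun h => by simp [h] at hy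
    obtain ⟨s, hs⟩ : (v : ℤ) ∣ D.y + u * v * D.v - t * (v * D.x + u * R * D.z) := by
      rw [← ZMod.intCast_zmod_eq_zero_iff_dvd]
      simp only [Int.cast_sub, Int.cast_add, Int.cast_mul, Int.cast_natCast, ZMod.natCast_self,
        mul_zero, zero_mul, zero_add, add_zero, hu, ht, ZMod.natCast_zmod_val]
      have hR0 : (R : ZMod v) ≠ 0 := left_ne_zero_of_mul hRz
      have hz0 : (D.z : ZMod v) ≠ 0 := right_ne_zero_of_mul hRz
      field_simp
      ring
    have hdet : (!![(v : ℤ) * D.x + u * R * D.z, s; (v : ℤ) * R * D.z,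
        (v : ℤ) * D.v - t * R * D.z] : Matrix (Fin 2) (Fin 2) ℤ).det = 1 := by
      rw [Matrix.det_fin_two_of]
      have := D.eq_one
      push_cast at this
      linear_combination this + (R : ℤ) * D.z * hs
    let δ : SL(2, ℤ) := ⟨_, hdet⟩
    have hδ : δ ∈ Gamma0 (v * R) := mem_gamma0_iff_dvd.2 (by simp [δ])
    have he : f ∣[(2 : ℤ)] (transl v u * D.gl) = ε ((δ 1 1 : ℤ) : ZMod v) • (f ∣[(2 : ℤ)] transl v t) := by
      rw [ALData.slash_two_of_smul (g' := mapGL ℝ δ * transl v t) (Nat.cast_pos.2 hv.out.pos)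
        ?_ f,
        SlashAction.slash_mul]
      · have hn : f ∣[(2 : ℤ)] (mapGL ℝ δ : GL (Fin 2) ℝ) = ε ((δ 1 1 : ℤ) : ZMod v) • f :=
          hf.neb δ hδ
        rw [hn, ModularForm.smul_slash, σ_transl, ContinuousAlgEquiv.refl_apply]
      · rw [Units.val_mul, Units.val_mul, val_transl, val_transl, ALData.val_gl,
          Newforms.mapGL_eq_realMat]
        have hvR0 : (v : ℝ) ≠ 0 := Nat.cast_ne_zero.2 hv.out.ne_zero
        have hsR : (D.y : ℝ) + u * v * D.v - t * (v * D.x + u * R * D.z) = v * s := by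
          exact_mod_cast hs
        ext a b
        fin_cases a <;> fin_cases b <;>
          simp [ALData.intMat, realMat, δ, Matrix.mul_apply, Fin.sum_univ_two] <;>
          (try field_simp)
        · linear_combination hsR
        · ring
    rw [← SlashAction.slash_mul, he, ModularForm.heckeU_smul,
      heckeU_slash_transl hf.slash_T_zpow, smul_smul]
    congr 1
    have hS : ((δ 1 1 : ℤ) : ZMod v) = -((D.y : ℤ) : ZMod v) * x⁻¹ := by
      simp [δ, ht, -ZMod.natCast_val]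
      field_simp
      rw [ZMod.natCast_zmod_val]
      field_simp
      exact mul_div_cancel_left₀ _ hRz
    rw [hS, map_mul]
    linear_combination (c * ε (-((D.y : ℤ) : ZMod v))) * hεu x (isUnit_iff_ne_zero.2 hx)
  rw [← ModularForm.heckeU_def]
  have hsum : ∀ (s : Finset (ZMod v)) (G : ZMod v → ℍ → ℂ),
      ModularForm.heckeU 2 v (∑ x ∈ s, G x) = ∑ x ∈ s, ModularForm.heckeU 2 v (G x) := fun s G =>
    map_sum (AddMonoidHom.mk' (ModularForm.heckeU 2 v) (ModularForm.heckeU_add 2 v)) G s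
  rw [hsum, Finset.sum_congr rfl fun x _ => hterm x, ← Finset.sum_smul, ← Finset.mul_sum,
    MulChar.sum_eq_zero_of_ne_one hα, mul_zero, zero_smul]

end Fermat.Agent.RT.GammaH
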