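import Fermat.Agent.RT.GammaH.Cores
import Fermat.Agent.Gamma0.Coset

/-!
# Corestriction when `3` is not invertible

`Gamma0.ST` acts on the coset spaces through a group of order three. A function satisfying its
relation and vanishing at its fixed points is `f - f ∘ ST²` for an explicit `f`. So corestriction
is surjective for coefficients without `3`-torsion, and its kernel is spanned by the differences
when `Gamma0.ST` fixes no coset.
-/

set_option autoImplicit false

noncomputable section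

namespace Fermat.Agent.RT.GammaH

open Matrix.SpecialLinearGroup
open scoped MatrixGroups

variable {X Y A : Type*} [AddCommGroup A]

open scoped Classical in
/-- The least points of the free orbits of a map of order dividing three. -/
def orbitMin (RX : X → X) : Set X :=
  {x | WellOrderingRel x (RX x) ∧ WellOrderingRel x (RX (RX x))}

theorem orbitMin_fixed (RX : X → X) {x : X} (hx : RX x = x) : x ∉ orbitMin RX := fun h =>
  irrefl_of WellOrderingRel x (by have := h.1; rwa [hx] at this)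

theorem orbitMin_next {RX : X → X} (h3 : ∀ x, RX (RX (RX x)) = x) {x : X} (hx : x ∈ orbitMin RX) :
    RX x ∉ orbitMin RX ∧ RX (RX x) ∉ orbitMin RX := by
  refine ⟨fun h => asymm_of WellOrderingRel hx.1 ?_, fun h => asymm_of WellOrderingRel hx.2 ?_⟩
  · simpa [h3] using h.2
  · simpa [h3] using h.1

theorem orbitMin_exists {RX : X → X} (h3 : ∀ x, RX (RX (RX x)) = x) {x : X} (hx : RX x ≠ x) :
    x ∈ orbitMin RX ∨ RX x ∈ orbitMin RX ∨ RX (RX x) ∈ orbitMin RX := by
  have hx2 : RX (RX x) ≠ x := fun h => hx <| by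
    conv_lhs => rw [← h, h3]
  have hx12 : RX x ≠ RX (RX x) := fun h => hx <| by
    rw [h]; exact (congrArg RX h).trans (h3 x)
  simp only [orbitMin, Set.mem_ofPred_eq, h3]
  rcases trichotomous_of WellOrderingRel x (RX x) with h | h | h <;>
    rcases trichotomous_of WellOrderingRel x (RX (RX x)) with h' | h' | h' <;>
    rcases trichotomous_of WellOrderingRel (RX x) (RX (RX x)) with h'' | h'' | h''
  all_goals first
    | exact absurd h.symm hx | exact absurd h'.symm hx2 | exact absurd h'' hx12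
    | exact absurd (trans_of WellOrderingRel h h'') (asymm_of WellOrderingRel h')
    | exact absurd (trans_of WellOrderingRel h'' h) (asymm_of WellOrderingRel h')
    | exact Or.inl ⟨h, h'⟩ | exact Or.inr (Or.inl ⟨h'', h⟩) | exact Or.inr (Or.inr ⟨h', h''⟩)

open scoped Classical in
/-- An antidifference for the relation of a map of order dividing three. -/
def antiDiff (RX : X → X) (R : Y → Y) (π : Y → X) (v : Y → A) (y : Y) : A :=
  if π y ∈ orbitMin RX then v y
  else if RX (RX (π y)) ∈ orbitMin RX then v (R (R y)) + v y else 0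

theorem antiDiff_spec {RX : X → X} {R : Y → Y} {π : Y → X} (hπ : ∀ y, π (R y) = RX (π y))
    (hR : ∀ y, R (R (R y)) = y) (h3 : ∀ x, RX (RX (RX x)) = x) {v : Y → A}
    (hv : ∀ y, v y + v (R y) + v (R (R y)) = 0) (hfix : ∀ y, RX (π y) = π y → v y = 0) (y : Y) :
    v y = antiDiff RX R π v y - antiDiff RX R π v (R (R y)) := by
  classical
  unfold antiDiff
  rw [hπ, hπ, h3, hR]
  by_cases hf : RX (π y) = π y
  · rw [hfix y hf, hf, hf]
    simp [orbitMin_fixed RX hf]
  rcases orbitMin_exists h3 hf with h | h | h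
  · obtain ⟨h1, h2⟩ := orbitMin_next h3 h
    rw [if_pos h, if_neg h2, if_neg h1, sub_zero]
  · obtain ⟨h1, h2⟩ := orbitMin_next h3 h
    rw [h3] at h2
    rw [if_neg h2, if_neg h1, if_neg h1, if_pos h]
    rw [zero_sub, eq_neg_iff_add_eq_zero, ← add_assoc]
    exact hv y
  · obtain ⟨h1, h2⟩ := orbitMin_next h3 h
    rw [h3] at h1
    rw [if_neg h1, if_pos h, if_pos h]
    abel

theorem rel_of_diff {R : Y → Y} (hR : ∀ y, R (R (R y)) = y) (f : Y → A) (y : Y) :
    (f y - f (R (R y))) + (f (R y) - f (R (R (R y)))) + (f (R (R y)) - f (R (R (R (R y))))) = 0 := by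
  simp only [hR]
  abel

theorem Gamma0_ST_smul_ne {M r : ℕ} (hr : r.Prime) (hr3 : r % 3 = 2) (hrM : r ∣ M)
    (x : SL(2, ℤ) ⧸ CongruenceSubgroup.Gamma0 M) : Gamma0.ST • x ≠ x := by
  induction x using QuotientGroup.induction_on with | _ g => ?_
  intro hx
  have : Fact r.Prime := ⟨hr⟩
  have h := congrArg (ZMod.castHom hrM (ZMod r)) ((Gamma0.ST_smul_eq_iff g).1 hx)
  simp only [map_add, map_mul, map_pow, map_zero, map_intCast] at h
  have hdet : ((g 0 0 : ℤ) : ZMod r) * (g 1 1 : ℤ) - (g 0 1 : ℤ) * (g 1 0 : ℤ) = 1 := by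
    exact_mod_cast congrArg (Int.cast : ℤ → ZMod r) (Gamma0.det_eq g)
  set a : ZMod r := ((g 0 0 : ℤ) : ZMod r)
  set c : ZMod r := ((g 1 0 : ℤ) : ZMod r)
  by_cases hc : c = 0
  · have ha : a = 0 := by
      rw [hc] at h
      simpa using h
    rw [ha, hc] at hdet
    simp at hdet
  set t := a / c with ht
  have h1 : t ^ 2 + t + 1 = 0 := by
    rw [ht]
    field_simp
    linear_combination h
  have ht3 : t ^ 3 = 1 := by linear_combination (t - 1) * h1
  have ht1 : t ≠ 1 := fun he => by
    rw [he] at h1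
    have h3 : ((3 : ℕ) : ZMod r) = 0 := by
      push_cast
      linear_combination h1
    rw [ZMod.natCast_eq_zero_iff] at h3
    have := Nat.le_of_dvd (by norm_num) h3
    interval_cases r <;> omega
  have ht0 : t ≠ 0 := fun he => by rw [he] at ht3; simp at ht3
  have hdvd : orderOf t ∣ r - 1 := ZMod.orderOf_dvd_card_sub_one ht0
  rw [orderOf_eq_prime ht3 ht1] at hdvd
  omega

namespace IsCoreps

open Gamma0

variable {Γ' Γ : Subgroup SL(2, ℤ)} {ι : Type*} {σ : ι → SL(2, ℤ)}
  {R : Type*} [Semiring R] [Module R A] (h : IsCoreps Γ' Γ σ) [Fintype ι] (h2 : IsUnit (2 : R))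

omit h [Fintype ι] in
theorem isRelPair_diff (hneg : -1 ∈ Γ') (a : R) (w f : SL(2, ℤ) ⧸ Γ' → A) :
    IsRelPair (projS R a w) fun y => f y - f (Gamma0.ST • Gamma0.ST • y) := by
  refine ⟨(isRelPair_proj hneg a 0 w f).1, fun y => rel_of_diff (fun y => ?_) f y⟩
  rw [← mul_smul, ← mul_smul, ← pow_two, ← pow_succ, ST_pow_three, neg_one_smul_coset hneg]

omit h [Fintype ι] in
theorem ST_three (hneg : -1 ∈ Γ') (y : SL(2, ℤ) ⧸ Γ') :
    Gamma0.ST • Gamma0.ST • Gamma0.ST • y = y := by
  rw [← mul_smul, ← mul_smul, ← pow_two, ← pow_succ, ST_pow_three, neg_one_smul_coset hneg]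

include h2 in
/-- Surjectivity without `3`-torsion. -/
theorem cores_surjective_of_noThree (hneg : -1 ∈ Γ') (htor : ∀ a : A, a + a + a = 0 → a = 0) :
    Function.Surjective (h.cores (A := A) R) := by
  intro φ
  obtain ⟨c₀, hc₀, ⟨hu, hv⟩, rfl⟩ :=
    exists_cocycle_toHom (h.le hneg) φ (apply_neg_one h2 (h.le hneg) φ)
  obtain ⟨a, ha⟩ := exists_half (A := A) h2
  obtain ⟨w, hw⟩ := h.fibreSum_surjective (c₀ ModularGroup.S)
  have hfix : ∀ x, Gamma0.ST • x = x → c₀ Gamma0.ST x = 0 := fun x hx => htor _ <| by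
    simpa only [hx] using hv x
  obtain ⟨f, hf⟩ := h.fibreSum_surjective (antiDiff (fun x => Gamma0.ST • x)
    (fun x => Gamma0.ST • x) id (c₀ Gamma0.ST))
  obtain ⟨c, hc, hcS, hcR⟩ := exists_cocycle hneg (isRelPair_diff hneg a w f)
  refine ⟨hc.toHom, ?_⟩
  rw [h.cores_toHom hc]
  congr 1
  refine (h.isCocycle_fibreSum hc).ext_of_eq hc₀ (funext fun x => ?_) (funext fun x => ?_)
  · rw [hcS, projS, h.fibreSum_smul, h.fibreSum_sub, h.fibreSum_comp_smul, hw, hw,
      show c₀ ModularGroup.S (ModularGroup.S • x) = -c₀ ModularGroup.S x from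
      eq_neg_of_add_eq_zero_right (hu x), sub_neg_eq_add, ha]
  · rw [hcR, show (fun y => f y - f (Gamma0.ST • Gamma0.ST • y)) =
        f - fun y => f ((Gamma0.ST * Gamma0.ST) • y) from funext fun y => by
          rw [Pi.sub_apply, mul_smul],
      h.fibreSum_sub, h.fibreSum_comp_smul, hf, hf, mul_smul]
    exact (antiDiff_spec (RX := fun x => Gamma0.ST • x) (R := fun x => Gamma0.ST • x) (π := id)
      (fun _ => rfl) (ST_three (h.le hneg)) (ST_three (h.le hneg)) hv hfix x).symm

include h2 in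
/-- The kernel, when `Gamma0.ST` fixes no coset. -/
theorem exists_eq_sum_conjOp_of_free (hneg : -1 ∈ Γ')
    (hfree : ∀ x : SL(2, ℤ) ⧸ Γ, Gamma0.ST • x ≠ x) {φ : Additive Γ' →+ A}
    (hφ : h.cores R φ = 0) :
    ∃ ψ : ι → (Additive Γ' →+ A), φ = ∑ i, (h.conjOp R i (ψ i) - ψ i) := by
  classical
  refine h.exists_eq_sum_conjOp_of_solve hneg (apply_neg_one h2 hneg φ) hφ
    (fun _ => h.exists_solve_S h2 hneg) fun w hw hsum => ?_
  set g : SL(2, ℤ) ⧸ Γ' → A :=
    antiDiff (fun x => Gamma0.ST • x) (fun y => Gamma0.ST • y) h.proj w with hg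
  have hgw : ∀ y, w y = g y - g (Gamma0.ST • Gamma0.ST • y) :=
    antiDiff_spec (h.proj_smul Gamma0.ST) (ST_three hneg) (ST_three (h.le hneg)) hw
      fun y hy => absurd hy (hfree _)
  have hgsum : ∀ x, h.fibreSum g x = 0 := fun x => by
    obtain ⟨y, rfl⟩ := h.proj_surjective x
    rw [h.fibreSum_eq rfl]
    have e1 := h.fibreSum_eq (y := y) rfl w
    have e2 := h.fibreSum_eq (y := Gamma0.ST • Gamma0.ST • y) rfl w
    rw [hsum] at e1 e2
    simp only [hg, antiDiff, h.proj_rightMul]
    split_ifs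
    · exact e1.symm
    · rw [Finset.sum_add_distrib, ← e1, add_zero, e2]
      exact Finset.sum_congr rfl fun i _ => by rw [h.rightMul_smul, h.rightMul_smul]
    · simp
  obtain ⟨v, hv⟩ := h.exists_eq_sum_rightMul hgsum
  refine ⟨fun i y => v i y - v i (Gamma0.ST • Gamma0.ST • y),
    fun i => rel_of_diff (ST_three hneg) (v i), fun y => ?_⟩
  rw [hgw, hv, hv, ← Finset.sum_sub_distrib]
  refine Finset.sum_congr rfl fun i _ => ?_
  simp only [h.rightMul_smul]
  abel

end IsCoreps

end Fermat.Agent.RT.GammaH
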