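import Fermat.Agent.RT.GammaH.EigenLevel
import Fermat.Agent.RT.GammaH.NormBound

/-!
# A form with the level of the twisted newform prime to `v` is not an eigenvector of `W_v`

If it were, depleting the twist and the newform at the level would give `a_v = ±(v + 1)`.
-/

set_option autoImplicit false

noncomputable section

open CongruenceSubgroup UpperHalfPlane ModularFormClass Matrix.SpecialLinearGroup
open scoped MatrixGroups ModularForm

namespace Fermat.Agent.RT.GammaH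

open Fermat.Agent.Newforms (ALData realMat mem_gamma0_iff_dvd)

section General

variable {v R : ℕ}

theorem translSum_smul (m : ℕ) [NeZero m] (w : ZMod m → ℂ) (c : ℂ) (f : ℍ → ℂ) :
    translSum m w (c • f) = c • translSum m w f := by
  rw [translSum, translSum, Finset.smul_sum]
  refine Finset.sum_congr rfl fun x _ => ?_
  rw [ModularForm.smul_slash, σ_transl, ContinuousAlgEquiv.refl_apply, smul_comm]

theorem slash_al_smul (D : ALData v R) (c : ℂ) (f : ℍ → ℂ) :
    (c • f) ∣[(2 : ℤ)] D.gl = c • (f ∣[(2 : ℤ)] D.gl) := by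
  rw [ModularForm.smul_slash, D.σ_gl, ContinuousAlgEquiv.refl_apply]

theorem IsNeb.slash_al {M : ℕ} {f : ℍ → ℂ} (hf : IsNeb M (1 : DirichletCharacter ℂ 1) f)
    (D : ALData v R) (hM : M ∣ v * R) :
    IsNeb (v * R) (1 : DirichletCharacter ℂ 1) (f ∣[(2 : ℤ)] D.gl) := by
  refine ⟨?_, fun γ hγ => ?_⟩
  · obtain ⟨r, hr⟩ := D.gl_eq_ratGL
    rw [hr]
    exact hf.cusp.slash r
  · rw [MulChar.one_apply (isUnit_of_subsingleton _), one_smul,
      D.slash_gl_inv (fun g hg => (hf.of_dvd hM).slash_eq_of_trivial hg) hγ]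

/-- The identity of depleted functions forces `a = ±(v + 1)`. -/
theorem eq_of_old_eigen [NeZero R] (hv' : v.Prime) (D : ALData v R) (hDv : (v : ℤ) ∣ D.v)
    {F A : ℍ → ℂ} {aF aA : ℕ → ℂ} {a b κ : ℂ}
    (hF : IsNeb (v * R) (1 : DirichletCharacter ℂ 1) F) (hFa : HasCoeff F aF)
    (hA : IsNeb R (1 : DirichletCharacter ℂ 1) A) (hAa : HasCoeff A aA)
    (hF1 : aF 1 = 1) (hFv : aF v = b) (hA1 : aA 1 = 1) (hAv : aA v = a)
    (hrel : ∀ n, aF n - (if v ∣ n then b * aF (n / v) else 0) =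
      aA n - (if v ∣ n then a * aA (n / v) else 0) +
        (if v * v ∣ n then (v : ℂ) * aA (n / (v * v)) else 0))
    (hκ : F ∣[(2 : ℤ)] D.gl = κ • F) :
    ∃ s : ℂ, (s = 1 ∨ s = -1) ∧ a = s * ((v : ℂ) + 1) := by
  have : NeZero v := ⟨hv'.ne_zero⟩
  have hv0 : (v : ℂ) ≠ 0 := Nat.cast_ne_zero.2 hv'.ne_zero
  obtain ⟨w₀, hw₀⟩ := hDv
  let D₂ : ALData (v * v) R :=
    { hq := mul_ne_zero hv'.ne_zero hv'.ne_zero
      x := D.x
      y := D.y
      z := D.z
      v := w₀
      eq_one := by push_cast; linear_combination D.eq_one - (v : ℤ) * D.x * hw₀ }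
  have hFi : ∀ γ ∈ Gamma0 (v * R), F ∣[(2 : ℤ)] γ = F := fun γ => hF.slash_eq_of_trivial
  have hAi : ∀ γ ∈ Gamma0 R, A ∣[(2 : ℤ)] γ = A := fun γ => hA.slash_eq_of_trivial
  set dg := ModularForm.heckeDiagMatrix v with hdg
  set Fd := F ∣[(2 : ℤ)] dg with hFd
  set Ad := A ∣[(2 : ℤ)] dg with hAd
  set Add := Ad ∣[(2 : ℤ)] dg with hAdd
  have hFdc := hasCoeff_slash_diag hFa hv'.ne_zero
  have hAdc := hasCoeff_slash_diag hAa hv'.ne_zero
  have hAddc := hasCoeff_slash_diag hAdc hv'.ne_zero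
  -- squares to one
  have hκ2 : κ * κ = 1 := by
    have h := D.slash_gl_gl hFi
    rw [hκ, slash_al_smul, hκ, smul_smul] at h
    have h1 := (hF.smul (κ * κ)).coeff_unique (one_dvd _) (hFa.smul (κ * κ)) (h.symm ▸ hFa) 1
    simpa [hF1] using h1
  -- the identity of functions
  have hid : F + (-(b / v)) • Fd = (A + (-(a / v)) • Ad) + ((v : ℂ)⁻¹) • Add := by
    refine HasCoeff.ext (hFa.add (hFdc.smul _)) ((((hAa.add (hAdc.smul _)).add
      (hAddc.smul _))).congr fun n => ?_)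
    have h := hrel n
    by_cases hn : v ∣ n
    · obtain ⟨m, rfl⟩ := hn
      by_cases hm : v ∣ m
      · obtain ⟨k, rfl⟩ := hm
        rw [if_pos (dvd_mul_right _ _), if_pos (dvd_mul_right _ _),
          if_pos (by rw [← mul_assoc]; exact dvd_mul_right _ _), Nat.mul_div_cancel_left _ hv'.pos,
          ← mul_assoc, Nat.mul_div_cancel_left _ (Nat.mul_pos hv'.pos hv'.pos), mul_assoc] at h
        simp only [dvd_mul_right, if_true, Nat.mul_div_cancel_left _ hv'.pos]
        field_simp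
        linear_combination -h
      · rw [if_pos (dvd_mul_right _ _), if_pos (dvd_mul_right _ _),
          if_neg (fun hh => hm ((Nat.mul_dvd_mul_iff_left hv'.pos).1 hh)),
          Nat.mul_div_cancel_left _ hv'.pos] at h
        simp only [dvd_mul_right, if_true, Nat.mul_div_cancel_left _ hv'.pos, hm, if_false]
        field_simp
        linear_combination -h
    · rw [if_neg hn, if_neg hn, if_neg (fun hh => hn ((dvd_mul_right v v).trans hh))] at h
      simp only [hn, if_false]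
      linear_combination -h
  -- apply `W_{v²}`
  have hAD : A ∣[(2 : ℤ)] D.gl = Ad := slash_al_of_lower D hAi
  have hAdi : ∀ γ ∈ Gamma0 (v * R), Ad ∣[(2 : ℤ)] γ = Ad := fun γ hγ => by
    rw [← hAD]
    exact D.slash_gl_inv (fun g hg => (hA.of_dvd (dvd_mul_left R v)).slash_eq_of_trivial hg) hγ
  have hAdD : Ad ∣[(2 : ℤ)] D.gl = A := by
    rw [← hAD]
    exact D.slash_gl_gl fun g hg => (hA.of_dvd (dvd_mul_left R v)).slash_eq_of_trivial hg
  have e1 : F ∣[(2 : ℤ)] D₂.gl = κ • Fd := by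
    rw [slash_al_sq D D₂ rfl rfl rfl hw₀, hκ, ModularForm.smul_slash,
      ModularForm.σ_heckeDiagMatrix, ContinuousAlgEquiv.refl_apply]
  have e2 : Fd ∣[(2 : ℤ)] D₂.gl = κ • F := by
    rw [slash_diag_al_sq D D₂ rfl rfl rfl hw₀ hFi, hκ]
  have e3 : A ∣[(2 : ℤ)] D₂.gl = Add := by rw [slash_al_sq D D₂ rfl rfl rfl hw₀, hAD]
  have e4 : Ad ∣[(2 : ℤ)] D₂.gl = Ad := by
    rw [slash_diag_al_sq D D₂ rfl rfl rfl hw₀
      (fun g hg => (hA.of_dvd (dvd_mul_left R v)).slash_eq_of_trivial hg), hAD]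
  have e5 : Add ∣[(2 : ℤ)] D₂.gl = A := by
    rw [slash_diag_al_sq D D₂ rfl rfl rfl hw₀ hAdi, hAdD]
  have hW := congrArg (fun X => X ∣[(2 : ℤ)] D₂.gl) hid
  simp only [SlashAction.add_slash, slash_al_smul, e1, e2, e3, e4, e5, smul_smul] at hW
  -- first and `v`-th coefficients
  have hlev : IsNeb (v * v * R) (1 : DirichletCharacter ℂ 1) (κ • Fd) :=
    e1 ▸ hF.slash_al D₂ ⟨v, by ring⟩
  have : NeZero (v * v * R) :=
    ⟨mul_ne_zero (mul_ne_zero hv'.ne_zero hv'.ne_zero) (NeZero.ne R)⟩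
  have hL := hlev.add ((hF.of_dvd (M' := v * v * R) ⟨v, by ring⟩).smul (-(b / v) * κ))
  have hcL := (hFdc.smul κ).add (hFa.smul (-(b / v) * κ))
  have hcR := (hAddc.add (hAdc.smul (-(a / v)))).add (hAa.smul ((v : ℂ)⁻¹))
  rw [← hW] at hcR
  have h1 := hL.coeff_unique (one_dvd _) hcL hcR 1
  have hv1 : ¬ v ∣ 1 := hv'.not_dvd_one
  simp only [hv1, if_false, mul_zero, zero_add, hF1, hA1, mul_one] at h1
  have h2 := hL.coeff_unique (one_dvd _) hcL hcR v
  simp only [dvd_refl, if_true, Nat.div_self hv'.pos, hv1, if_false, hF1, hA1, hFv, hAv, mul_zero,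
    zero_add, mul_one] at h2
  field_simp at h1 h2
  have hb : b = -κ := by linear_combination (-b) * hκ2 + (-κ) * h1
  refine ⟨-κ, ?_, ?_⟩
  · rcases mul_self_eq_one_iff.1 hκ2 with h | h <;> simp [h]
  · have hne : (v : ℂ) - 1 ≠ 0 := by
      rw [sub_ne_zero]
      exact_mod_cast hv'.one_lt.ne'
    rw [hb] at h2
    refine mul_left_cancel₀ hne ?_
    linear_combination h2 + κ * hκ2

end General

variable {L : ℕ} [NeZero L] {K : Subgroup (ZMod L)ˣ} {χ : (ZMod L)ˣ →* ℂˣ} {e : ℕ}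

theorem toDir_intCast_eq_one {v : ℕ} (hv : v.Prime) (hvL : v ∣ L)
    (hvb : v ∉ badPrimes (toDir χ)) {d : ℤ} (hd : IsUnit (d : ZMod L))
    (hd1 : ((L / v : ℕ) : ℤ) ∣ d - 1) : toDir χ (d : ZMod L) = 1 := by
  by_contra hne
  refine hvb (mem_badPrimes.2 ⟨hv, hvL, hd.unit, ?_, by rwa [hd.unit_spec]⟩)
  rw [hd.unit_spec, ZMod.cast_intCast (Nat.div_dvd_of_dvd hvL)]
  simpa [sub_eq_zero] using (ZMod.intCast_zmod_eq_zero_iff_dvd _ _).2 hd1

/-- **No eigenvector of `W_v` when the twisted newform has level prime to `v`.** -/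
theorem al_ne_smul (hL : Squarefree L) (he : toDir χ ^ (2 * e + 1) = 1) {v : ℕ} (hv : v.Prime)
    (hvL : v ∣ L) (hvb : v ∉ badPrimes (toDir χ)) {f : FormH L K} (hf : IsChiForm χ f)
    {G : CuspForm (Gamma0 (twistLevel (toDir χ))) 2} (hG : G.IsNormalizedEigenform)
    (hGf : ∀ n, qCoeff G n = etaSeq (toDir χ) e n * qCoeff f n) {M : ℕ}
    {g : CuspForm (Gamma0 M) 2} (hMN : M ∣ twistLevel (toDir χ)) (hg : g.IsNormalizedEigenform)
    (heq : ∀ ℓ, ℓ.Prime → ¬ ℓ ∣ twistLevel (toDir χ) → qCoeff g ℓ = qCoeff G ℓ) (hvM : ¬ v ∣ M)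
    (D : ALData v (L / v * (∏ w ∈ badPrimes (toDir χ), w) * (L / v))) (hD : D.x = 1)
    (hDv : (v : ℤ) ∣ D.v) (κ : ℂ) : ⇑f ∣[(2 : ℤ)] D.gl ≠ κ • ⇑f := by
  classical
  intro hκ
  revert κ hDv hD D
  have : Fact v.Prime := ⟨hv⟩
  have := neZero_twistLevel (χ := toDir χ)
  set R₀ := L / v with hR₀
  set c := ∏ w ∈ badPrimes (toDir χ), w with hc
  intro D hD hDv κ hκ
  have : NeZero R₀ :=
    ⟨(Nat.div_pos (Nat.le_of_dvd (Nat.pos_of_ne_zero (NeZero.ne L)) hvL) hv.pos).ne'⟩
  have hvR₀ : ¬ v ∣ R₀ := coprime_div_of_squarefree hL hv hvL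
  have hLv : L = v * R₀ := (Nat.mul_div_cancel' hvL).symm
  have hdvd : ∀ w ∈ badPrimes (toDir χ), w ∣ R₀ := fun w hw => by
    obtain ⟨hwp, hwL, -⟩ := mem_badPrimes.1 hw
    rw [hLv] at hwL
    refine (hwp.dvd_mul.1 hwL).resolve_left fun h => hvb ?_
    rwa [← (Nat.prime_dvd_prime_iff_eq hwp hv).1 h]
  have hc0 : NeZero c :=
    ⟨Finset.prod_ne_zero_iff.2 fun w hw => (mem_badPrimes.1 hw).1.ne_zero⟩
  -- the twists are eigenvectors of `W_v`
  have chain : ∀ s : Finset ℕ, s ⊆ badPrimes (toDir χ) → ∃ (F : ℍ → ℂ) (κ' : ℂ),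
      IsNeb (v * (R₀ * ∏ w ∈ s, w)) (toDir χ * (∏ w ∈ s, etaLift (toDir χ) e w) ^ 2) F ∧
      HasCoeff F (fun n => (∏ w ∈ s, etaComp (toDir χ) e w (n : ZMod w)) * qCoeff f n) ∧
      F ∣[(2 : ℤ)] D.gl = κ' • F := by
    intro s
    induction s using Finset.induction_on with
    | empty =>
      intro _
      refine ⟨f, κ, ?_, (hasCoeff_formH f).congr fun n => by simp, hκ⟩
      rw [Finset.prod_empty, Finset.prod_empty, mul_one, one_pow, mul_one, ← hLv]
      exact isNeb_of_isChiForm hf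
    | insert w s hws ih =>
      intro hs
      have hs' := (Finset.subset_insert w s).trans hs
      have hwb := hs (Finset.mem_insert_self w s)
      obtain ⟨hw, hwL, -⟩ := mem_badPrimes.1 hwb
      obtain ⟨F, κ', hF, hFa, hFD⟩ := ih hs'
      have : Fact w.Prime := ⟨hw⟩
      set R := R₀ * ∏ x ∈ s, x with hR
      have : NeZero (v * R) := ⟨mul_ne_zero hv.ne_zero (mul_ne_zero (NeZero.ne R₀)
        (Finset.prod_ne_zero_iff.2 fun x hx => (mem_badPrimes.1 (hs' hx)).1.ne_zero))⟩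
      have hLM : L ∣ v * R := ⟨∏ x ∈ s, x, by rw [hR, hLv, mul_assoc]⟩
      have hwM : w ∣ v * R := hwL.trans hLM
      obtain ⟨F', hF', hFa', hF'def⟩ := exists_twist_prime hwM hwL hLM hF hFa
        (etaComp_ne_one hL he hwb)
      have hlow : LowInv v R F := by
        refine hF.lowInv dvd_rfl fun d hd hd1 => ?_
        have hu : IsUnit (d : ZMod L) := (ZMod.coe_int_isUnit_iff_isCoprime _ _).2
          (hd.of_isCoprime_of_dvd_right (Int.natCast_dvd_natCast.2 hLM)).symm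
        have hd1' : (R₀ : ℤ) ∣ d - 1 :=
          (Int.natCast_dvd_natCast.2 (dvd_mul_right _ _)).trans hd1
        rw [← hu.unit_spec, MulChar.mul_apply, MulChar.pow_apply_coe, mulChar_prod_apply,
          hu.unit_spec, toDir_intCast_eq_one hv hvL hvb hu hd1', Finset.prod_eq_one, one_pow,
          one_mul]
        intro x hx
        have hxL := (mem_badPrimes.1 (hs' hx)).2.1
        rw [etaLift, dif_pos hxL, ← hu.unit_spec, DirichletCharacter.changeLevel_eq_cast_of_dvd,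
          hu.unit_spec, ZMod.cast_intCast hxL]
        have : (d : ZMod x) = 1 := by
          simpa [sub_eq_zero] using (ZMod.intCast_zmod_eq_zero_iff_dvd _ _).2
            ((Int.natCast_dvd_natCast.2 (hdvd x (hs' hx))).trans hd1')
        rw [this, map_one]
      have hprod : (∏ x ∈ s, x) * w ∣ c := by
        rw [mul_comm, ← Finset.prod_insert (f := fun x : ℕ => x) hws]
        exact Finset.prod_dvd_prod_of_subset _ _ _ hs
      have hwc : w ∣ c := (dvd_mul_left w _).trans hprod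
      have hR1 : R * w ∣ R₀ * c * R₀ := by
        rw [hR, mul_assoc R₀]
        exact (Nat.mul_dvd_mul_left R₀ hprod).trans (dvd_mul_right _ _)
      have hm1 : w * w ∣ R₀ * c * R₀ :=
        Nat.mul_dvd_mul (hwc.trans (dvd_mul_left c R₀)) (hdvd w hwb)
      have hDu : IsUnit (D.v : ZMod w) := by
        refine IsUnit.of_mul_eq_one (v : ZMod w) ?_
        have h := congrArg (Int.cast : ℤ → ZMod w) D.eq_one
        push_cast [hD] at h
        rw [show ((R₀ : ℕ) : ZMod w) = 0 from (ZMod.natCast_eq_zero_iff _ _).2 (hdvd w hwb)] at h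
        linear_combination h
      set α := etaComp (toDir χ) e w with hα
      refine ⟨F', α (D.v : ZMod w) * κ', ?_, hFa'.congr fun n => ?_, ?_⟩
      · rw [show v * (R₀ * ∏ x ∈ insert w s, x) = v * R * w by
            rw [Finset.prod_insert hws, hR]; ring,
          Finset.prod_insert hws, mul_pow, mul_comm (etaLift (toDir χ) e w ^ 2),
          ← mul_assoc (toDir χ), etaLift, dif_pos hwL]
        exact hF'
      · rw [Finset.prod_insert hws, mul_assoc]
      · rw [hF'def, translSum_slash_al (μ := α (D.v : ZMod w)) hR1 hm1 D hD hlow (fun x => ?_),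
          hFD, translSum_smul, smul_smul]
        have h1 : α (D.v : ZMod w) * α⁻¹ (D.v : ZMod w) = 1 := by
          rw [← MulChar.mul_apply, mul_inv_cancel, MulChar.one_apply hDu]
        rw [map_mul]
        linear_combination -((gaussSum α⁻¹ ZMod.stdAddChar)⁻¹ * α⁻¹ x) * h1
  obtain ⟨F, κ', hF, hFa, hFD⟩ := chain _ subset_rfl
  have hN : twistLevel (toDir χ) = v * (R₀ * c) := by rw [twistLevel, ← mul_assoc, ← hLv]
  have : NeZero (v * (R₀ * c)) := ⟨hN ▸ NeZero.ne _⟩
  obtain rfl : F = ⇑G := hFa.ext (((isNeb_cuspForm G).hasCoeff (one_dvd _)).congr fun n => hGf n)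
  have hGn : IsNeb (v * (R₀ * c)) (1 : DirichletCharacter ℂ 1) G :=
    (isNeb_cuspForm G).of_dvd (dvd_of_eq hN)
  -- depletion at `R₀`
  have hrN : R₀ ∣ v * (R₀ * c) := (dvd_mul_right R₀ c).trans (dvd_mul_left _ v)
  obtain ⟨G', hG', hG'a, hG'def⟩ := exists_deplete (r := R₀) hrN (one_dvd _) hGn
    (hGn.hasCoeff (one_dvd _))
  have : NeZero M :=
    ⟨fun h => NeZero.ne (twistLevel (toDir χ)) (Nat.eq_zero_of_zero_dvd (h ▸ hMN))⟩
  have hMR : M ∣ R₀ * c :=
    ((hv.coprime_iff_not_dvd.2 hvM).symm).dvd_of_dvd_mul_left (hN ▸ hMN)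
  have : NeZero (R₀ * c) := ⟨mul_ne_zero (NeZero.ne R₀) (NeZero.ne c)⟩
  obtain ⟨A, hA, hAa, -⟩ := exists_deplete (r := R₀) (dvd_mul_right R₀ c) (one_dvd _)
    ((isNeb_cuspForm g).of_dvd hMR) ((isNeb_cuspForm g).hasCoeff (one_dvd M))
  have hDu : IsUnit (D.v : ZMod R₀) := by
    refine IsUnit.of_mul_eq_one (v : ZMod R₀) ?_
    have h := congrArg (Int.cast : ℤ → ZMod R₀) D.eq_one
    push_cast [hD] at h
    rw [ZMod.natCast_self] at h
    linear_combination h
  have hGlow : LowInv v (R₀ * c) G := hGn.lowInv dvd_rfl fun d _ _ =>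
    MulChar.one_apply (isUnit_of_subsingleton _)
  have hG'D : G' ∣[(2 : ℤ)] D.gl = κ' • G' := by
    rw [hG'def, translSum_slash_al (μ := 1) dvd_rfl
      (Nat.mul_dvd_mul (dvd_mul_right R₀ c) dvd_rfl) D hD hGlow (fun x => ?_), one_smul, hFD,
      translSum_smul]
    rw [one_mul, DeligneSerre.depleteWeight, DeligneSerre.depleteWeight]
    congr 1
    refine (Fintype.sum_bijective (fun u : (ZMod R₀)ˣ => hDu.unit * u)
      (Group.mulLeft_bijective _) _ _ fun u => ?_).symm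
    simp [mul_assoc]
  have hvR : v.Coprime R₀ := hv.coprime_iff_not_dvd.2 hvR₀
  have hvN : v ∣ twistLevel (toDir χ) := hvL.trans dvd_twistLevel
  have hcopm : ∀ m, (v * m).Coprime R₀ ↔ m.Coprime R₀ := fun m =>
    ⟨fun h => h.coprime_mul_left, fun h => hvR.mul_left h⟩
  refine (eq_of_old_eigen (a := qCoeff g v) (b := qCoeff G v) hv D hDv
    (by rw [mul_assoc, mul_assoc] at hG'; rw [mul_assoc]; exact hG') hG'a hA hAa
    (by rw [if_pos (Nat.coprime_one_left _), hG.qCoeff_one]) (by rw [if_pos hvR])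
    (by rw [if_pos (Nat.coprime_one_left _), hg.qCoeff_one]) (by rw [if_pos hvR])
    (fun n => ?_) hG'D).elim fun s hs => qCoeff_ne_mul_succ hv hvM hg hs.1 hs.2
  have hrG := (Newforms.hOp_eq_smul_iff hv G _).1 (Newforms.hOp_of_isNormalizedEigenform hG hv)
  have hrg := (Newforms.hOp_eq_smul_iff hv g _).1 (Newforms.hOp_of_isNormalizedEigenform hg hv)
  by_cases hn : v ∣ n
  · obtain ⟨m, rfl⟩ := hn
    have h1 := hrG m
    have h2 := hrg m
    rw [mul_comm m v] at h1 h2
    rw [HeckeDuality.eulerWeight, if_pos hvN] at h1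
    rw [HeckeDuality.eulerWeight, if_neg hvM] at h2
    simp only [dvd_mul_right, if_true, Nat.mul_div_cancel_left _ hv.pos, hcopm]
    by_cases hm : v ∣ m
    · obtain ⟨k, rfl⟩ := hm
      rw [if_pos (show v * v ∣ v * (v * k) by rw [← mul_assoc]; exact dvd_mul_right _ _),
        ← mul_assoc v v k, Nat.mul_div_cancel_left _ (Nat.mul_pos hv.pos hv.pos), mul_assoc]
      rw [if_pos (dvd_mul_right _ _), Nat.mul_div_cancel_left _ hv.pos] at h1 h2
      simp only [hcopm]
      split_ifs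
      · linear_combination h1 - h2
      · ring
    · rw [if_neg hm] at h1 h2
      rw [if_neg fun hh => hm ((Nat.mul_dvd_mul_iff_left hv.pos).1 hh)]
      split_ifs
      · linear_combination h1 - h2
      · ring
  · rw [if_neg hn, if_neg hn, if_neg fun hh => hn ((dvd_mul_right v v).trans hh)]
    by_cases hnR : n.Coprime R₀
    · rw [if_pos hnR, if_pos hnR]
      have hnL : n.Coprime L := by
        rw [hLv]; exact Nat.Coprime.mul_right (hv.coprime_iff_not_dvd.2 hn).symm hnR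
      have hnN : n.Coprime (twistLevel (toDir χ)) :=
        (hnL.mul_right hnL).coprime_dvd_right (by rw [← pow_two]; exact twistLevel_dvd_sq)
      rw [qCoeff_eq_of_coprime hG hg hMN heq hnN]
      ring
    · rw [if_neg hnR, if_neg hnR]
      ring

end Fermat.Agent.RT.GammaH
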